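import Mathlib
import Fermat.Prelude.Def_CuspForm_IntegralStructure
import Fermat.Prelude.Def_ModularForm_HeckeOperator

set_option autoImplicit false

open UpperHalfPlane ModularForm
open scoped MatrixGroups

namespace Fermat.Agent.S23

noncomputable section

/-- Base change `ℤ⟦q⟧ → ℂ⟦q⟧`. -/
abbrev zc (p : PowerSeries ℤ) : PowerSeries ℂ := PowerSeries.map (Int.castRingHom ℂ) p

/-- `Γ₀(N)` inside `GL(2,ℝ)`. -/
abbrev G0 (N : ℕ) : Subgroup (GL (Fin 2) ℝ) :=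
  Subgroup.map (Matrix.SpecialLinearGroup.mapGL ℝ) (CongruenceSubgroup.Gamma0 N)

/-- The coset space used by Mathlib's `SlashInvariantForm.quotientFunc`. -/
abbrev Q0 (N : ℕ) : Type := (𝒮ℒ) ⧸ (G0 N).subgroupOf 𝒮ℒ

instance instFiniteQ0 (N : ℕ) [NeZero N] : Finite (Q0 N) := by
  unfold Q0
  infer_instance

/-- The coset of the identity. -/
def q1 (N : ℕ) : Q0 N := (⟦(1 : 𝒮ℒ)⟧ : Q0 N)

/-- The interpolation denominator `U = ∏_{q ≠ q₁} (a·b^q − a^q·b)`. -/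
def Udenom (N : ℕ) [NeZero N] {w : ℤ} (a b : ModularForm (G0 N) w) (τ : ℍ) : ℂ :=
  letI := Fintype.ofFinite (Q0 N)
  letI := Classical.decEq (Q0 N)
  ∏ q ∈ (Finset.univ.erase (q1 N)),
    (a τ * SlashInvariantForm.quotientFunc (ℋ := 𝒮ℒ) b q τ
      - SlashInvariantForm.quotientFunc (ℋ := 𝒮ℒ) a q τ * b τ)

end

end Fermat.Agent.S23
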