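import Mathlib
import Fermat.Prelude.Def_CuspForm_IntegralStructure

set_option autoImplicit false

namespace Fermat.Agent.S23.Defs

open UpperHalfPlane ModularForm
open scoped MatrixGroups ModularForm

/-- A complex power series all of whose coefficients are integers. -/
def IsIntPS (p : PowerSeries ℂ) : Prop := ∀ n : ℕ, ∃ m : ℤ, PowerSeries.coeff n p = (m : ℂ)

/-- The `ℂ`-span of the weight-`w` modular forms on `Γ` with integral `q`-expansion. -/
noncomputable def ratSpan (Γ : Subgroup (GL (Fin 2) ℝ)) [Γ.HasDetOne] (w : ℤ) :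
    Submodule ℂ (ModularForm Γ w) :=
  Submodule.span ℂ {h | IsIntPS (qExpansion 1 h)}

/-- `F` is the underlying function of an element of `ratSpan Γ w`. -/
def InRatSpan (Γ : Subgroup (GL (Fin 2) ℝ)) [Γ.HasDetOne] (w : ℤ) (F : ℍ → ℂ) : Prop :=
  ∃ h : ModularForm Γ w, h ∈ ratSpan Γ w ∧ ⇑h = F

end Fermat.Agent.S23.Defs
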