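import Mathlib

set_option autoImplicit false

namespace Fermat.Agent.S23.Interp

open UpperHalfPlane ModularForm SlashInvariantForm Polynomial Filter
open scoped MatrixGroups ModularForm Manifold

noncomputable section

/-! ### Packaging level-one forms -/

/-- Automorphy of weight `K` under `SL(2, ℤ)`, in pointwise form. -/
def IsAut (K : ℤ) (g : ℍ → ℂ) : Prop :=
  ∀ (γ : SL(2, ℤ)) (z : ℍ), g (γ • z) = ((γ 1 0 : ℂ) * z + (γ 1 1 : ℂ)) ^ K * g z

lemma IsAut.slash_eq {K : ℤ} {g : ℍ → ℂ} (h : IsAut K g) (γ : SL(2, ℤ)) : g ∣[K] γ = g := by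
  ext z
  exact (slash_action_eq'_iff K g γ z).mpr (h γ z)

/-- A level-one modular form from a holomorphic, bounded, automorphic function. -/
def mkMF (K : ℤ) (g : ℍ → ℂ) (hd : MDiff g) (hb : IsBoundedAtImInfty g) (ha : IsAut K g) :
    ModularForm 𝒮ℒ K where
  toFun := g
  slash_action_eq' := by
    rintro _ ⟨γ, rfl⟩
    exact ha.slash_eq γ
  holo' := hd
  bdd_at_cusps' {c} hc := by
    rw [Subgroup.IsArithmetic.isCusp_iff_isCusp_SL2Z] at hc
    rw [OnePoint.isBoundedAt_iff_forall_SL2Z hc]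
    intro γ _
    rw [ha.slash_eq γ]
    exact hb

@[simp] lemma mkMF_apply (K : ℤ) (g : ℍ → ℂ) (hd : MDiff g) (hb : IsBoundedAtImInfty g)
    (ha : IsAut K g) (τ : ℍ) : mkMF K g hd hb ha τ = g τ := rfl

/-- A level-one cusp form from a holomorphic automorphic function vanishing at `i∞`. -/
def mkCF (K : ℤ) (g : ℍ → ℂ) (hd : MDiff g) (hb : IsZeroAtImInfty g) (ha : IsAut K g) :
    CuspForm 𝒮ℒ K where
  toFun := g
  slash_action_eq' := by
    rintro _ ⟨γ, rfl⟩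
    exact ha.slash_eq γ
  holo' := hd
  zero_at_cusps' {c} hc := by
    rw [Subgroup.IsArithmetic.isCusp_iff_isCusp_SL2Z] at hc
    rw [OnePoint.isZeroAt_iff_forall_SL2Z hc]
    intro γ _
    rw [ha.slash_eq γ]
    exact hb

@[simp] lemma mkCF_apply (K : ℤ) (g : ℍ → ℂ) (hd : MDiff g) (hb : IsZeroAtImInfty g)
    (ha : IsAut K g) (τ : ℍ) : mkCF K g hd hb ha τ = g τ := rfl

/-! ### Translates -/

section translates

variable {𝒢 : Subgroup (GL (Fin 2) ℝ)} {F : Type*} [FunLike F ℍ ℂ] {k : ℤ}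

local notation "𝒬" => 𝒮ℒ ⧸ (𝒢.subgroupOf 𝒮ℒ)

lemma mdiff_quotientFunc [ModularFormClass F 𝒢 k] (u : F) (q : 𝒬) :
    MDiff (quotientFunc (ℋ := 𝒮ℒ) u q) := by
  induction q using Quotient.inductionOn with
  | h r => exact (ModularForm.translate u r.val⁻¹).holo'

lemma bdd_quotientFunc [𝒢.IsArithmetic] [ModularFormClass F 𝒢 k] (u : F) (q : 𝒬) :
    IsBoundedAtImInfty (quotientFunc (ℋ := 𝒮ℒ) u q) := by
  induction q using Quotient.inductionOn with
  | h r =>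
    obtain ⟨γ, hγ⟩ : ∃ γ : SL(2, ℤ), Matrix.SpecialLinearGroup.mapGL ℝ γ = r.val⁻¹ :=
      inv_mem r.2
    rw [quotientFunc_mk, ← hγ]
    exact ModularFormClass.bdd_at_infty_slash u γ

lemma zero_quotientFunc [𝒢.IsArithmetic] [CuspFormClass F 𝒢 k] (u : F) (q : 𝒬) :
    IsZeroAtImInfty (quotientFunc (ℋ := 𝒮ℒ) u q) := by
  induction q using Quotient.inductionOn with
  | h r =>
    obtain ⟨γ, hγ⟩ : ∃ γ : SL(2, ℤ), Matrix.SpecialLinearGroup.mapGL ℝ γ = r.val⁻¹ :=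
      inv_mem r.2
    rw [quotientFunc_mk, ← hγ]
    exact CuspFormClass.zero_at_infty_slash u γ

/-- The permutation of the cosets induced by `γ`. -/
def perm (γ : SL(2, ℤ)) : Equiv.Perm 𝒬 :=
  MulAction.toPerm ((⟨Matrix.SpecialLinearGroup.mapGL ℝ γ, ⟨γ, rfl⟩⟩ : 𝒮ℒ)⁻¹)

lemma quotientFunc_smul_apply [SlashInvariantFormClass F 𝒢 k] (u : F) (q : 𝒬) (γ : SL(2, ℤ))
    (τ : ℍ) :
    quotientFunc (ℋ := 𝒮ℒ) u q (γ • τ) =
      ((γ 1 0 : ℂ) * τ + (γ 1 1 : ℂ)) ^ k * quotientFunc (ℋ := 𝒮ℒ) u (perm γ q) τ := by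
  have h : (quotientFunc (ℋ := 𝒮ℒ) u q ∣[k] γ) τ = quotientFunc (ℋ := 𝒮ℒ) u
      ((⟨Matrix.SpecialLinearGroup.mapGL ℝ γ, ⟨γ, rfl⟩⟩ : 𝒮ℒ)⁻¹ • q) τ :=
    congr_fun (quotientFunc_smul (ℋ := 𝒮ℒ) u
      (h := Matrix.SpecialLinearGroup.mapGL ℝ γ) ⟨γ, rfl⟩ q) τ
  rw [SL_slash_apply] at h
  have hd : denom γ τ = (γ 1 0 : ℂ) * τ + (γ 1 1 : ℂ) := rfl
  have hne : denom γ τ ≠ 0 := denom_ne_zero γ τ
  rw [← hd]
  change _ = _ * quotientFunc (ℋ := 𝒮ℒ) u
    ((⟨Matrix.SpecialLinearGroup.mapGL ℝ γ, ⟨γ, rfl⟩⟩ : 𝒮ℒ)⁻¹ • q) τ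
  rw [← h, zpow_neg]
  field_simp

lemma quotientFunc_one [SlashInvariantFormClass F 𝒢 k] (u : F) (τ : ℍ) :
    quotientFunc (ℋ := 𝒮ℒ) u (⟦(1 : 𝒮ℒ)⟧ : 𝒬) τ = u τ := by
  simp

end translates

/-! ### Good functions -/

/-- Holomorphic functions on `ℍ` bounded at `i∞`. -/
def goodSubring : Subring (ℍ → ℂ) where
  carrier := {h | MDiff h ∧ IsBoundedAtImInfty h}
  mul_mem' := fun ha hb => ⟨ha.1.mul hb.1, ha.2.mul hb.2⟩
  one_mem' := ⟨mdifferentiable_const, const_boundedAtFilter _ _⟩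
  add_mem' := fun ha hb => ⟨ha.1.add hb.1, ha.2.add hb.2⟩
  zero_mem' := ⟨mdifferentiable_const, const_boundedAtFilter _ _⟩
  neg_mem' := fun ha => ⟨ha.1.neg, ha.2.neg⟩

lemma mem_goodSubring {h : ℍ → ℂ} : h ∈ goodSubring ↔ MDiff h ∧ IsBoundedAtImInfty h := Iff.rfl

lemma coeff_mem_of_mem_liftsRing {S : Subring (ℍ → ℂ)} {p : (ℍ → ℂ)[X]}
    (hp : p ∈ liftsRing S.subtype) (m : ℕ) : p.coeff m ∈ S := by
  obtain ⟨x, hx⟩ := (lifts_iff_coeff_lifts p).mp ((lifts_iff_liftsRing _ p).mpr hp) m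
  rw [← hx]
  exact x.2

lemma C_mem_liftsRing {S : Subring (ℍ → ℂ)} {h : ℍ → ℂ} (hh : h ∈ S) :
    C h ∈ liftsRing S.subtype :=
  (lifts_iff_liftsRing _ _).mp (C'_mem_lifts ⟨⟨h, hh⟩, rfl⟩)

lemma X_mem_liftsRing (S : Subring (ℍ → ℂ)) : (X : (ℍ → ℂ)[X]) ∈ liftsRing S.subtype :=
  (lifts_iff_liftsRing _ _).mp (X_mem_lifts _)

/-! ### Homogeneous evaluation -/

/-- Homogeneous evaluation of degree `n` of a polynomial at `(x, y)`. -/
def hom (n : ℕ) (x y : ℂ) (p : ℂ[X]) : ℂ :=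
  ∑ m ∈ Finset.range (n + 1), p.coeff m * x ^ m * y ^ (n - m)

lemma hom_C_mul (n : ℕ) (x y c : ℂ) (p : ℂ[X]) : hom n x y (C c * p) = c * hom n x y p := by
  simp [hom, coeff_C_mul, Finset.mul_sum, mul_assoc]

lemma hom_sum {ι : Type*} (s : Finset ι) (n : ℕ) (x y : ℂ) (p : ι → ℂ[X]) :
    hom n x y (∑ q ∈ s, p q) = ∑ q ∈ s, hom n x y (p q) := by
  simp only [hom, finsetSum_coeff, Finset.sum_mul]
  exact Finset.sum_comm

lemma hom_mul_linear (n : ℕ) (x y β α : ℂ) (p : ℂ[X]) (hp : p.natDegree ≤ n) :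
    hom (n + 1) x y (p * (C β * X - C α)) = hom n x y p * (β * x - α * y) := by
  have hc : ∀ m, (p * (C β * X - C α)).coeff (m + 1) = β * p.coeff m - α * p.coeff (m + 1) := by
    intro m
    rw [mul_sub, coeff_sub, ← mul_assoc, coeff_mul_X, coeff_mul_C, coeff_mul_C]
    ring
  have hc0 : (p * (C β * X - C α)).coeff 0 = - α * p.coeff 0 := by
    rw [mul_sub, coeff_sub, ← mul_assoc, coeff_mul_X_zero, coeff_mul_C]
    ring
  have hn : p.coeff (n + 1) = 0 := coeff_eq_zero_of_natDegree_lt (by omega)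
  have key : ∑ m ∈ Finset.range (n + 1), p.coeff (m + 1) * x ^ (m + 1) * y ^ (n - m)
      + p.coeff 0 * y ^ (n + 1) = y * ∑ m ∈ Finset.range (n + 1), p.coeff m * x ^ m * y ^ (n - m) := by
    have h1 := Finset.sum_range_succ' (fun m => p.coeff m * x ^ m * y ^ (n + 1 - m)) (n + 1)
    have h2 := Finset.sum_range_succ (fun m => p.coeff m * x ^ m * y ^ (n + 1 - m)) (n + 1)
    simp only [hn, zero_mul, add_zero, Nat.add_sub_add_right, pow_zero, mul_one, Nat.sub_zero]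
      at h1 h2
    rw [← h1, h2, Finset.mul_sum]
    refine Finset.sum_congr rfl fun m hm => ?_
    have hm' : m ≤ n := Nat.lt_succ_iff.mp (Finset.mem_range.mp hm)
    rw [Nat.succ_sub hm', pow_succ]
    ring
  unfold hom
  rw [Finset.sum_range_succ' _ (n + 1)]
  simp only [hc, hc0, Nat.add_sub_add_right, pow_zero, mul_one, Nat.sub_zero]
  have e1 : ∑ m ∈ Finset.range (n + 1), (β * p.coeff m - α * p.coeff (m + 1)) * x ^ (m + 1)
        * y ^ (n - m) = β * x * ∑ m ∈ Finset.range (n + 1), p.coeff m * x ^ m * y ^ (n - m)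
        - α * ∑ m ∈ Finset.range (n + 1), p.coeff (m + 1) * x ^ (m + 1) * y ^ (n - m) := by
    rw [Finset.mul_sum, Finset.mul_sum, ← Finset.sum_sub_distrib]
    refine Finset.sum_congr rfl fun m _ => ?_
    ring
  rw [e1]
  linear_combination (-α) * key

lemma natDegree_linear_le_one (β α : ℂ) : (C β * X - C α : ℂ[X]).natDegree ≤ 1 :=
  (natDegree_sub_le _ _).trans (max_le ((natDegree_C_mul_le _ _).trans natDegree_X_le) (by simp))

lemma hom_prod {ι : Type*} [DecidableEq ι] (s : Finset ι) (x y : ℂ) (β α : ι → ℂ) :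
    (∏ l ∈ s, (C (β l) * X - C (α l))).natDegree ≤ s.card ∧
    hom s.card x y (∏ l ∈ s, (C (β l) * X - C (α l))) = ∏ l ∈ s, (β l * x - α l * y) := by
  induction s using Finset.induction_on with
  | empty => simp [hom]
  | insert a s ha ih =>
    rw [Finset.prod_insert ha, Finset.prod_insert ha, Finset.card_insert_of_notMem ha,
      mul_comm (C (β a) * X - C (α a)), mul_comm (β a * x - α a * y)]
    refine ⟨?_, ?_⟩
    · exact natDegree_mul_le.trans (add_le_add ih.1 (natDegree_linear_le_one _ _))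
    · rw [hom_mul_linear _ _ _ _ _ _ ih.1, ih.2]

/-! ### The interpolation polynomial -/

section algebra

variable {ι : Type*} [Fintype ι] [DecidableEq ι]

/-- Equivariance of a family of functions indexed by a set with an `SL(2, ℤ)`-action. -/
def Equivariant (σ : SL(2, ℤ) → Equiv.Perm ι) (k : ℤ) (Fn : ι → ℍ → ℂ) : Prop :=
  ∀ (γ : SL(2, ℤ)) (q : ι) (τ : ℍ),
    Fn q (γ • τ) = ((γ 1 0 : ℂ) * τ + (γ 1 1 : ℂ)) ^ k * Fn (σ γ q) τ

/-- The interpolation polynomial over the ring of functions. -/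
def interpPoly (Fn A B : ι → ℍ → ℂ) : (ℍ → ℂ)[X] :=
  ∑ q, C (Fn q) * ∏ l ∈ Finset.univ.erase q, (C (B l) * X - C (A l))

lemma interpPoly_coeff_mem {Fn A B : ι → ℍ → ℂ} {S : Subring (ℍ → ℂ)} (hF : ∀ q, Fn q ∈ S)
    (hA : ∀ q, A q ∈ S) (hB : ∀ q, B q ∈ S) (m : ℕ) : (interpPoly Fn A B).coeff m ∈ S := by
  apply coeff_mem_of_mem_liftsRing
  unfold interpPoly
  exact Subring.sum_mem _ fun q _ => Subring.mul_mem _ (C_mem_liftsRing (hF q))
    (Subring.prod_mem _ fun l _ => Subring.sub_mem _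
      (Subring.mul_mem _ (C_mem_liftsRing (hB l)) (X_mem_liftsRing S)) (C_mem_liftsRing (hA l)))

lemma interpPoly_map (Fn A B : ι → ℍ → ℂ) (τ : ℍ) :
    (interpPoly Fn A B).map (Pi.evalRingHom (fun _ : ℍ => ℂ) τ) =
      ∑ q, C (Fn q τ) * ∏ l ∈ Finset.univ.erase q, (C (B l τ) * X - C (A l τ)) := by
  simp [interpPoly, Polynomial.map_sum, Polynomial.map_prod]

lemma interp_transform (σ : Equiv.Perm ι) (j : ℂ) (hj : j ≠ 0) (k w : ℤ) (f a b : ι → ℂ) :
    ∑ q, C (j ^ k * f (σ q)) *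
        ∏ l ∈ Finset.univ.erase q, (C (j ^ w * b (σ l)) * X - C (j ^ w * a (σ l))) =
    C (j ^ (k + w * ((Fintype.card ι : ℤ) - 1))) *
      ∑ q, C (f q) * ∏ l ∈ Finset.univ.erase q, (C (b l) * X - C (a l)) := by
  have h1 : ∀ q : ι, ∏ l ∈ Finset.univ.erase q, (C (j ^ w * b (σ l)) * X - C (j ^ w * a (σ l))) =
      C ((j ^ w) ^ (Fintype.card ι - 1)) *
        ∏ l ∈ Finset.univ.erase (σ q), (C (b l) * X - C (a l)) := by
    intro q
    have h2 : ∀ l, (C (j ^ w * b (σ l)) * X - C (j ^ w * a (σ l)) : ℂ[X]) =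
        C (j ^ w) * (C (b (σ l)) * X - C (a (σ l))) := by
      intro l
      simp only [C_mul]
      ring
    simp only [h2]
    rw [Finset.prod_mul_distrib, Finset.prod_const, Finset.card_erase_of_mem (Finset.mem_univ q),
      Finset.card_univ, ← C_pow]
    congr 1
    exact Finset.prod_equiv σ (by simp) (fun _ _ => rfl)
  simp only [h1]
  rw [Finset.mul_sum, ← Equiv.sum_comp σ (fun q => C (j ^ (k + w * ((Fintype.card ι : ℤ) - 1))) *
    (C (f q) * ∏ l ∈ Finset.univ.erase q, (C (b l) * X - C (a l))))]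
  refine Finset.sum_congr rfl fun q _ => ?_
  have hcard : 1 ≤ Fintype.card ι := Fintype.card_pos_iff.mpr ⟨q⟩
  have h3 : j ^ (k + w * ((Fintype.card ι : ℤ) - 1)) = j ^ k * (j ^ w) ^ (Fintype.card ι - 1) := by
    rw [zpow_add₀ hj, zpow_mul, ← zpow_natCast, Nat.cast_sub hcard, Nat.cast_one]
  rw [h3]
  simp only [C_mul]
  ring

lemma interpPoly_coeff_isAut {σ : SL(2, ℤ) → Equiv.Perm ι} {k w : ℤ} {Fn A B : ι → ℍ → ℂ}
    (hF : Equivariant σ k Fn) (hA : Equivariant σ w A) (hB : Equivariant σ w B) (m : ℕ) :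
    IsAut (k + w * ((Fintype.card ι : ℤ) - 1)) ((interpPoly Fn A B).coeff m) := by
  intro γ τ
  have e1 := interpPoly_map Fn A B (γ • τ)
  have e2 := interpPoly_map Fn A B τ
  have hj : ((γ 1 0 : ℂ) * τ + (γ 1 1 : ℂ)) ≠ 0 := denom_ne_zero γ τ
  simp only [hF γ, hA γ, hB γ] at e1
  have e1' := e1.trans (interp_transform (σ γ) _ hj k w (fun q => Fn q τ) (fun q => A q τ)
    (fun q => B q τ))
  rw [← e2] at e1'
  have e3 := congrArg (fun p => p.coeff m) e1'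
  simpa [coeff_map] using e3

lemma interp_eval (Fn A B : ι → ℂ) (q₁ : ι) :
    Fn q₁ * ∏ l ∈ Finset.univ.erase q₁, (A q₁ * B l - A l * B q₁) =
      ∑ m ∈ Finset.range (Fintype.card ι),
        (∑ q, C (Fn q) * ∏ l ∈ Finset.univ.erase q, (C (B l) * X - C (A l))).coeff m *
          A q₁ ^ m * B q₁ ^ (Fintype.card ι - 1 - m) := by
  have hcard : 1 ≤ Fintype.card ι := Fintype.card_pos_iff.mpr ⟨q₁⟩
  have hc : ∀ q : ι, (Finset.univ.erase q).card = Fintype.card ι - 1 := fun q => by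
    rw [Finset.card_erase_of_mem (Finset.mem_univ q), Finset.card_univ]
  have h0 : ∑ m ∈ Finset.range (Fintype.card ι),
        (∑ q, C (Fn q) * ∏ l ∈ Finset.univ.erase q, (C (B l) * X - C (A l))).coeff m *
          A q₁ ^ m * B q₁ ^ (Fintype.card ι - 1 - m) =
      hom (Fintype.card ι - 1) (A q₁) (B q₁)
        (∑ q, C (Fn q) * ∏ l ∈ Finset.univ.erase q, (C (B l) * X - C (A l))) := by
    unfold hom
    rw [Nat.sub_add_cancel hcard]
  rw [h0, hom_sum]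
  simp only [hom_C_mul]
  rw [Finset.sum_eq_single q₁]
  · rw [← hc q₁, (hom_prod _ _ _ _ _).2]
    congr 1
    refine Finset.prod_congr rfl fun l _ => ?_
    ring
  · intro q _ hq
    rw [← hc q, (hom_prod _ _ _ _ _).2, Finset.prod_eq_zero (i := q₁) (by simp [Ne.symm hq])
      (by ring), mul_zero]
  · intro h
    exact absurd (Finset.mem_univ q₁) h

/-- The reversed characteristic polynomial over the ring of functions. -/
def revPoly (Fn : ι → ℍ → ℂ) : (ℍ → ℂ)[X] := ∏ l, (1 - C (Fn l) * X)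

omit [DecidableEq ι] in
lemma revPoly_coeff_mem {Fn : ι → ℍ → ℂ} {S : Subring (ℍ → ℂ)} (hF : ∀ q, Fn q ∈ S) (m : ℕ) :
    (revPoly Fn).coeff m ∈ S := by
  apply coeff_mem_of_mem_liftsRing
  unfold revPoly
  exact Subring.prod_mem _ fun l _ => Subring.sub_mem _ (Subring.one_mem _)
    (Subring.mul_mem _ (C_mem_liftsRing (hF l)) (X_mem_liftsRing S))

omit [DecidableEq ι] in
lemma revPoly_map (Fn : ι → ℍ → ℂ) (τ : ℍ) :
    (revPoly Fn).map (Pi.evalRingHom (fun _ : ℍ => ℂ) τ) = ∏ l, (1 - C (Fn l τ) * X) := by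
  simp [revPoly, Polynomial.map_prod]

omit [DecidableEq ι] in
lemma revPoly_coeff_zero (Fn : ι → ℍ → ℂ) : (revPoly Fn).coeff 0 = 1 := by
  rw [coeff_zero_eq_eval_zero, revPoly, eval_prod]
  simp

omit [Fintype ι] in
lemma prod_coeff_good (s : Finset ι) {Fn : ι → ℍ → ℂ} (hd : ∀ q, MDiff (Fn q))
    (hz : ∀ q, IsZeroAtImInfty (Fn q)) (m : ℕ) :
    (∏ l ∈ s, (1 - C (Fn l) * X)).coeff m ∈ goodSubring ∧
      (1 ≤ m → IsZeroAtImInfty ((∏ l ∈ s, (1 - C (Fn l) * X)).coeff m)) := by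
  induction s using Finset.induction_on generalizing m with
  | empty =>
    rw [Finset.prod_empty]
    refine ⟨?_, fun hm => ?_⟩
    · rw [coeff_one]
      split_ifs
      · exact goodSubring.one_mem
      · exact goodSubring.zero_mem
    · rw [coeff_one, if_neg (by omega)]
      exact zero_zeroAtFilter _
  | insert a s ha ih =>
    rw [Finset.prod_insert ha, sub_mul, one_mul, coeff_sub, mul_assoc, coeff_C_mul]
    have hFa : Fn a ∈ goodSubring := ⟨hd a, (hz a).boundedAtFilter⟩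
    cases m with
    | zero =>
      rw [coeff_X_mul_zero, mul_zero, sub_zero]
      exact ⟨(ih 0).1, fun h => absurd h (by omega)⟩
    | succ n =>
      rw [coeff_X_mul]
      refine ⟨goodSubring.sub_mem (ih (n + 1)).1 (goodSubring.mul_mem hFa (ih n).1), fun _ => ?_⟩
      rw [sub_eq_add_neg]
      exact ((ih (n + 1)).2 (by omega)).add ((hz a).mul_boundedAtFilter (ih n).1.2).neg

omit [DecidableEq ι] in
lemma revPoly_coeff_isAut {σ : SL(2, ℤ) → Equiv.Perm ι} {k : ℤ} {Fn : ι → ℍ → ℂ}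
    (hF : Equivariant σ k Fn) (m : ℕ) : IsAut (k * (m : ℤ)) ((revPoly Fn).coeff m) := by
  intro γ τ
  have e1 := revPoly_map Fn (γ • τ)
  have e2 := revPoly_map Fn τ
  simp only [hF γ] at e1
  set j : ℂ := (γ 1 0 : ℂ) * τ + (γ 1 1 : ℂ) with hj
  have e4 : ∏ l, (1 - C (j ^ k * Fn (σ γ l) τ) * X : ℂ[X]) =
      (∏ l, (1 - C (Fn l τ) * X : ℂ[X])).comp (C (j ^ k) * X) := by
    rw [← Equiv.prod_comp (σ γ) (fun l => (1 - C (Fn l τ) * X : ℂ[X])), prod_comp]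
    refine Finset.prod_congr rfl fun l _ => ?_
    simp only [sub_comp, one_comp, mul_comp, C_comp, X_comp, C_mul]
    ring
  rw [e4, ← e2] at e1
  have e3 := congrArg (fun p => p.coeff m) e1
  simp only [coeff_map, Pi.evalRingHom_apply, comp_C_mul_X_coeff] at e3
  rw [e3, zpow_mul, zpow_natCast]
  ring

lemma revPoly_eval (Fn : ι → ℂ) (q₁ : ι) :
    (∏ l, (1 - C (Fn l) * X : ℂ[X])).coeff 0 * Fn q₁ ^ Fintype.card ι +
      ∑ s ∈ Finset.range (Fintype.card ι),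
        (∏ l, (1 - C (Fn l) * X : ℂ[X])).coeff (s + 1) * Fn q₁ ^ (Fintype.card ι - 1 - s) = 0 := by
  have h1 : (∏ l, (1 - C (Fn l) * X : ℂ[X])) = ∏ l ∈ Finset.univ, (C (- Fn l) * X - C (-1)) := by
    refine Finset.prod_congr rfl fun l _ => ?_
    simp only [C_neg, C_1]
    ring
  have h2 := (hom_prod (Finset.univ : Finset ι) 1 (Fn q₁) (fun l => - Fn l) (fun _ => -1)).2
  have hz : ∏ l, (-Fn l * 1 - -1 * Fn q₁) = 0 :=
    Finset.prod_eq_zero (i := q₁) (Finset.mem_univ _) (by ring)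
  rw [← h1, hz, Finset.card_univ] at h2
  unfold hom at h2
  rw [Finset.sum_range_succ'] at h2
  simp only [one_pow, mul_one, Nat.sub_zero] at h2
  rw [add_comm] at h2
  rw [← h2]
  congr 1
  refine Finset.sum_congr rfl fun s _ => ?_
  rw [Nat.sub_sub, add_comm 1 s]

end algebra

/-! ### Main statements -/

section main

variable {𝒢 : Subgroup (GL (Fin 2) ℝ)} [𝒢.IsArithmetic]

local notation "𝒬" => 𝒮ℒ ⧸ (𝒢.subgroupOf 𝒮ℒ)

omit [𝒢.IsArithmetic] in
lemma equivariant_quotientFunc {F : Type*} [FunLike F ℍ ℂ] {k : ℤ}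
    [SlashInvariantFormClass F 𝒢 k] (u : F) :
    Equivariant (ι := 𝒬) perm k (fun q => quotientFunc (ℋ := 𝒮ℒ) u q) :=
  fun γ q τ => quotientFunc_smul_apply u q γ τ

/-- **Interpolation.** For modular forms `f` (weight `k`) and `a`, `b` (weight `w`) on an
arithmetic group `𝒢`, the product of `f` with the separating function
`∏_{l ≠ 1} (a · b^l - a^l · b)` is a homogeneous polynomial in `a`, `b` whose coefficients are
level-one modular forms. -/
theorem exists_interp [Fintype 𝒬] [DecidableEq 𝒬] {k w : ℤ} (f : ModularForm 𝒢 k)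
    (a b : ModularForm 𝒢 w) :
    ∃ g : Fin (Nat.card 𝒬) → ModularForm 𝒮ℒ (k + w * ((Nat.card 𝒬 : ℤ) - 1)),
      ∀ τ : ℍ, f τ * ∏ l ∈ Finset.univ.erase (⟦1⟧ : 𝒬),
          (a τ * quotientFunc (ℋ := 𝒮ℒ) b l τ - quotientFunc (ℋ := 𝒮ℒ) a l τ * b τ) =
        ∑ m : Fin (Nat.card 𝒬), g m τ * a τ ^ (m : ℕ) * b τ ^ (Nat.card 𝒬 - 1 - (m : ℕ)) := by
  set Fn : 𝒬 → ℍ → ℂ := fun q => quotientFunc (ℋ := 𝒮ℒ) f q with hFn
  set A : 𝒬 → ℍ → ℂ := fun q => quotientFunc (ℋ := 𝒮ℒ) a q with hA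
  set B : 𝒬 → ℍ → ℂ := fun q => quotientFunc (ℋ := 𝒮ℒ) b q with hB
  have hgood : ∀ m, (interpPoly Fn A B).coeff m ∈ goodSubring := fun m =>
    interpPoly_coeff_mem
      (fun q => mem_goodSubring.mpr ⟨mdiff_quotientFunc f q, bdd_quotientFunc f q⟩)
      (fun q => mem_goodSubring.mpr ⟨mdiff_quotientFunc a q, bdd_quotientFunc a q⟩)
      (fun q => mem_goodSubring.mpr ⟨mdiff_quotientFunc b q, bdd_quotientFunc b q⟩) m
  have haut : ∀ m, IsAut (k + w * ((Nat.card 𝒬 : ℤ) - 1)) ((interpPoly Fn A B).coeff m) := by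
    intro m
    rw [Nat.card_eq_fintype_card]
    exact interpPoly_coeff_isAut (equivariant_quotientFunc f) (equivariant_quotientFunc a)
      (equivariant_quotientFunc b) m
  refine ⟨fun m => mkMF _ _ (mem_goodSubring.mp (hgood m)).1 (mem_goodSubring.mp (hgood m)).2
    (haut m), fun τ => ?_⟩
  have h := interp_eval (fun q => Fn q τ) (fun q => A q τ) (fun q => B q τ) (⟦1⟧ : 𝒬)
  simp only [hFn, hA, hB, quotientFunc_one] at h
  change _ = ∑ m : Fin (Nat.card 𝒬), (interpPoly Fn A B).coeff (m : ℕ) τ * a τ ^ (m : ℕ) *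
    b τ ^ (Nat.card 𝒬 - 1 - (m : ℕ))
  rw [Fin.sum_univ_eq_sum_range (fun m => (interpPoly Fn A B).coeff m τ * a τ ^ m *
    b τ ^ (Nat.card 𝒬 - 1 - m)), Nat.card_eq_fintype_card]
  refine h.trans (Finset.sum_congr rfl fun m _ => ?_)
  rw [← interpPoly_map, coeff_map]
  rfl

/-- **Norm polynomial.** A cusp form `f` of weight `k` on an arithmetic group `𝒢` is a root
of a monic polynomial whose lower coefficients are level-one cusp forms. -/
theorem exists_charpoly {k : ℤ} (f : CuspForm 𝒢 k) :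
    ∃ c : (s : Fin (Nat.card 𝒬)) → CuspForm 𝒮ℒ (k * ((s : ℕ) + 1)),
      ∀ τ : ℍ, f τ ^ Nat.card 𝒬 +
        ∑ s : Fin (Nat.card 𝒬), c s τ * f τ ^ (Nat.card 𝒬 - 1 - (s : ℕ)) = 0 := by
  classical
  let _ := Fintype.ofFinite 𝒬
  set Fn : 𝒬 → ℍ → ℂ := fun q => quotientFunc (ℋ := 𝒮ℒ) f q with hFn
  have hgood : ∀ m, (revPoly Fn).coeff m ∈ goodSubring ∧
      (1 ≤ m → IsZeroAtImInfty ((revPoly Fn).coeff m)) := fun m =>
    prod_coeff_good Finset.univ (fun q => mdiff_quotientFunc f q)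
      (fun q => zero_quotientFunc f q) m
  have haut : ∀ s : ℕ, IsAut (k * ((s : ℤ) + 1)) ((revPoly Fn).coeff (s + 1)) := by
    intro s
    have h := revPoly_coeff_isAut (equivariant_quotientFunc f) (s + 1)
    simpa using h
  refine ⟨fun s => mkCF _ _ (mem_goodSubring.mp (hgood (s + 1)).1).1
    ((hgood (s + 1)).2 (by omega)) (haut s), fun τ => ?_⟩
  have h := revPoly_eval (fun q => Fn q τ) (⟦1⟧ : 𝒬)
  simp only [hFn, quotientFunc_one] at h
  change _ + ∑ s : Fin (Nat.card 𝒬), (revPoly Fn).coeff ((s : ℕ) + 1) τ *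
    f τ ^ (Nat.card 𝒬 - 1 - (s : ℕ)) = 0
  rw [Fin.sum_univ_eq_sum_range (fun s => (revPoly Fn).coeff (s + 1) τ *
    f τ ^ (Nat.card 𝒬 - 1 - s)), Nat.card_eq_fintype_card]
  rw [← revPoly_map] at h
  simp only [coeff_map, Pi.evalRingHom_apply, revPoly_coeff_zero, Pi.one_apply, one_mul] at h
  exact h

/-- **Norm polynomial, modular-form version.** -/
theorem exists_charpoly_modular {k : ℤ} (f : ModularForm 𝒢 k) :
    ∃ c : (s : Fin (Nat.card 𝒬)) → ModularForm 𝒮ℒ (k * ((s : ℕ) + 1)),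
      ∀ τ : ℍ, f τ ^ Nat.card 𝒬 +
        ∑ s : Fin (Nat.card 𝒬), c s τ * f τ ^ (Nat.card 𝒬 - 1 - (s : ℕ)) = 0 := by
  classical
  let _ := Fintype.ofFinite 𝒬
  set Fn : 𝒬 → ℍ → ℂ := fun q => quotientFunc (ℋ := 𝒮ℒ) f q with hFn
  have hgood : ∀ m, (revPoly Fn).coeff m ∈ goodSubring := fun m =>
    revPoly_coeff_mem
      (fun q => mem_goodSubring.mpr ⟨mdiff_quotientFunc f q, bdd_quotientFunc f q⟩) m
  have haut : ∀ s : ℕ, IsAut (k * ((s : ℤ) + 1)) ((revPoly Fn).coeff (s + 1)) := by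
    intro s
    have h := revPoly_coeff_isAut (equivariant_quotientFunc f) (s + 1)
    simpa using h
  refine ⟨fun s => mkMF _ _ (mem_goodSubring.mp (hgood (s + 1))).1
    (mem_goodSubring.mp (hgood (s + 1))).2 (haut s), fun τ => ?_⟩
  have h := revPoly_eval (fun q => Fn q τ) (⟦1⟧ : 𝒬)
  simp only [hFn, quotientFunc_one] at h
  change _ + ∑ s : Fin (Nat.card 𝒬), (revPoly Fn).coeff ((s : ℕ) + 1) τ *
    f τ ^ (Nat.card 𝒬 - 1 - (s : ℕ)) = 0
  rw [Fin.sum_univ_eq_sum_range (fun s => (revPoly Fn).coeff (s + 1) τ *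
    f τ ^ (Nat.card 𝒬 - 1 - s)), Nat.card_eq_fintype_card]
  rw [← revPoly_map] at h
  simp only [coeff_map, Pi.evalRingHom_apply, revPoly_coeff_zero, Pi.one_apply, one_mul] at h
  exact h

omit [𝒢.IsArithmetic] in
/-- The separating function is nonzero as soon as each of its factors is a nonzero function. -/
theorem prod_sep_ne_zero [Fintype 𝒬] [DecidableEq 𝒬] {w : ℤ} (a b : ModularForm 𝒢 w)
    (h : ∀ l : 𝒬, l ≠ ⟦1⟧ → ∃ τ : ℍ,
      a τ * quotientFunc (ℋ := 𝒮ℒ) b l τ - quotientFunc (ℋ := 𝒮ℒ) a l τ * b τ ≠ 0) :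
    ∃ τ : ℍ, ∏ l ∈ Finset.univ.erase (⟦1⟧ : 𝒬),
      (a τ * quotientFunc (ℋ := 𝒮ℒ) b l τ - quotientFunc (ℋ := 𝒮ℒ) a l τ * b τ) ≠ 0 := by
  by_contra hcon
  push Not at hcon
  have h0 : ∏ l ∈ Finset.univ.erase (⟦1⟧ : 𝒬), (fun τ : ℍ =>
      a τ * quotientFunc (ℋ := 𝒮ℒ) b l τ - quotientFunc (ℋ := 𝒮ℒ) a l τ * b τ) = 0 := by
    ext τ
    rw [Finset.prod_apply]
    exact hcon τ
  rw [UpperHalfPlane.prod_eq_zero_iff] at h0
  · obtain ⟨l, hl, hl0⟩ := h0
    obtain ⟨τ, hτ⟩ := h l (Finset.ne_of_mem_erase hl)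
    exact hτ (congr_fun hl0 τ)
  · intro l _
    exact ((ModularFormClass.holo a).mul (mdiff_quotientFunc b l)).sub
      ((mdiff_quotientFunc a l).mul (ModularFormClass.holo b))

end main

end

end Fermat.Agent.S23.Interp
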