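import Mathlib

set_option autoImplicit false

open UpperHalfPlane ModularForm ModularFormClass EisensteinSeries
open scoped MatrixGroups

namespace Fermat.Agent.S23.LevelOne

noncomputable section

/-- The monomial form `E₄ ^ a * E₆ ^ b` of weight `4 a + 6 b`. -/
def mono (a b : ℕ) : ModularForm 𝒮ℒ ((4 * a + 6 * b : ℕ) : ℤ) :=
  ModularForm.mcast (by push_cast; ring) ((E₄.pow a).mul (E₆.pow b))

lemma mono_apply (a b : ℕ) (z : ℍ) : mono a b z = E₄ z ^ a * E₆ z ^ b := by
  simp [mono, ModularForm.mcast_apply, ModularForm.coe_mul, ModularForm.coe_pow]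

lemma qExpansion_mono (a b : ℕ) :
    qExpansion 1 (mono a b) = qExpansion 1 E₄ ^ a * qExpansion 1 E₆ ^ b := by
  rw [mono, ModularForm.qExpansion_mcast,
    ModularForm.qExpansion_mul one_pos one_mem_strictPeriods_SL,
    ModularForm.qExpansion_pow one_pos one_mem_strictPeriods_SL,
    ModularForm.qExpansion_pow one_pos one_mem_strictPeriods_SL]

/-- The weights of `E₄`, `E₆`. -/
def wt : Fin 2 → ℕ := ![4, 6]

lemma weight_wt (m : Fin 2 →₀ ℕ) : Finsupp.weight wt m = 4 * m 0 + 6 * m 1 := by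
  simp [Finsupp.weight_apply, Finsupp.sum_fintype, wt, Fin.sum_univ_two, mul_comm]

/-- The monomial form attached to an exponent vector, as a form of weight `k`
(zero if the weight is wrong). -/
def monoCast (k : ℕ) (m : Fin 2 →₀ ℕ) : ModularForm 𝒮ℒ (k : ℤ) :=
  if h : 4 * m 0 + 6 * m 1 = k then ModularForm.mcast (by rw [h]) (mono (m 0) (m 1)) else 0

lemma monoCast_apply {k : ℕ} {m : Fin 2 →₀ ℕ} (h : 4 * m 0 + 6 * m 1 = k) (z : ℍ) :
    monoCast k m z = E₄ z ^ m 0 * E₆ z ^ m 1 := by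
  rw [monoCast, dif_pos h, ModularForm.mcast_apply, mono_apply]

lemma qExpansion_monoCast {k : ℕ} {m : Fin 2 →₀ ℕ} (h : 4 * m 0 + 6 * m 1 = k) :
    qExpansion 1 (monoCast k m) = qExpansion 1 E₄ ^ m 0 * qExpansion 1 E₆ ^ m 1 := by
  rw [monoCast, dif_pos h, ModularForm.qExpansion_mcast, qExpansion_mono]

/-- The level one modular form of weight `k` attached to a polynomial in `E₄`, `E₆`
(only the monomials of weight `k` are used). -/
def ofPoly (k : ℕ) (P : MvPolynomial (Fin 2) ℂ) : ModularForm 𝒮ℒ (k : ℤ) :=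
  ∑ m ∈ P.support, P.coeff m • monoCast k m

lemma ofPoly_apply {k : ℕ} {P : MvPolynomial (Fin 2) ℂ}
    (hP : P.IsWeightedHomogeneous wt k) (z : ℍ) :
    ofPoly k P z = MvPolynomial.aeval ![E₄ z, E₆ z] P := by
  rw [MvPolynomial.aeval_def, MvPolynomial.eval₂_eq', ofPoly]
  simp only [FunLike.coe_sum, Finset.sum_apply]
  refine Finset.sum_congr rfl fun m hm => ?_
  have hw : 4 * m 0 + 6 * m 1 = k := by
    rw [← weight_wt]; exact hP (MvPolynomial.mem_support_iff.mp hm)
  simp [monoCast_apply hw, Fin.prod_univ_two]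

lemma qExpansion_ofPoly {k : ℕ} {P : MvPolynomial (Fin 2) ℂ}
    (hP : P.IsWeightedHomogeneous wt k) :
    qExpansion 1 (ofPoly k P) =
      MvPolynomial.aeval ![qExpansion 1 E₄, qExpansion 1 E₆] P := by
  have h1 : qExpansion 1 (ofPoly k P) =
      ∑ m ∈ P.support, qExpansion 1 (P.coeff m • monoCast k m) := by
    exact map_sum (ModularForm.qExpansionAddHom one_pos one_mem_strictPeriods_SL (k : ℤ))
      (fun m => P.coeff m • monoCast k m) P.support
  rw [h1, MvPolynomial.aeval_def, MvPolynomial.eval₂_eq']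
  refine Finset.sum_congr rfl fun m hm => ?_
  have hw : 4 * m 0 + 6 * m 1 = k := by
    rw [← weight_wt]; exact hP (MvPolynomial.mem_support_iff.mp hm)
  rw [ModularForm.qExpansion_smul one_pos one_mem_strictPeriods_SL, qExpansion_monoCast hw,
    Algebra.smul_def]
  simp [Fin.prod_univ_two]

lemma isWH_X0 : (MvPolynomial.X 0 : MvPolynomial (Fin 2) ℂ).IsWeightedHomogeneous wt 4 :=
  MvPolynomial.isWeightedHomogeneous_X ℂ wt 0

lemma isWH_X1 : (MvPolynomial.X 1 : MvPolynomial (Fin 2) ℂ).IsWeightedHomogeneous wt 6 :=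
  MvPolynomial.isWeightedHomogeneous_X ℂ wt 1

lemma isWH_mono (a b : ℕ) :
    (MvPolynomial.X 0 ^ a * MvPolynomial.X 1 ^ b :
      MvPolynomial (Fin 2) ℂ).IsWeightedHomogeneous wt (4 * a + 6 * b) := by
  have := (isWH_X0.pow a).mul (isWH_X1.pow b)
  simpa [mul_comm] using this

lemma isWH_disc :
    (MvPolynomial.X 0 ^ 3 - MvPolynomial.X 1 ^ 2 :
      MvPolynomial (Fin 2) ℂ).IsWeightedHomogeneous wt 12 := by
  have h1 := isWH_X0.pow 3
  have h2 := isWH_X1.pow 2
  exact h1.sub h2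

lemma constantCoeff_E₄ : PowerSeries.constantCoeff (qExpansion 1 E₄) = 1 := by
  simpa using E_qExpansion_coeff_zero (k := 4) (by norm_num) ⟨2, rfl⟩

lemma constantCoeff_E₆ : PowerSeries.constantCoeff (qExpansion 1 E₆) = 1 := by
  simpa using E_qExpansion_coeff_zero (k := 6) (by norm_num) ⟨3, rfl⟩

/-- Every level one modular form is an isobaric polynomial in `E₄` and `E₆`. -/
theorem exists_isobaric (k : ℕ) (f : ModularForm 𝒮ℒ (k : ℤ)) :
    ∃ P : MvPolynomial (Fin 2) ℂ, P.IsWeightedHomogeneous wt k ∧ f = ofPoly k P := by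
  induction k using Nat.strong_induction_on with
  | h k ih =>
  rcases Nat.even_or_odd k with hk | hk
  swap
  · refine ⟨0, MvPolynomial.isWeightedHomogeneous_zero _ _ _, ?_⟩
    rw [ModularForm.levelOne_odd_weight_eq_zero (by exact_mod_cast hk) f]
    simp [ofPoly]
  rcases Nat.lt_or_ge k 4 with hk4 | hk4
  · obtain rfl | rfl : k = 0 ∨ k = 2 := by obtain ⟨r, hr⟩ := hk; omega
    · obtain ⟨c, hc⟩ := levelOne_weight_zero_const f
      refine ⟨MvPolynomial.C c, MvPolynomial.isWeightedHomogeneous_C _ _, ?_⟩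
      ext z
      rw [ofPoly_apply (MvPolynomial.isWeightedHomogeneous_C _ _)]
      simp [hc]
    · refine ⟨0, MvPolynomial.isWeightedHomogeneous_zero _ _ _, ?_⟩
      have := rank_zero_iff_forall_zero.mp levelOne_weight_two_rank_zero f
      simpa [ofPoly] using this
  · obtain ⟨a, b, hab⟩ : ∃ a b : ℕ, 4 * a + 6 * b = k := by
      obtain ⟨r, hr⟩ := hk
      rcases Nat.even_or_odd r with ⟨s, hs⟩ | ⟨s, hs⟩
      · exact ⟨s, 0, by omega⟩
      · exact ⟨s - 1, 1, by omega⟩
    set M : ModularForm 𝒮ℒ (k : ℤ) := ModularForm.mcast (by rw [hab]) (mono a b) with hM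
    have hM0 : (qExpansion 1 M).coeff 0 = 1 := by
      rw [hM, ModularForm.qExpansion_mcast, qExpansion_mono]
      simp [constantCoeff_E₄, constantCoeff_E₆]
    have hMz : ∀ z, M z = E₄ z ^ a * E₆ z ^ b := fun z => by
      rw [hM, ModularForm.mcast_apply, mono_apply]
    have hg := (isCuspForm_iff_coeffZero_eq_zero _).mp (sub_smul_isCuspForm f M hM0)
    set c := (qExpansion 1 f).coeff 0 with hc
    set H := CuspForm.discriminantEquiv (toCuspForm (f - c • M) hg) with hH
    have hfz : ∀ z, f z = c * (E₄ z ^ a * E₆ z ^ b) + (E₄ z ^ 3 - E₆ z ^ 2) / 1728 * H z := by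
      intro z
      have h1 := discriminant_mul_discriminantEquiv_apply (toCuspForm (f - c • M) hg) z
      rw [discriminant_eq_E₄_cube_sub_E₆_sq] at h1
      rw [← hH] at h1
      rw [h1, toCuspForm_apply]
      simp [hMz]
    rcases Nat.lt_or_ge k 12 with hk12 | hk12
    · have hH0 : H = 0 :=
        rank_zero_iff_forall_zero.mp (levelOne_neg_weight_rank_zero (by omega)) H
      have hP : (MvPolynomial.C c * (MvPolynomial.X 0 ^ a * MvPolynomial.X 1 ^ b) :
          MvPolynomial (Fin 2) ℂ).IsWeightedHomogeneous wt k := by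
        have := (isWH_mono a b).C_mul c
        rwa [hab] at this
      refine ⟨_, hP, ?_⟩
      ext z
      rw [ofPoly_apply hP, hfz z, hH0]
      simp
    · obtain ⟨Q, hQ, hHQ⟩ := ih (k - 12) (by omega)
        (ModularForm.mcast (by omega) H)
      have hP : (MvPolynomial.C c * (MvPolynomial.X 0 ^ a * MvPolynomial.X 1 ^ b) +
          MvPolynomial.C (1 / 1728) * ((MvPolynomial.X 0 ^ 3 - MvPolynomial.X 1 ^ 2) * Q) :
          MvPolynomial (Fin 2) ℂ).IsWeightedHomogeneous wt k := by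
        have h1 := (isWH_mono a b).C_mul c
        rw [hab] at h1
        have h2 := (isWH_disc.mul hQ).C_mul (1 / 1728)
        rw [show 12 + (k - 12) = k by omega] at h2
        exact h1.add h2
      refine ⟨_, hP, ?_⟩
      ext z
      have hHz : H z = MvPolynomial.aeval ![E₄ z, E₆ z] Q := by
        rw [← ofPoly_apply hQ, ← hHQ, ModularForm.mcast_apply]
      rw [ofPoly_apply hP, hfz z, hHz]
      simp
      ring

/-! ### Integrality of the `q`-expansions of `E₄`, `E₆`, `Δ` -/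

open ArithmeticFunction in
/-- The `q`-expansion of `E₄` with integer coefficients. -/
def e4Z : PowerSeries ℤ :=
  PowerSeries.mk fun n => if n = 0 then 1 else 240 * (sigma 3 n : ℤ)

open ArithmeticFunction in
/-- The `q`-expansion of `E₆` with integer coefficients. -/
def e6Z : PowerSeries ℤ :=
  PowerSeries.mk fun n => if n = 0 then 1 else -504 * (sigma 5 n : ℤ)

theorem map_e4Z : PowerSeries.map (Int.castRingHom ℂ) e4Z = qExpansion 1 E₄ := by
  ext m
  rw [PowerSeries.coeff_map, e4Z, PowerSeries.coeff_mk, E_qExpansion_coeff _ ⟨2, rfl⟩,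
    show bernoulli 4 = -1 / 30 by decide +kernel]
  split_ifs
  · simp
  · simp
    norm_num

theorem map_e6Z : PowerSeries.map (Int.castRingHom ℂ) e6Z = qExpansion 1 E₆ := by
  ext m
  rw [PowerSeries.coeff_map, e6Z, PowerSeries.coeff_mk, E_qExpansion_coeff _ ⟨3, rfl⟩,
    show bernoulli 6 = 1 / 42 by decide +kernel]
  split_ifs
  · simp
  · simp
    norm_num

open ArithmeticFunction in
lemma twelve_dvd_sigma (n : ℕ) : (12 : ℤ) ∣ 5 * (sigma 3 n : ℤ) + 7 * (sigma 5 n : ℤ) := by
  have key : ∀ d : ℕ, (12 : ℤ) ∣ 5 * (d : ℤ) ^ 3 + 7 * (d : ℤ) ^ 5 := by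
    intro d
    have h : ∀ x : ZMod 12, 5 * x ^ 3 + 7 * x ^ 5 = 0 := by decide
    have h2 := (ZMod.intCast_zmod_eq_zero_iff_dvd (5 * (d : ℤ) ^ 3 + 7 * (d : ℤ) ^ 5) 12).mp
      (by push_cast; exact h (d : ZMod 12))
    exact_mod_cast h2
  rw [sigma_apply, sigma_apply]
  push_cast
  rw [Finset.mul_sum, Finset.mul_sum, ← Finset.sum_add_distrib]
  exact Finset.dvd_sum fun d _ => key d

open ArithmeticFunction in
/-- The series `∑ σ₃(n) qⁿ`. -/
def aZ : PowerSeries ℤ := PowerSeries.mk fun n => (sigma 3 n : ℤ)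

open ArithmeticFunction in
/-- The series `∑ σ₅(n) qⁿ`. -/
def bZ : PowerSeries ℤ := PowerSeries.mk fun n => (sigma 5 n : ℤ)

open ArithmeticFunction in
/-- The series `∑ (5 σ₃(n) + 7 σ₅(n)) / 12 qⁿ`. -/
def cZ : PowerSeries ℤ :=
  PowerSeries.mk fun n => (5 * (sigma 3 n : ℤ) + 7 * (sigma 5 n : ℤ)) / 12

lemma e4Z_eq : e4Z = 1 + PowerSeries.C (240 : ℤ) * aZ := by
  ext n
  rcases Nat.eq_zero_or_pos n with rfl | hn
  · simp [e4Z, aZ]
  · simp only [e4Z, aZ, map_add, PowerSeries.coeff_C_mul, PowerSeries.coeff_mk,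
      PowerSeries.coeff_one, if_neg hn.ne', zero_add]

lemma e6Z_eq : e6Z = 1 - PowerSeries.C (504 : ℤ) * bZ := by
  ext n
  rcases Nat.eq_zero_or_pos n with rfl | hn
  · simp [e6Z, bZ]
  · simp only [e6Z, bZ, map_sub, PowerSeries.coeff_C_mul, PowerSeries.coeff_mk,
      PowerSeries.coeff_one, if_neg hn.ne', zero_sub, neg_mul]

lemma twelve_cZ : PowerSeries.C (12 : ℤ) * cZ =
    PowerSeries.C (5 : ℤ) * aZ + PowerSeries.C (7 : ℤ) * bZ := by
  ext n
  simp only [cZ, aZ, bZ, PowerSeries.coeff_C_mul, PowerSeries.coeff_mk, map_add]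
  exact Int.mul_ediv_cancel' (twelve_dvd_sigma n)

/-- The `q`-expansion of `Δ` with integer coefficients. -/
def deltaZ : PowerSeries ℤ :=
  cZ + PowerSeries.C (100 : ℤ) * aZ ^ 2 - PowerSeries.C (147 : ℤ) * bZ ^ 2 +
    PowerSeries.C (8000 : ℤ) * aZ ^ 3

lemma e4Z_cube_sub_e6Z_sq : e4Z ^ 3 - e6Z ^ 2 = PowerSeries.C (1728 : ℤ) * deltaZ := by
  have h := twelve_cZ
  rw [e4Z_eq, e6Z_eq, deltaZ]
  simp only [map_ofNat] at h ⊢
  linear_combination (-144) * h

/-- The polynomial `(X₀³ - X₁²) / 1728` expressing `Δ` in `E₄`, `E₆`. -/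
def discPoly : MvPolynomial (Fin 2) ℂ :=
  MvPolynomial.C (1 / 1728) * (MvPolynomial.X 0 ^ 3 - MvPolynomial.X 1 ^ 2)

lemma isWH_discPoly : discPoly.IsWeightedHomogeneous wt 12 := isWH_disc.C_mul _

lemma ofPoly_discPoly_apply (z : ℍ) : ofPoly 12 discPoly z = ModularForm.discriminant z := by
  rw [ofPoly_apply isWH_discPoly, discriminant_eq_E₄_cube_sub_E₆_sq, discPoly]
  simp
  ring

theorem qExpansion_discriminant :
    qExpansion 1 ModularForm.discriminant =
      PowerSeries.C (1 / 1728 : ℂ) * (qExpansion 1 E₄ ^ 3 - qExpansion 1 E₆ ^ 2) := by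
  have h : (ofPoly 12 discPoly : ℍ → ℂ) = ModularForm.discriminant :=
    funext ofPoly_discPoly_apply
  rw [← h, qExpansion_ofPoly isWH_discPoly, discPoly]
  simp

theorem map_deltaZ :
    PowerSeries.map (Int.castRingHom ℂ) deltaZ = qExpansion 1 ModularForm.discriminant := by
  have h := congrArg (PowerSeries.map (Int.castRingHom ℂ)) e4Z_cube_sub_e6Z_sq
  rw [map_sub, map_pow, map_pow, map_e4Z, map_e6Z, map_mul] at h
  rw [qExpansion_discriminant, h]
  have h2 : PowerSeries.C (1 / 1728 : ℂ) *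
      (PowerSeries.map (Int.castRingHom ℂ)) (PowerSeries.C (1728 : ℤ)) = 1 := by
    rw [PowerSeries.map_C, ← map_mul]
    norm_num
  rw [← mul_assoc, h2, one_mul]

lemma constantCoeff_e4Z : PowerSeries.constantCoeff e4Z = 1 := by
  simp [e4Z]

lemma constantCoeff_e6Z : PowerSeries.constantCoeff e6Z = 1 := by
  simp [e6Z]

lemma coeff_zero_deltaZ : PowerSeries.coeff 0 deltaZ = 0 := by
  have h := congrArg (PowerSeries.coeff 0) map_deltaZ
  rw [PowerSeries.coeff_map, ← CuspForm.coe_discriminant,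
    CuspFormClass.qExpansion_coeff_zero CuspForm.discriminant one_pos
      one_mem_strictPeriods_SL] at h
  have h' : ((PowerSeries.coeff 0 deltaZ : ℤ) : ℂ) = 0 := h
  exact_mod_cast h'

lemma coeff_one_deltaZ : PowerSeries.coeff 1 deltaZ = 1 := by
  have h := congrArg (PowerSeries.coeff 1) map_deltaZ
  rw [PowerSeries.coeff_map, discriminant_qExpansion_coeff_one] at h
  have h' : ((PowerSeries.coeff 1 deltaZ : ℤ) : ℂ) = 1 := h
  exact_mod_cast h'

/-- The constant term of the `q`-expansion of `ofPoly k P` is `P(1, 1)`. -/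
theorem coeff_zero_qExpansion_ofPoly {k : ℕ} {P : MvPolynomial (Fin 2) ℂ}
    (hP : P.IsWeightedHomogeneous wt k) :
    (qExpansion 1 (ofPoly k P)).coeff 0 = MvPolynomial.aeval ![(1 : ℂ), 1] P := by
  have h1 : (PowerSeries.constantCoeff (R := ℂ)).comp (algebraMap ℂ (PowerSeries ℂ)) =
      algebraMap ℂ ℂ := by
    ext x
    simp
  have h2 : (PowerSeries.constantCoeff (R := ℂ)) ∘ ![qExpansion 1 E₄, qExpansion 1 E₆] =
      ![1, 1] := by
    funext i
    fin_cases i <;> simp [constantCoeff_E₄, constantCoeff_E₆]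
  rw [qExpansion_ofPoly hP, PowerSeries.coeff_zero_eq_constantCoeff_apply,
    MvPolynomial.aeval_def, MvPolynomial.eval₂_comp_left, MvPolynomial.aeval_def, h1, h2]

lemma isWH_map {R : Type*} [CommRing R] (ψ : R →+* ℂ) {k : ℕ} {P : MvPolynomial (Fin 2) R}
    (hP : P.IsWeightedHomogeneous wt k) :
    (MvPolynomial.map ψ P).IsWeightedHomogeneous wt k := by
  intro d hd
  rw [MvPolynomial.coeff_map] at hd
  exact hP fun h0 => hd (by rw [h0, map_zero])

/-- Specialisation: the `q`-expansion of the form attached to `ψ(P)` is obtained by applying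
`ψ` coefficientwise to the formal `q`-expansion of `P` over `R`. -/
theorem qExpansion_ofPoly_map {R : Type*} [CommRing R] (ψ : R →+* ℂ) {k : ℕ}
    {P : MvPolynomial (Fin 2) R} (hP : P.IsWeightedHomogeneous wt k) :
    qExpansion 1 (ofPoly k (MvPolynomial.map ψ P)) =
      PowerSeries.map ψ (MvPolynomial.eval₂ PowerSeries.C
        ![PowerSeries.map (Int.castRingHom R) e4Z, PowerSeries.map (Int.castRingHom R) e6Z]
        P) := by
  have h1 : (algebraMap ℂ (PowerSeries ℂ)).comp ψ =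
      (PowerSeries.map ψ).comp (PowerSeries.C (R := R)) := by
    ext x
    simp
  have h2 : ![qExpansion 1 E₄, qExpansion 1 E₆] = (PowerSeries.map ψ) ∘
      ![PowerSeries.map (Int.castRingHom R) e4Z, PowerSeries.map (Int.castRingHom R) e6Z] := by
    funext i
    fin_cases i
    · rw [← map_e4Z]
      ext n
      simp
    · rw [← map_e6Z]
      ext n
      simp
  rw [qExpansion_ofPoly (isWH_map ψ hP), MvPolynomial.aeval_def, MvPolynomial.eval₂_map,
    MvPolynomial.eval₂_comp_left, h1, h2]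

end

end Fermat.Agent.S23.LevelOne
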