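import Mathlib
import Fermat.Agent.S23.Defs
import Fermat.Agent.S23.LevelOne
import Fermat.Agent.S23.LevelRaise
import Fermat.Prelude.Thm_CongruenceSubgroup_one_mem_strictPeriods_Gamma0

set_option autoImplicit false

namespace Fermat.Agent.S23.RatSpan

open UpperHalfPlane ModularForm Fermat.Agent.S23.Defs
open scoped MatrixGroups ModularForm Manifold

noncomputable section

/-! ### Integral power series -/

lemma isIntPS_iff {p : PowerSeries ℂ} :
    IsIntPS p ↔ ∃ P : PowerSeries ℤ, p = P.map (Int.castRingHom ℂ) := by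
  constructor
  · intro h
    choose m hm using h
    refine ⟨PowerSeries.mk m, ?_⟩
    ext n
    simp [hm n]
  · rintro ⟨P, rfl⟩ n
    exact ⟨P.coeff n, by simp⟩

lemma IsIntPS.zero : IsIntPS 0 := isIntPS_iff.mpr ⟨0, by simp⟩

lemma IsIntPS.one : IsIntPS 1 := isIntPS_iff.mpr ⟨1, by simp⟩

lemma IsIntPS.add {p q : PowerSeries ℂ} (hp : IsIntPS p) (hq : IsIntPS q) : IsIntPS (p + q) := by
  obtain ⟨P, rfl⟩ := isIntPS_iff.mp hp
  obtain ⟨Q, rfl⟩ := isIntPS_iff.mp hq
  exact isIntPS_iff.mpr ⟨P + Q, by simp⟩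

lemma IsIntPS.mul {p q : PowerSeries ℂ} (hp : IsIntPS p) (hq : IsIntPS q) : IsIntPS (p * q) := by
  obtain ⟨P, rfl⟩ := isIntPS_iff.mp hp
  obtain ⟨Q, rfl⟩ := isIntPS_iff.mp hq
  exact isIntPS_iff.mpr ⟨P * Q, by simp⟩

lemma IsIntPS.pow {p : PowerSeries ℂ} (hp : IsIntPS p) (n : ℕ) : IsIntPS (p ^ n) := by
  obtain ⟨P, rfl⟩ := isIntPS_iff.mp hp
  exact isIntPS_iff.mpr ⟨P ^ n, by simp⟩

lemma IsIntPS.map_eq {p : PowerSeries ℂ} (hp : IsIntPS p) (σ : ℂ →+* ℂ) : p.map σ = p := by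
  ext n
  obtain ⟨m, hm⟩ := hp n
  simp [hm]

/-! ### Nice functions: `1`-periodic, holomorphic, bounded at `i∞` -/

/-- `1`-periodic holomorphic functions on `ℍ` that are bounded at `i∞`. -/
structure Nice (F : ℍ → ℂ) : Prop where
  per : Function.Periodic (F ∘ ofComplex) 1
  holo : MDiff F
  bdd : IsBoundedAtImInfty F

lemma Nice.analytic {F : ℍ → ℂ} (h : Nice F) : AnalyticAt ℂ (cuspFunction 1 F) 0 :=
  analyticAt_cuspFunction_zero one_pos (by simpa using h.per) h.holo h.bdd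

lemma Nice.add {F G : ℍ → ℂ} (hF : Nice F) (hG : Nice G) : Nice (F + G) :=
  ⟨fun z => by simpa using congrArg₂ (· + ·) (hF.per z) (hG.per z), hF.holo.add hG.holo,
    hF.bdd.add hG.bdd⟩

lemma Nice.mul {F G : ℍ → ℂ} (hF : Nice F) (hG : Nice G) : Nice (F * G) :=
  ⟨fun z => by simpa using congrArg₂ (· * ·) (hF.per z) (hG.per z), hF.holo.mul hG.holo,
    hF.bdd.mul hG.bdd⟩

lemma Nice.const (c : ℂ) : Nice (fun _ : ℍ => c) :=
  ⟨fun _ => rfl, mdifferentiable_const, Filter.const_boundedAtFilter _ c⟩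

lemma Nice.of_modularForm {Γ : Subgroup (GL (Fin 2) ℝ)} (hΓ : (1 : ℝ) ∈ Γ.strictPeriods)
    {F : Type*} [FunLike F ℍ ℂ] {k : ℤ} [ModularFormClass F Γ k] (f : F) : Nice (⇑f) := by
  have : Fact (IsCusp OnePoint.infty Γ) := ⟨Γ.isCusp_of_mem_strictPeriods one_pos hΓ⟩
  exact ⟨by simpa using SlashInvariantFormClass.periodic_comp_ofComplex f hΓ,
    ModularFormClass.holo f, ModularFormClass.bdd_at_infty f⟩

/-- The subalgebra of nice functions. -/
def niceSub : Subalgebra ℂ (ℍ → ℂ) where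
  carrier := {F | Nice F}
  mul_mem' := Nice.mul
  add_mem' := Nice.add
  algebraMap_mem' c := Nice.const c

lemma mem_niceSub {F : ℍ → ℂ} : F ∈ niceSub ↔ Nice F := Iff.rfl

/-- The `q`-expansion as a ring homomorphism on nice functions. -/
def qExpHom : niceSub →+* PowerSeries ℂ where
  toFun F := qExpansion 1 F.1
  map_one' := qExpansion_one 1
  map_mul' F G := qExpansion_mul F.2.analytic G.2.analytic
  map_zero' := qExpansion_zero 1
  map_add' F G := qExpansion_add F.2.analytic G.2.analytic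

lemma qExpHom_apply (F : niceSub) : qExpHom F = qExpansion 1 F.1 := rfl

lemma qExpHom_smul (c : ℂ) (F : niceSub) : qExpHom (c • F) = c • qExpHom F :=
  qExpansion_smul F.2.analytic c

lemma Nice.eq_zero_of_qExpansion {F : ℍ → ℂ} (h : Nice F) (h0 : qExpansion 1 F = 0) : F = 0 :=
  (qExpansion_eq_zero_iff one_pos (by simpa using h.per) h.holo h.bdd).mp h0

lemma qExpHom_injective : Function.Injective qExpHom := by
  rw [injective_iff_map_eq_zero]
  intro F hF
  exact Subtype.ext (F.2.eq_zero_of_qExpansion hF)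


/-! ### Algebra of `InRatSpan` -/

section InRat

variable {Γ : Subgroup (GL (Fin 2) ℝ)} [Γ.HasDetOne]

lemma InRatSpan.of_int {w : ℤ} (h : ModularForm Γ w) (hh : IsIntPS (qExpansion 1 h)) :
    InRatSpan Γ w h :=
  ⟨h, Submodule.subset_span hh, rfl⟩

lemma InRatSpan.cast {w w' : ℤ} {F : ℍ → ℂ} (hw : w = w') (h : InRatSpan Γ w F) :
    InRatSpan Γ w' F := by
  subst hw
  exact h

lemma InRatSpan.zero (w : ℤ) : InRatSpan Γ w 0 := ⟨0, Submodule.zero_mem _, rfl⟩

lemma InRatSpan.add {w : ℤ} {F G : ℍ → ℂ} (hF : InRatSpan Γ w F) (hG : InRatSpan Γ w G) :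
    InRatSpan Γ w (F + G) := by
  obtain ⟨f, hf, rfl⟩ := hF
  obtain ⟨g, hg, rfl⟩ := hG
  exact ⟨f + g, Submodule.add_mem _ hf hg, rfl⟩

lemma InRatSpan.smul {w : ℤ} {F : ℍ → ℂ} (c : ℂ) (hF : InRatSpan Γ w F) :
    InRatSpan Γ w (c • F) := by
  obtain ⟨f, hf, rfl⟩ := hF
  exact ⟨c • f, Submodule.smul_mem _ c hf, rfl⟩

lemma InRatSpan.sum {w : ℤ} {ι : Type*} (s : Finset ι) {F : ι → ℍ → ℂ}
    (hF : ∀ i ∈ s, InRatSpan Γ w (F i)) : InRatSpan Γ w (∑ i ∈ s, F i) := by
  classical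
  induction s using Finset.induction_on with
  | empty => simpa using InRatSpan.zero (Γ := Γ) w
  | insert a s ha ih =>
    rw [Finset.sum_insert ha]
    exact InRatSpan.add (hF a (Finset.mem_insert_self a s))
      (ih fun i hi => hF i (Finset.mem_insert_of_mem hi))

lemma InRatSpan.mul (hΓ : (1 : ℝ) ∈ Γ.strictPeriods) {w₁ w₂ : ℤ} {F G : ℍ → ℂ}
    (hF : InRatSpan Γ w₁ F) (hG : InRatSpan Γ w₂ G) : InRatSpan Γ (w₁ + w₂) (F * G) := by
  obtain ⟨f, hf, rfl⟩ := hF
  obtain ⟨g, hg, rfl⟩ := hG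
  refine ⟨f.mul g, ?_, ModularForm.coe_mul f g⟩
  refine Submodule.span_induction₂
    (p := fun x y _ _ => x.mul y ∈ ratSpan Γ (w₁ + w₂)) ?_ ?_ ?_ ?_ ?_ ?_ ?_ hf hg
  · intro x y hx hy
    refine Submodule.subset_span ?_
    show IsIntPS (qExpansion 1 (x.mul y))
    rw [ModularForm.qExpansion_mul one_pos hΓ]
    exact IsIntPS.mul hx hy
  · intro y _
    have : (0 : ModularForm Γ w₁).mul y = 0 := by ext τ; simp [ModularForm.coe_mul]
    rw [this]; exact Submodule.zero_mem _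
  · intro x _
    have : x.mul (0 : ModularForm Γ w₂) = 0 := by ext τ; simp [ModularForm.coe_mul]
    rw [this]; exact Submodule.zero_mem _
  · intro x y z _ _ _ hx hy
    have : (x + y).mul z = x.mul z + y.mul z := by ext τ; simp [ModularForm.coe_mul, add_mul]
    rw [this]; exact Submodule.add_mem _ hx hy
  · intro x y z _ _ _ hy hz
    have : x.mul (y + z) = x.mul y + x.mul z := by ext τ; simp [ModularForm.coe_mul, mul_add]
    rw [this]; exact Submodule.add_mem _ hy hz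
  · intro r x y _ _ h
    have : (r • x).mul y = r • x.mul y := by ext τ; simp [ModularForm.coe_mul, mul_assoc]
    rw [this]; exact Submodule.smul_mem _ r h
  · intro r x y _ _ h
    have : x.mul (r • y) = r • x.mul y := by ext τ; simp [ModularForm.coe_mul, mul_left_comm]
    rw [this]; exact Submodule.smul_mem _ r h

lemma InRatSpan.one : InRatSpan Γ 0 1 := by
  refine ⟨1, Submodule.subset_span ?_, ModularForm.one_coe_eq_one⟩
  show IsIntPS (qExpansion 1 ((1 : ModularForm Γ 0) : ℍ → ℂ))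
  rw [ModularForm.one_coe_eq_one, qExpansion_one]
  exact IsIntPS.one

lemma InRatSpan.pow (hΓ : (1 : ℝ) ∈ Γ.strictPeriods) {w : ℤ} {F : ℍ → ℂ}
    (hF : InRatSpan Γ w F) (n : ℕ) : InRatSpan Γ (n * w) (F ^ n) := by
  induction n with
  | zero => simpa using InRatSpan.one (Γ := Γ)
  | succ n ih =>
    rw [pow_succ]
    exact InRatSpan.cast (by push_cast; ring) (InRatSpan.mul hΓ ih hF)

/-- Galois conjugation inside `ratSpan`. -/
lemma exists_conj (hΓ : (1 : ℝ) ∈ Γ.strictPeriods) {w : ℤ} {h : ModularForm Γ w}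
    (hh : h ∈ ratSpan Γ w) (σ : ℂ →+* ℂ) :
    ∃ h' : ModularForm Γ w, h' ∈ ratSpan Γ w ∧ qExpansion 1 h' = (qExpansion 1 h).map σ := by
  refine Submodule.span_induction
    (p := fun (x : ModularForm Γ w) _ => ∃ h' : ModularForm Γ w, h' ∈ ratSpan Γ w ∧
      qExpansion 1 h' = (qExpansion 1 x).map σ) ?_ ?_ ?_ ?_ hh
  · intro x hx
    exact ⟨x, Submodule.subset_span hx, (IsIntPS.map_eq hx σ).symm⟩
  · refine ⟨0, Submodule.zero_mem _, ?_⟩
    simp [qExpansion_zero]
  · rintro x y _ _ ⟨x', hx', hx⟩ ⟨y', hy', hy⟩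
    refine ⟨x' + y', Submodule.add_mem _ hx' hy', ?_⟩
    rw [FunLike.coe_add, FunLike.coe_add, ModularForm.qExpansion_add one_pos hΓ,
      ModularForm.qExpansion_add one_pos hΓ, hx, hy, map_add]
  · rintro a x _ ⟨x', hx', hx⟩
    refine ⟨σ a • x', Submodule.smul_mem _ _ hx', ?_⟩
    have h1 : ((σ a • x' : ModularForm Γ w) : ℍ → ℂ) = σ a • ⇑x' := rfl
    have h2 : ((a • x : ModularForm Γ w) : ℍ → ℂ) = a • ⇑x := rfl
    rw [h1, h2, ModularForm.qExpansion_smul one_pos hΓ, ModularForm.qExpansion_smul one_pos hΓ, hx]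
    ext n
    simp

/-- Finite integral representation of the `q`-expansion of an element of `ratSpan`. -/
lemma exists_repr {w : ℤ} {h : ModularForm Γ w}
    (hh : h ∈ ratSpan Γ w) :
    ∃ (ι : Type) (_ : Fintype ι) (H : ι → ModularForm Γ w) (lam : ι → PowerSeries ℤ) (x : ι → ℂ),
      (∀ i, qExpansion 1 (H i) = (lam i).map (Int.castRingHom ℂ)) ∧ h = ∑ i, x i • H i := by
  classical
  obtain ⟨c, t, ht, -, hsum⟩ := (Submodule.mem_span_iff_exists_finset_subset).mp hh
  have hint : ∀ i : t, ∃ P : PowerSeries ℤ, qExpansion 1 (i : ModularForm Γ w) =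
      P.map (Int.castRingHom ℂ) := fun i => isIntPS_iff.mp (ht i.2)
  choose lam hlam using hint
  refine ⟨t, inferInstance, fun i => i, lam, fun i => c i, hlam, ?_⟩
  rw [← hsum, ← Finset.sum_coe_sort]

end InRat


/-! ### Level one -/

section LevelOne

open Fermat.Agent.S23.LevelOne Fermat.Agent.S23.LevelRaise

lemma isIntPS_qExpansion_monoCast (k : ℕ) (m : Fin 2 →₀ ℕ) :
    IsIntPS (qExpansion 1 (monoCast k m)) := by
  by_cases h : 4 * m 0 + 6 * m 1 = k
  · rw [qExpansion_monoCast h, ← map_e4Z, ← map_e6Z]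
    exact isIntPS_iff.mpr ⟨e4Z ^ m 0 * e6Z ^ m 1, by simp⟩
  · rw [monoCast, dif_neg h]
    simpa [qExpansion_zero] using IsIntPS.zero

/-- Every level one modular form is a `ℂ`-combination of forms with integral `q`-expansion. -/
theorem ratSpan_levelOne_eq_top (w : ℤ) : ratSpan 𝒮ℒ w = ⊤ := by
  rw [eq_top_iff]
  rintro f -
  rcases lt_or_ge w 0 with hw | hw
  · have : f = 0 := by
      ext τ
      simpa using congrFun (ModularFormClass.levelOne_neg_weight_eq_zero hw f) τ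
    rw [this]
    exact Submodule.zero_mem _
  · obtain ⟨n, rfl⟩ := Int.eq_ofNat_of_zero_le hw
    obtain ⟨P, -, rfl⟩ := exists_isobaric n f
    rw [ofPoly]
    refine Submodule.sum_mem _ fun m _ => Submodule.smul_mem _ _ (Submodule.subset_span ?_)
    exact isIntPS_qExpansion_monoCast n m

lemma InRatSpan.of_levelOne {Γ : Subgroup (GL (Fin 2) ℝ)} [Γ.HasDetOne] (hle : Γ ≤ 𝒮ℒ) {w : ℤ}
    (F : ModularForm 𝒮ℒ w) : InRatSpan Γ w F := by
  have hF : F ∈ ratSpan 𝒮ℒ w := by rw [ratSpan_levelOne_eq_top]; trivial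
  refine ⟨restrict hle F, ?_, rfl⟩
  refine Submodule.span_induction
    (p := fun (x : ModularForm 𝒮ℒ w) _ => restrict hle x ∈ ratSpan Γ w) ?_ ?_ ?_ ?_ hF
  · intro x hx
    exact Submodule.subset_span hx
  · have : restrict hle (0 : ModularForm 𝒮ℒ w) = 0 := by ext τ; rfl
    rw [this]; exact Submodule.zero_mem _
  · intro x y _ _ hx hy
    have : restrict hle (x + y) = restrict hle x + restrict hle y := by ext τ; rfl
    rw [this]; exact Submodule.add_mem _ hx hy
  · intro a x _ hx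
    have : restrict hle (a • x) = a • restrict hle x := by ext τ; rfl
    rw [this]; exact Submodule.smul_mem _ a hx

lemma gamma0_le_SL (N : ℕ) :
    (Subgroup.map (Matrix.SpecialLinearGroup.mapGL ℝ) (CongruenceSubgroup.Gamma0 N)) ≤ 𝒮ℒ := by
  rintro x ⟨γ, -, rfl⟩
  exact ⟨γ, rfl⟩

end LevelOne

end

end Fermat.Agent.S23.RatSpan
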