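import Mathlib
import Fermat.Prelude.Def_ModularForm_HeckeOperator

set_option autoImplicit false

namespace Fermat.Agent.S23.CuspSep

open UpperHalfPlane ModularForm CongruenceSubgroup Filter
open scoped MatrixGroups ModularForm Manifold Topology Real

local notation "Δ" => ModularForm.discriminant



/-- Hermite normal form for `diag(N,1) * γ`. -/
theorem exists_hermite (N : ℕ) (hN : N ≠ 0) (γ : SL(2, ℤ)) :
    ∃ (δ : SL(2, ℤ)) (A B D : ℤ), 0 < A ∧ 0 < D ∧ A * D = N ∧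
      (!![(N : ℤ), 0; 0, 1] * (γ : Matrix (Fin 2) (Fin 2) ℤ)
        = (δ : Matrix (Fin 2) (Fin 2) ℤ) * !![A, B; 0, D]) ∧
      (γ ∉ Gamma0 N → 1 < D) := by
  obtain ⟨a, b, c, d, hdet, rfl⟩ :
      ∃ a b c d : ℤ, ∃ (h : a * d - b * c = 1),
        γ = ⟨!![a, b; c, d], by rw [Matrix.det_fin_two_of]; exact h⟩ := by
    refine ⟨γ 0 0, γ 0 1, γ 1 0, γ 1 1, ?_, ?_⟩
    · have := γ.det_coe
      rw [Matrix.det_fin_two] at this
      linarith
    · ext i j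
      fin_cases i <;> fin_cases j <;> rfl
  set g : ℤ := (Int.gcd (N * a) c : ℤ) with hg
  have hbez : g = N * a * Int.gcdA (N * a) c + c * Int.gcdB (N * a) c := Int.gcd_eq_gcd_ab _ _
  set x := Int.gcdA (N * a) c
  set y := Int.gcdB (N * a) c
  obtain ⟨u, hu⟩ : g ∣ N * a := Int.gcd_dvd_left _ _
  obtain ⟨v, hv⟩ : g ∣ c := Int.gcd_dvd_right _ _
  have hgN : g ∣ N := by
    have h1 : (N : ℤ) = (N * a) * d - (N * b) * c := by linear_combination (N : ℤ) * hdet.symm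
    rw [h1]
    exact dvd_sub (Dvd.dvd.mul_right ⟨u, hu⟩ _) (Dvd.dvd.mul_left ⟨v, hv⟩ _)
  obtain ⟨D, hD⟩ := hgN
  have hN' : (N : ℤ) ≠ 0 := by exact_mod_cast hN
  have hg0 : g ≠ 0 := by
    rintro h0
    rw [h0, zero_mul] at hD
    exact hN' hD
  have hgpos : 0 < g := lt_of_le_of_ne (by rw [hg]; positivity) (Ne.symm hg0)
  have hNpos : (0 : ℤ) < N := by positivity
  have hDpos : 0 < D := by
    by_contra hcon
    have : g * D ≤ 0 := mul_nonpos_of_nonneg_of_nonpos hgpos.le (not_lt.mp hcon)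
    omega
  have hdetδ : u * x + v * y = 1 := by
    have : g * (u * x + v * y) = g * 1 := by
      linear_combination (-x) * hu + (-y) * hv + (-1 : ℤ) * hbez
    exact mul_left_cancel₀ hg0 this
  refine ⟨⟨!![u, -y; v, x], by rw [Matrix.det_fin_two_of]; linarith⟩, g, x * (N * b) + y * d, D,
    hgpos, hDpos, hD.symm, ?_, ?_⟩
  · have e1 : u * (x * (N * b) + y * d) + -y * D = N * b := by
      apply mul_left_cancel₀ hg0
      linear_combination (-(x * N * b + y * d)) * hu + y * hD - ((N : ℤ) * b) * hbez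
        + ((N : ℤ) * y) * hdet
    have e2 : v * (x * (N * b) + y * d) + x * D = d := by
      apply mul_left_cancel₀ hg0
      linear_combination (-(x * N * b + y * d)) * hv - x * hD - d * hbez - (x * (N : ℤ)) * hdet
    ext i j
    fin_cases i <;> fin_cases j
    · simp [Matrix.mul_apply, Fin.sum_univ_two]; linarith
    · simp [Matrix.mul_apply, Fin.sum_univ_two]; linarith
    · simp [Matrix.mul_apply, Fin.sum_univ_two]; linarith
    · simp [Matrix.mul_apply, Fin.sum_univ_two]; linarith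
  · intro hγ
    by_contra hcon
    have hD1 : D = 1 := by omega
    apply hγ
    refine Gamma0_mem.mpr ?_
    rw [hD1, mul_one] at hD
    show ((c : ℤ) : ZMod N) = 0
    rw [hv, ← hD]
    simp




theorem heckeDiag_mul_eq (N : ℕ) (hN : N ≠ 0) (γ δ : SL(2, ℤ)) (A B D : ℤ)
    (hAD : (A : ℝ) * (D : ℝ) ≠ 0)
    (h : !![(N : ℤ), 0; 0, 1] * (γ : Matrix (Fin 2) (Fin 2) ℤ)
        = (δ : Matrix (Fin 2) (Fin 2) ℤ) * !![A, B; 0, D]) :
    heckeDiagMatrix N * (Matrix.SpecialLinearGroup.mapGL ℝ γ)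
      = (Matrix.SpecialLinearGroup.mapGL ℝ δ) * upperTriangularGL A B D hAD := by
  apply Units.ext
  rw [Units.val_mul, Units.val_mul, val_heckeDiagMatrix hN, val_upperTriangularGL]
  have hγ : ((Matrix.SpecialLinearGroup.mapGL ℝ γ : GL (Fin 2) ℝ) : Matrix (Fin 2) (Fin 2) ℝ)
      = (γ : Matrix (Fin 2) (Fin 2) ℤ).map (Int.cast : ℤ → ℝ) := by
    ext i j; simp [Matrix.SpecialLinearGroup.mapGL]
  have hδ : ((Matrix.SpecialLinearGroup.mapGL ℝ δ : GL (Fin 2) ℝ) : Matrix (Fin 2) (Fin 2) ℝ)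
      = (δ : Matrix (Fin 2) (Fin 2) ℤ).map (Int.cast : ℤ → ℝ) := by
    ext i j; simp [Matrix.SpecialLinearGroup.mapGL]
  have e1 : !![(N : ℝ), 0; 0, 1] = (!![(N : ℤ), 0; 0, 1]).map (Int.cast : ℤ → ℝ) := by
    ext i j; fin_cases i <;> fin_cases j <;> simp
  have e2 : !![(A : ℝ), (B : ℝ); 0, (D : ℝ)] = (!![A, B; 0, D]).map (Int.cast : ℤ → ℝ) := by
    ext i j; fin_cases i <;> fin_cases j <;> simp
  rw [hγ, hδ, e1, e2, ← Matrix.map_mul_intCast, ← Matrix.map_mul_intCast, h]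

theorem sigma_upperTriangularGL (a b d : ℝ) (ha : 0 < a) (hd : 0 < d) :
    UpperHalfPlane.σ (upperTriangularGL a b d (mul_pos ha hd).ne') = .refl ℝ ℂ := by
  rw [UpperHalfPlane.σ, if_pos]
  rw [Matrix.GeneralLinearGroup.val_det_apply, val_upperTriangularGL, Matrix.det_fin_two_of]
  simpa using mul_pos ha hd

theorem denom_upperTriangularGL (a b d : ℝ) (had : a * d ≠ 0) (τ : ℍ) :
    UpperHalfPlane.denom (upperTriangularGL a b d had) τ = d := by
  simp [UpperHalfPlane.denom, val_upperTriangularGL]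

theorem coe_upperTriangularGL_smul (a b d : ℝ) (ha : 0 < a) (hd : 0 < d) (τ : ℍ) :
    ((upperTriangularGL a b d (mul_pos ha hd).ne' • τ : ℍ) : ℂ) = (a * (τ : ℂ) + b) / d := by
  rw [UpperHalfPlane.coe_smul_of_det_pos]
  · simp [UpperHalfPlane.num, UpperHalfPlane.denom, val_upperTriangularGL]
  · rw [Matrix.GeneralLinearGroup.val_det_apply, val_upperTriangularGL, Matrix.det_fin_two_of]
    simpa using mul_pos ha hd

theorem slash_upperTriangularGL_apply (k : ℤ) (a b d : ℝ) (ha : 0 < a) (hd : 0 < d)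
    (f : ℍ → ℂ) (τ : ℍ) :
    (f ∣[k] upperTriangularGL a b d (mul_pos ha hd).ne') τ
      = ((a * d : ℝ) : ℂ) ^ (k - 1) * (d : ℂ) ^ (-k)
        * f (upperTriangularGL a b d (mul_pos ha hd).ne' • τ) := by
  rw [ModularForm.slash_apply, sigma_upperTriangularGL a b d ha hd, denom_upperTriangularGL]
  have hdet : ((upperTriangularGL a b d (mul_pos ha hd).ne').det : ℝ) = a * d := by
    rw [Matrix.GeneralLinearGroup.val_det_apply, val_upperTriangularGL, Matrix.det_fin_two_of]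
    ring
  rw [hdet, abs_of_pos (mul_pos ha hd)]
  simp only [ContinuousAlgEquiv.refl_apply]
  ring

theorem slash_translate {k : ℤ} (f : ℍ → ℂ) (hf : ∀ δ : SL(2, ℤ), f ∣[k] δ = f)
    (N : ℕ) (hN : N ≠ 0) (γ δ : SL(2, ℤ)) (A B D : ℤ) (hAD : (A : ℝ) * (D : ℝ) ≠ 0)
    (h : !![(N : ℤ), 0; 0, 1] * (γ : Matrix (Fin 2) (Fin 2) ℤ)
        = (δ : Matrix (Fin 2) (Fin 2) ℤ) * !![A, B; 0, D]) :
    (f ∣[k] heckeDiagMatrix N) ∣[k] γ = f ∣[k] upperTriangularGL A B D hAD := by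
  rw [ModularForm.SL_slash, ← SlashAction.slash_mul]
  have := heckeDiag_mul_eq N hN γ δ A B D hAD h
  rw [show (Matrix.SpecialLinearGroup.toGL ((Matrix.SpecialLinearGroup.map (Int.castRingHom ℝ)) γ))
    = Matrix.SpecialLinearGroup.mapGL ℝ γ from rfl, this, SlashAction.slash_mul]
  congr 1
  have := hf δ
  rwa [ModularForm.SL_slash] at this




theorem tendsto_levelOne_atImInfty {k : ℤ} (f : ModularForm 𝒮ℒ k) :
    Tendsto f atImInfty (𝓝 ((qExpansion 1 f).coeff 0)) := by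
  have hΓ : (1 : ℝ) ∈ (𝒮ℒ).strictPeriods := one_mem_strictPeriods_SL
  have hanal := ModularFormClass.analyticAt_cuspFunction_zero f one_pos hΓ
  have h0 : (qExpansion 1 f).coeff 0 = cuspFunction 1 f 0 := by
    simp [qExpansion_coeff]
  rw [h0]
  exact (hanal.continuousAt.tendsto.comp (qParam_tendsto_atImInfty one_pos)).congr
    (fun τ ↦ SlashInvariantFormClass.eq_cuspFunction f τ hΓ one_ne_zero)

theorem tendsto_E₄_atImInfty : Tendsto E₄ atImInfty (𝓝 1) := by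
  have := tendsto_levelOne_atImInfty E₄
  rwa [EisensteinSeries.E_qExpansion_coeff_zero (by norm_num) (by decide)] at this






theorem im_heckeDiagMatrix_smul {N : ℕ} (hN : N ≠ 0) (τ : ℍ) :
    (heckeDiagMatrix N • τ).im = N * τ.im := by
  have := congrArg Complex.im (coe_heckeDiagMatrix_smul hN τ)
  simpa using this

theorem im_upperTriangularGL_smul (a b d : ℝ) (ha : 0 < a) (hd : 0 < d) (τ : ℍ) :
    (upperTriangularGL a b d (mul_pos ha hd).ne' • τ).im = a / d * τ.im := by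
  have := congrArg Complex.im (coe_upperTriangularGL_smul a b d ha hd τ)
  rw [UpperHalfPlane.coe_im] at this
  rw [this]
  have h1 : ((a : ℂ) * (τ : ℂ) + b) / d = ((a * (τ : ℂ) + b) * ((d⁻¹ : ℝ) : ℂ)) := by
    push_cast; ring
  rw [h1, Complex.mul_im]
  simp
  field_simp

theorem eventually_ne_of_lt {N : ℕ} (hN : N ≠ 0) (a b d : ℝ) (ha : 0 < a) (hd : 0 < d)
    (hlt : a / d < N) :
    ∀ᶠ τ in atImInfty,
      E₄ (heckeDiagMatrix N • τ) ^ 3 * Δ (upperTriangularGL a b d (mul_pos ha hd).ne' • τ)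
        ≠ E₄ (upperTriangularGL a b d (mul_pos ha hd).ne' • τ) ^ 3 * Δ (heckeDiagMatrix N • τ) := by
  set α := heckeDiagMatrix N with hα
  set T := upperTriangularGL a b d (mul_pos ha hd).ne' with hT
  have tα : Tendsto (fun τ : ℍ => α • τ) atImInfty atImInfty :=
    tendsto_smul_atImInfty (by simp [hα, val_heckeDiagMatrix hN])
  have tT : Tendsto (fun τ : ℍ => T • τ) atImInfty atImInfty :=
    tendsto_smul_atImInfty (by simp [hT, val_upperTriangularGL])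
  have hE1 : Tendsto (fun τ : ℍ => E₄ (α • τ) ^ 3) atImInfty (𝓝 1) := by
    simpa using (tendsto_E₄_atImInfty.comp tα).pow 3
  have hE2 : Tendsto (fun τ : ℍ => E₄ (T • τ) ^ 3) atImInfty (𝓝 1) := by
    simpa using (tendsto_E₄_atImInfty.comp tT).pow 3
  have hΔα : (fun τ : ℍ => Δ (α • τ)) =O[atImInfty]
      (fun τ : ℍ => Real.exp (-2 * π * (N * τ.im))) := by
    have h := (CuspFormClass.exp_decay_atImInfty (h := 1) CuspForm.discriminant one_pos
      one_mem_strictPeriods_SL).comp_tendsto tα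
    refine h.congr (fun τ => rfl) (fun τ => ?_)
    simp [Function.comp, hα, im_heckeDiagMatrix_smul hN]
  have hΔT : (fun τ : ℍ => Real.exp (-2 * π * (a / d * τ.im))) =O[atImInfty]
      (fun τ : ℍ => Δ (T • τ)) := by
    have h := exp_isBigO_discriminant.comp_tendsto tT
    refine h.congr (fun τ => ?_) (fun τ => rfl)
    simp [Function.comp, hT, im_upperTriangularGL_smul a b d ha hd]
  have hlittle : (fun τ : ℍ => Real.exp (-2 * π * (N * τ.im))) =o[atImInfty]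
      (fun τ : ℍ => Real.exp (-2 * π * (a / d * τ.im))) := by
    rw [Real.isLittleO_exp_comp_exp_comp]
    have : (fun τ : ℍ => -2 * π * (a / d * τ.im) - -2 * π * (N * τ.im))
        = fun τ : ℍ => (2 * π * (N - a / d)) * τ.im := by
      funext τ; ring
    rw [this]
    have hpos : 0 < 2 * π * ((N : ℝ) - a / d) := by
      have h1 := Real.pi_pos
      have h2 : 0 < (N : ℝ) - a / d := by linarith
      positivity
    exact Tendsto.const_mul_atTop hpos tendsto_comap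
  have hlo : (fun τ : ℍ => Δ (α • τ)) =o[atImInfty] (fun τ : ℍ => Δ (T • τ)) :=
    hΔα.trans_isLittleO (hlittle.trans_isBigO hΔT)
  have h8 := hlo.def (c := 1 / 8) (by norm_num)
  have hb1 := hE1.eventually (Metric.ball_mem_nhds (1 : ℂ) (by norm_num : (0 : ℝ) < 1 / 2))
  have hb2 := hE2.eventually (Metric.ball_mem_nhds (1 : ℂ) (by norm_num : (0 : ℝ) < 1 / 2))
  filter_upwards [h8, hb1, hb2] with τ h8 hb1 hb2 heq
  have hΔpos : 0 < ‖Δ (T • τ)‖ := norm_pos_iff.mpr (discriminant_ne_zero _)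
  have n1 : 1 / 2 ≤ ‖E₄ (α • τ) ^ 3‖ := by
    have hsub : ‖E₄ (α • τ) ^ 3 - 1‖ < 1 / 2 := by rwa [Complex.dist_eq] at hb1
    have h1 := norm_sub_norm_le (1 : ℂ) (E₄ (α • τ) ^ 3)
    rw [norm_one, norm_sub_rev] at h1
    linarith
  have n2 : ‖E₄ (T • τ) ^ 3‖ ≤ 3 / 2 := by
    have hsub : ‖E₄ (T • τ) ^ 3 - 1‖ < 1 / 2 := by rwa [Complex.dist_eq] at hb2
    have h1 := norm_sub_norm_le (E₄ (T • τ) ^ 3) (1 : ℂ)
    rw [norm_one] at h1
    linarith
  have := congrArg norm heq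
  rw [norm_mul, norm_mul] at this
  have hle : ‖E₄ (T • τ) ^ 3‖ * ‖Δ (α • τ)‖ ≤ 3 / 2 * (1 / 8 * ‖Δ (T • τ)‖) :=
    mul_le_mul n2 h8 (norm_nonneg _) (by norm_num)
  have hge : 1 / 2 * ‖Δ (T • τ)‖ ≤ ‖E₄ (α • τ) ^ 3‖ * ‖Δ (T • τ)‖ :=
    mul_le_mul_of_nonneg_right n1 hΔpos.le
  nlinarith


/-- Translate of `τ ↦ f (N τ)` (`f` of level one, weight `k`) by `γ ∈ SL(2,ℤ)`, in terms of the
Hermite normal form `diag(N,1) γ = δ [[A,B],[0,D]]`. -/
theorem slash_levelRaise {k : ℤ} (f : ℍ → ℂ) (hf : ∀ δ : SL(2, ℤ), f ∣[k] δ = f)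
    {N : ℕ} (hN : N ≠ 0) (γ δ : SL(2, ℤ)) (A B D : ℤ) (hA : 0 < A) (hD : 0 < D)
    (hADN : A * D = N)
    (h : !![(N : ℤ), 0; 0, 1] * (γ : Matrix (Fin 2) (Fin 2) ℤ)
        = (δ : Matrix (Fin 2) (Fin 2) ℤ) * !![A, B; 0, D]) (τ : ℍ) :
    ((fun z : ℍ => f (heckeDiagMatrix N • z)) ∣[k] γ) τ
      = (D : ℂ) ^ (-k) * f (upperTriangularGL (A : ℝ) (B : ℝ) (D : ℝ)
          (mul_pos (Int.cast_pos.mpr hA) (Int.cast_pos.mpr hD)).ne' • τ) := by
  have hA' : (0 : ℝ) < A := Int.cast_pos.mpr hA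
  have hD' : (0 : ℝ) < D := Int.cast_pos.mpr hD
  have hNC : (N : ℂ) ≠ 0 := by exact_mod_cast hN
  have e1 : (fun z : ℍ => f (heckeDiagMatrix N • z))
      = ((N : ℂ) ^ (k - 1))⁻¹ • (f ∣[k] heckeDiagMatrix N) := by
    funext z
    rw [Pi.smul_apply, slash_heckeDiagMatrix_apply k hN, smul_eq_mul, ← mul_assoc,
      inv_mul_cancel₀ (zpow_ne_zero _ hNC), one_mul]
  rw [e1, ModularForm.SL_smul_slash, Pi.smul_apply,
    slash_translate f hf N hN γ δ A B D (mul_pos hA' hD').ne' h,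
    slash_upperTriangularGL_apply k (A : ℝ) (B : ℝ) (D : ℝ) hA' hD', smul_eq_mul]
  have hAD' : (((A : ℝ) * (D : ℝ) : ℝ) : ℂ) = (N : ℂ) := by
    have : ((A * D : ℤ) : ℂ) = ((N : ℤ) : ℂ) := by rw [hADN]
    push_cast at this ⊢
    exact this
  rw [hAD', ← mul_assoc, ← mul_assoc, inv_mul_cancel₀ (zpow_ne_zero _ hNC), one_mul]
  push_cast
  ring

/-- **Separation of the cusp `∞` of `Γ₀(N)` from the other cusps.**
If `a = ca · E₄(N·)³` and `b = cb · Δ(N·)` then for `γ ∈ SL(2,ℤ) \ Γ₀(N)` the function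
`a · (b∣γ) − (a∣γ) · b` does not vanish identically (indeed it is eventually nonzero at `i∞`). -/
theorem eventually_mul_slash_ne {N : ℕ} (hN : N ≠ 0) {γ : SL(2, ℤ)} (hγ : γ ∉ Gamma0 N)
    {a b : ℍ → ℂ} {ca cb : ℂ} (hca : ca ≠ 0) (hcb : cb ≠ 0)
    (ha : ∀ τ, a τ = ca * E₄ (heckeDiagMatrix N • τ) ^ 3)
    (hb : ∀ τ, b τ = cb * Δ (heckeDiagMatrix N • τ)) :
    ∀ᶠ τ in atImInfty, a τ * (b ∣[(12 : ℤ)] γ) τ ≠ (a ∣[(12 : ℤ)] γ) τ * b τ := by
  obtain ⟨δ, A, B, D, hA, hD, hADN, hmat, hD1⟩ := exists_hermite N hN γ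
  have hD1' : 1 < D := hD1 hγ
  have hA' : (0 : ℝ) < A := Int.cast_pos.mpr hA
  have hD' : (0 : ℝ) < D := Int.cast_pos.mpr hD
  set T := upperTriangularGL (A : ℝ) (B : ℝ) (D : ℝ) (mul_pos hA' hD').ne' with hT
  have hE : ∀ δ : SL(2, ℤ), (⇑E₄ : ℍ → ℂ) ∣[(4 : ℤ)] δ = ⇑E₄ := fun δ =>
    SlashInvariantForm.slash_action_eqn E₄ _ ⟨δ, rfl⟩
  have hΔ : ∀ δ : SL(2, ℤ), (Δ : ℍ → ℂ) ∣[(12 : ℤ)] δ = Δ := fun δ =>
    SlashInvariantForm.slash_action_eqn CuspForm.discriminant _ ⟨δ, rfl⟩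
  have hbγ : ∀ τ, (b ∣[(12 : ℤ)] γ) τ = cb * ((D : ℂ) ^ (-(12 : ℤ)) * Δ (T • τ)) := by
    intro τ
    have hb' : b = cb • (fun z : ℍ => Δ (heckeDiagMatrix N • z)) := by
      funext z; simp [hb z]
    rw [hb', ModularForm.SL_smul_slash, Pi.smul_apply, smul_eq_mul,
      slash_levelRaise Δ hΔ hN γ δ A B D hA hD hADN hmat τ]
  have haγ : ∀ τ, (a ∣[(12 : ℤ)] γ) τ = ca * ((D : ℂ) ^ (-(4 : ℤ)) * E₄ (T • τ)) ^ 3 := by
    intro τ
    set e : ℍ → ℂ := fun z : ℍ => E₄ (heckeDiagMatrix N • z) with he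
    have ha' : a = ca • (e * e * e) := by
      funext z; simp [ha z, he, pow_succ, mul_assoc]
    have h12 : (12 : ℤ) = 4 + 4 + 4 := by norm_num
    rw [ha', ModularForm.SL_smul_slash, Pi.smul_apply, smul_eq_mul, h12,
      ModularForm.mul_slash_SL2, ModularForm.mul_slash_SL2, Pi.mul_apply, Pi.mul_apply,
      slash_levelRaise (⇑E₄) hE hN γ δ A B D hA hD hADN hmat τ]
    ring
  have hlt : (A : ℝ) / (D : ℝ) < N := by
    have h1 : (A : ℝ) * (D : ℝ) = N := by exact_mod_cast hADN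
    have h2 : (1 : ℝ) < D := by exact_mod_cast hD1'
    rw [div_lt_iff₀ hD']
    nlinarith
  have hDC : (D : ℂ) ≠ 0 := by exact_mod_cast hD.ne'
  filter_upwards [eventually_ne_of_lt hN (A : ℝ) (B : ℝ) (D : ℝ) hA' hD' hlt] with τ hτ heq
  apply hτ
  rw [ha τ, hb τ, haγ τ, hbγ τ] at heq
  have h3 : ((D : ℂ) ^ (-(4 : ℤ))) ^ 3 = (D : ℂ) ^ (-(12 : ℤ)) := by
    rw [← zpow_natCast, ← zpow_mul]; norm_num
  have hne : ca * cb * (D : ℂ) ^ (-(12 : ℤ)) ≠ 0 :=
    mul_ne_zero (mul_ne_zero hca hcb) (zpow_ne_zero _ hDC)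
  apply mul_left_cancel₀ hne
  rw [mul_pow, h3] at heq
  linear_combination heq

theorem mul_slash_ne {N : ℕ} (hN : N ≠ 0) {γ : SL(2, ℤ)} (hγ : γ ∉ Gamma0 N)
    {a b : ℍ → ℂ} {ca cb : ℂ} (hca : ca ≠ 0) (hcb : cb ≠ 0)
    (ha : ∀ τ, a τ = ca * E₄ (heckeDiagMatrix N • τ) ^ 3)
    (hb : ∀ τ, b τ = cb * Δ (heckeDiagMatrix N • τ)) :
    a * (b ∣[(12 : ℤ)] γ) ≠ (a ∣[(12 : ℤ)] γ) * b := by
  intro heq
  obtain ⟨τ, hτ⟩ := (eventually_mul_slash_ne hN hγ hca hcb ha hb).exists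
  exact hτ (by simpa using congrFun heq τ)

end Fermat.Agent.S23.CuspSep
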