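import Mathlib
import Fermat.Agent.S23.Defs
import Fermat.Agent.S23.LevelRaise
import Fermat.Agent.S23.CuspSep

set_option autoImplicit false

namespace Fermat.Agent.S23.TForm
open Fermat.Agent.S23.Defs
open UpperHalfPlane ModularForm Filter Topology
open scoped MatrixGroups ModularForm

theorem dg_eq_heckeDiagMatrix (N : ℕ) [NeZero N] :
    Fermat.Agent.S23.LevelRaise.dg N = heckeDiagMatrix N := by
  apply Units.ext
  rw [val_heckeDiagMatrix (NeZero.ne N)]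
  rfl

theorem isIntPS_E₄ : IsIntPS (qExpansion 1 E₄) := by
  intro n
  rw [EisensteinSeries.E_qExpansion_coeff (by norm_num) ⟨2, rfl⟩]
  split_ifs with h
  · exact ⟨1, by simp⟩
  · refine ⟨240 * (ArithmeticFunction.sigma 3 n : ℤ), ?_⟩
    norm_num [show bernoulli 4 = -1 / 30 by decide +kernel]

/-- `τ ↦ E₄(N τ)` as a modular form on `Γ₀(N)`. -/
noncomputable def tForm (N : ℕ) [NeZero N] : ModularForm (CongruenceSubgroup.Gamma0 N) 4 :=
  Fermat.Agent.S23.LevelRaise.levelRaise N E₄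

theorem tForm_apply (N : ℕ) [NeZero N] (τ : ℍ) :
    tForm N τ = E₄ (heckeDiagMatrix N • τ) := by
  rw [tForm, Fermat.Agent.S23.LevelRaise.levelRaise_apply, dg_eq_heckeDiagMatrix]

theorem coe_tForm (N : ℕ) [NeZero N] :
    (⇑(tForm N) : ℍ → ℂ) = fun z : ℍ => E₄ (heckeDiagMatrix N • z) :=
  funext (tForm_apply N)

theorem isIntPS_tForm (N : ℕ) [NeZero N] : IsIntPS (qExpansion 1 (tForm N)) :=
  Fermat.Agent.S23.LevelRaise.qExpansion_levelRaise_coeff_int N E₄ isIntPS_E₄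

theorem qExpansion_tForm_coeff (N : ℕ) [NeZero N] (n : ℕ) :
    (qExpansion 1 (tForm N)).coeff n =
      if N ∣ n then (qExpansion 1 E₄).coeff (n / N) else 0 :=
  Fermat.Agent.S23.LevelRaise.qExpansion_levelRaise_coeff N E₄ n

theorem tendsto_tForm (N : ℕ) [NeZero N] : Tendsto (tForm N) atImInfty (𝓝 1) := by
  have hN : N ≠ 0 := NeZero.ne N
  have tα : Tendsto (fun τ : ℍ => heckeDiagMatrix N • τ) atImInfty atImInfty :=
    tendsto_smul_atImInfty (by simp [val_heckeDiagMatrix hN])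
  have h := Fermat.Agent.S23.CuspSep.tendsto_E₄_atImInfty.comp tα
  refine h.congr fun τ => ?_
  simp [tForm_apply]

/-- The translate of `tForm` by `γ ∉ Γ₀(N)` tends to `D⁻⁴ ≠ 1` at `i∞`. -/
theorem exists_tendsto_slash_ne (N : ℕ) [NeZero N] {γ : SL(2, ℤ)}
    (hγ : γ ∉ CongruenceSubgroup.Gamma0 N) :
    ∃ c' : ℂ, c' ≠ 1 ∧ Tendsto ((⇑(tForm N) : ℍ → ℂ) ∣[(4 : ℤ)] γ) atImInfty (𝓝 c') := by
  have hN : N ≠ 0 := NeZero.ne N
  obtain ⟨δ, A, B, D, hA, hD, hADN, hmat, hD1⟩ :=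
    Fermat.Agent.S23.CuspSep.exists_hermite N hN γ
  have hD1' : 1 < D := hD1 hγ
  have hA' : (0 : ℝ) < A := Int.cast_pos.mpr hA
  have hD' : (0 : ℝ) < D := Int.cast_pos.mpr hD
  have hE : ∀ δ : SL(2, ℤ), (⇑E₄ : ℍ → ℂ) ∣[(4 : ℤ)] δ = ⇑E₄ := fun δ =>
    SlashInvariantForm.slash_action_eqn E₄ _ ⟨δ, rfl⟩
  refine ⟨(D : ℂ) ^ (-(4 : ℤ)), ?_, ?_⟩
  · intro h1
    have hDC : (D : ℂ) ≠ 0 := by exact_mod_cast hD.ne'
    have h2 : (D : ℂ) ^ (4 : ℕ) = 1 := by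
      have h3 : (D : ℂ) ^ (-(4 : ℤ)) * (D : ℂ) ^ (4 : ℕ) = 1 := by
        rw [← zpow_natCast, ← zpow_add₀ hDC]; norm_num
      rw [h1, one_mul] at h3
      exact h3
    have h4 : D ^ 4 = 1 := by exact_mod_cast h2
    have h5 : (1 : ℤ) < D ^ 4 := by
      calc (1 : ℤ) < D := hD1'
        _ ≤ D ^ 4 := by nlinarith [sq_nonneg D, sq_nonneg (D ^ 2), mul_pos hD hD]
    omega
  · set T := upperTriangularGL (A : ℝ) (B : ℝ) (D : ℝ) (mul_pos hA' hD').ne' with hT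
    have tT : Tendsto (fun τ : ℍ => T • τ) atImInfty atImInfty :=
      tendsto_smul_atImInfty (by simp [hT, val_upperTriangularGL])
    have h := (Fermat.Agent.S23.CuspSep.tendsto_E₄_atImInfty.comp tT).const_mul
      ((D : ℂ) ^ (-(4 : ℤ)))
    rw [mul_one] at h
    refine h.congr fun τ => ?_
    rw [coe_tForm,
      Fermat.Agent.S23.CuspSep.slash_levelRaise (⇑E₄) hE hN γ δ A B D hA hD hADN hmat τ]
    rfl

theorem exists_tForm (N : ℕ) [NeZero N] :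
    ∃ t : ModularForm (CongruenceSubgroup.Gamma0 N) 4, IsIntPS (qExpansion 1 t) ∧
      ∃ c : ℂ, Tendsto t atImInfty (𝓝 c) ∧
        ∀ q : 𝒮ℒ ⧸ ((CongruenceSubgroup.Gamma0 N : Subgroup (GL (Fin 2) ℝ)).subgroupOf 𝒮ℒ),
          q ≠ QuotientGroup.mk 1 →
          ∃ c' : ℂ, c' ≠ c ∧ Tendsto (SlashInvariantForm.quotientFunc t q) atImInfty (𝓝 c') := by
  refine ⟨tForm N, isIntPS_tForm N, 1, tendsto_tForm N, ?_⟩
  intro q hq
  induction q using Quotient.inductionOn with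
  | h r =>
    obtain ⟨r, γ, rfl⟩ := r
    have hγ : γ⁻¹ ∉ CongruenceSubgroup.Gamma0 N := by
      intro hmem
      apply hq
      symm
      rw [show (Quotient.mk _ ⟨Matrix.SpecialLinearGroup.mapGL ℝ γ, ⟨γ, rfl⟩⟩ :
          𝒮ℒ ⧸ ((CongruenceSubgroup.Gamma0 N : Subgroup (GL (Fin 2) ℝ)).subgroupOf 𝒮ℒ))
          = QuotientGroup.mk ⟨Matrix.SpecialLinearGroup.mapGL ℝ γ, ⟨γ, rfl⟩⟩ from rfl]
      rw [QuotientGroup.eq]
      rw [Subgroup.mem_subgroupOf]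
      simp only [inv_one, one_mul]
      exact ⟨γ, by simpa using (CongruenceSubgroup.Gamma0 N).inv_mem hmem, rfl⟩
    obtain ⟨c', hc', hlim⟩ := exists_tendsto_slash_ne N hγ
    refine ⟨c', hc', ?_⟩
    have : SlashInvariantForm.quotientFunc (tForm N)
        (Quotient.mk _ ⟨Matrix.SpecialLinearGroup.mapGL ℝ γ, ⟨γ, rfl⟩⟩ :
          𝒮ℒ ⧸ ((CongruenceSubgroup.Gamma0 N : Subgroup (GL (Fin 2) ℝ)).subgroupOf 𝒮ℒ))
        = (⇑(tForm N) : ℍ → ℂ) ∣[(4 : ℤ)] γ⁻¹ := by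
      rw [SlashInvariantForm.quotientFunc_mk, ModularForm.SL_slash]
      congr 1
      simp
      rfl
    rw [this]
    exact hlim

end Fermat.Agent.S23.TForm
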