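import Mathlib
import Fermat.Agent.S23.Defs
import Fermat.Agent.S23.Basic
import Fermat.Agent.S23.RatSpan
import Fermat.Agent.S23.TForm
import Fermat.Agent.S23.Interp

set_option autoImplicit false

namespace Fermat.Agent.S23.Fraction

open UpperHalfPlane ModularForm SlashInvariantForm Filter Topology
open Fermat.Agent.S23.Defs Fermat.Agent.S23.RatSpan
open scoped MatrixGroups ModularForm Manifold

noncomputable section

/-- `E₄` restricted to `Γ₀(N)`. -/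
def e4 (N : ℕ) : ModularForm (G0 N) 4 where
  toFun := E₄
  slash_action_eq' γ hγ := E₄.slash_action_eq' γ (gamma0_le_SL N hγ)
  holo' := E₄.holo'
  bdd_at_cusps' hc := E₄.bdd_at_cusps' (hc.mono (gamma0_le_SL N))

lemma coe_e4 (N : ℕ) : ⇑(e4 N) = ⇑E₄ := rfl

lemma quotientFunc_e4 (N : ℕ) (l : Q0 N) : quotientFunc (ℋ := 𝒮ℒ) (e4 N) l = ⇑E₄ := by
  induction l using Quotient.inductionOn with
  | h r =>
    obtain ⟨γ, hγ⟩ : ∃ γ : SL(2, ℤ), Matrix.SpecialLinearGroup.mapGL ℝ γ = r.val⁻¹ := inv_mem r.2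
    rw [quotientFunc_mk, ← hγ]
    exact SlashInvariantForm.slash_action_eqn E₄ _ ⟨γ, rfl⟩

lemma isIntPS_e4 (N : ℕ) : IsIntPS (qExpansion 1 (e4 N)) := TForm.isIntPS_E₄

/-- A polynomial expression `∑ g_m a^m b^(μ-1-m)` with level-one coefficients lies in `ratSpan`. -/
lemma inRatSpan_sum (N : ℕ) (μ : ℕ) (K : ℤ) (a b : ModularForm (G0 N) 4)
    (ha : IsIntPS (qExpansion 1 a)) (hb : IsIntPS (qExpansion 1 b))
    (g : Fin μ → ModularForm 𝒮ℒ (K + 4 * ((μ : ℤ) - 1))) :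
    InRatSpan (G0 N) (8 * ((μ : ℤ) - 1) + K)
      (fun τ => ∑ m : Fin μ, g m τ * a τ ^ (m : ℕ) * b τ ^ (μ - 1 - (m : ℕ))) := by
  have hper : (1 : ℝ) ∈ (G0 N).strictPeriods := CongruenceSubgroup.one_mem_strictPeriods_Gamma0 N
  have hle : G0 N ≤ 𝒮ℒ := gamma0_le_SL N
  have hta : InRatSpan (G0 N) 4 a := InRatSpan.of_int a ha
  have htb : InRatSpan (G0 N) 4 b := InRatSpan.of_int b hb
  have hsum : InRatSpan (G0 N) (8 * ((μ : ℤ) - 1) + K)
      (∑ m : Fin μ, (⇑(g m) * (⇑a) ^ (m : ℕ) * (⇑b) ^ (μ - 1 - (m : ℕ)))) := by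
    refine InRatSpan.sum Finset.univ fun m _ => ?_
    have hm : (m : ℕ) < μ := m.2
    have hcast : ((μ - 1 - (m : ℕ) : ℕ) : ℤ) = (μ : ℤ) - 1 - (m : ℕ) := by omega
    refine InRatSpan.cast ?_ (InRatSpan.mul hper (InRatSpan.mul hper
      (InRatSpan.of_levelOne hle (g m)) (InRatSpan.pow hper hta (m : ℕ)))
      (InRatSpan.pow hper htb (μ - 1 - (m : ℕ))))
    rw [hcast]
    ring
  convert hsum using 1
  funext τ
  simp [Finset.sum_apply]

/-- **The fraction lemma.** Every cusp form `f` on `Γ₀(N)` is a quotient `P / Q` of two modular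
forms on `Γ₀(N)` lying in the `ℂ`-span of forms with integral `q`-expansion. -/
theorem exists_fraction (N : ℕ) [NeZero N] (k : ℤ) (f : CuspForm (G0 N) k) :
    ∃ (w : ℤ) (Q : ModularForm (G0 N) w) (P : ModularForm (G0 N) (w + k)),
      Q ≠ 0 ∧ (∀ τ, f τ * Q τ = P τ) ∧ Q ∈ ratSpan (G0 N) w ∧ P ∈ ratSpan (G0 N) (w + k) := by
  classical
  let _ := Fintype.ofFinite (Q0 N)
  obtain ⟨t, htint, c, htc, hsep⟩ := TForm.exists_tForm N
  set μ : ℕ := Nat.card (Q0 N) with hμ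
  obtain ⟨g, hg⟩ := Interp.exists_interp (𝒢 := G0 N) (ModularFormClass.modularForm f) t (e4 N)
  obtain ⟨g1, hg1⟩ := Interp.exists_interp (𝒢 := G0 N) (1 : ModularForm (G0 N) 0) t (e4 N)
  obtain ⟨P, hP, hPfun⟩ := inRatSpan_sum N μ k t (e4 N) htint (isIntPS_e4 N) g
  obtain ⟨Q, hQ, hQfun⟩ := InRatSpan.cast (w' := 8 * ((μ : ℤ) - 1)) (by ring)
    (inRatSpan_sum N μ 0 t (e4 N) htint (isIntPS_e4 N) g1)
  -- the separating function does not vanish identically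
  have hD : ∃ τ : ℍ, ∏ l ∈ Finset.univ.erase (⟦1⟧ : Q0 N),
      (t τ * quotientFunc (ℋ := 𝒮ℒ) (e4 N) l τ - quotientFunc (ℋ := 𝒮ℒ) t l τ * e4 N τ) ≠ 0 := by
    refine Interp.prod_sep_ne_zero t (e4 N) fun l hl => ?_
    obtain ⟨c', hc', hlim⟩ := hsep l hl
    have hE := Fermat.Agent.S23.CuspSep.tendsto_E₄_atImInfty
    have hlim2 : Tendsto (fun τ : ℍ => t τ * quotientFunc (ℋ := 𝒮ℒ) (e4 N) l τ
        - quotientFunc (ℋ := 𝒮ℒ) t l τ * e4 N τ) atImInfty (𝓝 (c * 1 - c' * 1)) := by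
      rw [quotientFunc_e4]
      exact (htc.mul hE).sub (hlim.mul hE)
    have hne : c * 1 - c' * 1 ≠ 0 := by
      rw [mul_one, mul_one]
      exact sub_ne_zero.mpr (Ne.symm hc')
    exact (hlim2.eventually_ne hne).exists
  refine ⟨8 * ((μ : ℤ) - 1), Q, P, ?_, ?_, hQ, hP⟩
  · obtain ⟨τ, hτ⟩ := hD
    intro hQ0
    apply hτ
    have h1 := hg1 τ
    have h2 := congrFun hQfun τ
    rw [hQ0] at h2
    simp only [ModularForm.one_coe_eq_one, Pi.one_apply, one_mul] at h1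
    rw [h1]
    exact h2.symm
  · intro τ
    have h1 := hg1 τ
    have h2 := congrFun hQfun τ
    have h3 := hg τ
    have h4 := congrFun hPfun τ
    simp only [ModularForm.one_coe_eq_one, Pi.one_apply, one_mul] at h1
    rw [h2, h4, ← h1]
    exact h3

end

end Fermat.Agent.S23.Fraction
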