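import Mathlib
import Fermat.Agent.S23.Defs

set_option autoImplicit false

namespace Fermat.Agent.S23.Extend

open UpperHalfPlane Filter Topology Set
open scoped Manifold

/-- Cauchy's root bound for a monic polynomial equation. -/
theorem norm_le_of_monic_eq (μ : ℕ) (hμ : 1 ≤ μ) (c : ℕ → ℂ) (x : ℂ)
    (h : x ^ μ + ∑ m ∈ Finset.Icc 1 μ, c m * x ^ (μ - m) = 0) :
    ‖x‖ ≤ 1 + ∑ m ∈ Finset.Icc 1 μ, ‖c m‖ := by
  by_contra hcon
  have hS : 0 ≤ ∑ m ∈ Finset.Icc 1 μ, ‖c m‖ := Finset.sum_nonneg fun m _ => norm_nonneg _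
  have hx1 : 1 < ‖x‖ := by linarith [not_le.mp hcon]
  have hxS : ∑ m ∈ Finset.Icc 1 μ, ‖c m‖ < ‖x‖ := by linarith [not_le.mp hcon]
  have hpos : 0 < ‖x‖ ^ (μ - 1) := pow_pos (by linarith) _
  have e1 : x ^ μ = -∑ m ∈ Finset.Icc 1 μ, c m * x ^ (μ - m) := eq_neg_of_add_eq_zero_left h
  have e2 : ‖x‖ ^ μ ≤ (∑ m ∈ Finset.Icc 1 μ, ‖c m‖) * ‖x‖ ^ (μ - 1) := by
    calc ‖x‖ ^ μ = ‖x ^ μ‖ := (norm_pow x μ).symm
      _ = ‖∑ m ∈ Finset.Icc 1 μ, c m * x ^ (μ - m)‖ := by rw [e1, norm_neg]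
      _ ≤ ∑ m ∈ Finset.Icc 1 μ, ‖c m * x ^ (μ - m)‖ := norm_sum_le _ _
      _ ≤ ∑ m ∈ Finset.Icc 1 μ, ‖c m‖ * ‖x‖ ^ (μ - 1) := by
        refine Finset.sum_le_sum fun m hm => ?_
        rw [norm_mul, norm_pow]
        refine mul_le_mul_of_nonneg_left ?_ (norm_nonneg _)
        have hm1 : 1 ≤ m := (Finset.mem_Icc.mp hm).1
        exact pow_le_pow_right₀ hx1.le (by omega)
      _ = (∑ m ∈ Finset.Icc 1 μ, ‖c m‖) * ‖x‖ ^ (μ - 1) := by rw [Finset.sum_mul]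
  have e3 : ‖x‖ ^ μ = ‖x‖ * ‖x‖ ^ (μ - 1) := by
    rw [← pow_succ', Nat.sub_add_cancel hμ]
  rw [e3] at e2
  have := le_of_mul_le_mul_right e2 hpos
  linarith

/-- removable singularities: V/U is locally bounded by the root bound, hence extends
holomorphically. -/
theorem exists_holo_quotient (U V : ℍ → ℂ) (hU : MDiff U) (hV : MDiff V) (hU0 : U ≠ 0)
    (μ : ℕ) (a : ℕ → ℍ → ℂ) (ha : ∀ m, Continuous (a m))
    (hrel : ∀ z, V z ^ μ + ∑ m ∈ Finset.Icc 1 μ, a m z * V z ^ (μ - m) * U z ^ m = 0) :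
    ∃ G : ℍ → ℂ, MDiff G ∧ ∀ z, G z * U z = V z := by
  classical
  have hμ : 1 ≤ μ := by
    by_contra h
    have h0 : μ = 0 := by omega
    subst h0
    have := hrel ⟨Complex.I, by simp⟩
    simp at this
  set u : ℂ → ℂ := U ∘ ofComplex with hu
  set v : ℂ → ℂ := V ∘ ofComplex with hv
  have hΩo : IsOpen {z : ℂ | 0 < z.im} := isOpen_upperHalfPlaneSet
  have hud : DifferentiableOn ℂ u {z : ℂ | 0 < z.im} := mdifferentiable_iff.mp hU
  have hvd : DifferentiableOn ℂ v {z : ℂ | 0 < z.im} := mdifferentiable_iff.mp hV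
  have huan : AnalyticOnNhd ℂ u {z : ℂ | 0 < z.im} := hud.analyticOnNhd hΩo
  have hconn : IsPreconnected {z : ℂ | 0 < z.im} := (convex_halfSpace_im_gt 0).isPreconnected
  set g : ℂ → ℂ := fun z => v z / u z with hg
  -- pointwise bound off the zeros of `u`
  have hbound : ∀ z : ℂ, ∀ hz : 0 < z.im, u z ≠ 0 →
      ‖g z‖ ≤ 1 + ∑ m ∈ Finset.Icc 1 μ, ‖a m ⟨z, hz⟩‖ := by
    intro z hz huz
    have hUz : u z = U ⟨z, hz⟩ := by simp [hu, ofComplex_apply_of_im_pos hz]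
    have hVz : v z = V ⟨z, hz⟩ := by simp [hv, ofComplex_apply_of_im_pos hz]
    have hUne : U ⟨z, hz⟩ ≠ 0 := by rwa [← hUz]
    refine norm_le_of_monic_eq μ hμ (fun m => a m ⟨z, hz⟩) (g z) ?_
    have h := hrel ⟨z, hz⟩
    have key : (V ⟨z, hz⟩ / U ⟨z, hz⟩) ^ μ +
        ∑ m ∈ Finset.Icc 1 μ, a m ⟨z, hz⟩ * (V ⟨z, hz⟩ / U ⟨z, hz⟩) ^ (μ - m) =
        (V ⟨z, hz⟩ ^ μ + ∑ m ∈ Finset.Icc 1 μ,
          a m ⟨z, hz⟩ * V ⟨z, hz⟩ ^ (μ - m) * U ⟨z, hz⟩ ^ m) / U ⟨z, hz⟩ ^ μ := by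
      rw [add_div, Finset.sum_div, div_pow]
      congr 1
      refine Finset.sum_congr rfl fun m hm => ?_
      have hm2 : m ≤ μ := (Finset.mem_Icc.mp hm).2
      have e : U ⟨z, hz⟩ ^ μ = U ⟨z, hz⟩ ^ (μ - m) * U ⟨z, hz⟩ ^ m := by
        rw [← pow_add, Nat.sub_add_cancel hm2]
      rw [e, div_pow]
      field_simp
    simp only [hg, hUz, hVz]
    rw [key, h, zero_div]
  -- local structure near each point
  have key : ∀ z0 : ℂ, 0 < z0.im → ∃ s : Set ℂ, IsOpen s ∧ z0 ∈ s ∧ s ⊆ {z : ℂ | 0 < z.im} ∧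
      (∀ z ∈ s \ {z0}, u z ≠ 0) ∧ BddAbove (norm ∘ g '' (s \ {z0})) := by
    intro z0 hz0
    rcases (huan z0 hz0).eventually_eq_zero_or_eventually_ne_zero with h0 | hne
    · exfalso
      have hzero := huan.eqOn_zero_of_preconnected_of_eventuallyEq_zero hconn hz0 h0
      apply hU0
      funext τ
      have := hzero τ.im_pos
      simpa [hu] using this
    · have hcont : ∀ m, ContinuousAt (fun z : ℂ => ‖a m (ofComplex z)‖) z0 := fun m =>
        ((ha m).continuousAt.comp (mdifferentiableAt_ofComplex hz0).continuousAt).norm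
      have hev : ∀ᶠ z in 𝓝 z0, ∀ m ∈ Finset.Icc 1 μ,
          ‖a m (ofComplex z)‖ < ‖a m (ofComplex z0)‖ + 1 := by
        rw [Filter.eventually_all_finset]
        intro m _
        exact (hcont m).eventually_lt continuousAt_const (by simp)
      have hev2 : ∀ᶠ z in 𝓝[≠] z0, u z ≠ 0 ∧ 0 < z.im ∧ ∀ m ∈ Finset.Icc 1 μ,
          ‖a m (ofComplex z)‖ < ‖a m (ofComplex z0)‖ + 1 := by
        filter_upwards [hne, nhdsWithin_le_nhds (hΩo.mem_nhds hz0), nhdsWithin_le_nhds hev]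
          with z h1 h2 h3 using ⟨h1, h2, h3⟩
      obtain ⟨t, ht, hts⟩ := mem_nhdsWithin_iff_exists_mem_nhds_inter.mp hev2
      obtain ⟨s, hst, hso, hz0s⟩ := mem_nhds_iff.mp ht
      refine ⟨s ∩ {z : ℂ | 0 < z.im}, hso.inter hΩo, ⟨hz0s, hz0⟩, inter_subset_right, ?_, ?_⟩
      · intro z hz
        exact (hts ⟨hst hz.1.1, hz.2⟩).1
      · refine ⟨1 + ∑ m ∈ Finset.Icc 1 μ, (‖a m (ofComplex z0)‖ + 1), ?_⟩
        rintro _ ⟨z, hz, rfl⟩
        obtain ⟨h1, h2, h3⟩ := hts ⟨hst hz.1.1, hz.2⟩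
        refine (hbound z h2 h1).trans ?_
        refine add_le_add le_rfl (Finset.sum_le_sum fun m hm => ?_)
        have := h3 m hm
        rw [ofComplex_apply_of_im_pos h2] at this
        exact this.le
  set Gc : ℂ → ℂ := fun z => limUnder (𝓝[≠] z) g with hGc
  -- on each local chart `Gc` agrees with the removable-singularity extension
  have hloc : ∀ z0 : ℂ, 0 < z0.im → ∃ s : Set ℂ, IsOpen s ∧ z0 ∈ s ∧
      DifferentiableOn ℂ (Function.update g z0 (limUnder (𝓝[≠] z0) g)) s ∧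
      (∀ z ∈ s, Gc z = Function.update g z0 (limUnder (𝓝[≠] z0) g) z) ∧
      (∀ z ∈ s \ {z0}, u z ≠ 0) ∧ s ⊆ {z : ℂ | 0 < z.im} := by
    intro z0 hz0
    obtain ⟨s, hso, hz0s, hsΩ, hne, hb⟩ := key z0 hz0
    have hd : DifferentiableOn ℂ g (s \ {z0}) := by
      refine DifferentiableOn.div (hvd.mono fun z hz => hsΩ hz.1) (hud.mono fun z hz => hsΩ hz.1)
        fun z hz => hne z hz
    have hD := Complex.differentiableOn_update_limUnder_of_bddAbove (hso.mem_nhds hz0s) hd hb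
    refine ⟨s, hso, hz0s, hD, ?_, hne, hsΩ⟩
    intro z hz
    by_cases hzz : z = z0
    · subst hzz
      simp [hGc]
    · rw [Function.update_of_ne hzz]
      have hopen : IsOpen (s \ {z0}) := hso.sdiff isClosed_singleton
      have hcz : ContinuousAt g z :=
        (hd.differentiableAt (hopen.mem_nhds ⟨hz, hzz⟩)).continuousAt
      exact (hcz.tendsto.mono_left nhdsWithin_le_nhds).limUnder_eq
  have hGd : DifferentiableOn ℂ Gc {z : ℂ | 0 < z.im} := by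
    intro z0 hz0
    obtain ⟨s, hso, hz0s, hD, heq, -, -⟩ := hloc z0 hz0
    have h1 : DifferentiableAt ℂ (Function.update g z0 (limUnder (𝓝[≠] z0) g)) z0 :=
      hD.differentiableAt (hso.mem_nhds hz0s)
    have h2 : Gc =ᶠ[𝓝 z0] Function.update g z0 (limUnder (𝓝[≠] z0) g) := by
      filter_upwards [hso.mem_nhds hz0s] with z hz using heq z hz
    exact (h1.congr_of_eventuallyEq h2).differentiableWithinAt
  refine ⟨fun τ => Gc τ, ?_, ?_⟩
  · rw [mdifferentiable_iff]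
    refine hGd.congr fun z hz => ?_
    simp [ofComplex_apply_of_im_pos hz]
  · intro τ
    obtain ⟨s, hso, hz0s, hD, heq, hne, hsΩ⟩ := hloc (τ : ℂ) τ.im_pos
    set h := Function.update g (τ : ℂ) (limUnder (𝓝[≠] (τ : ℂ)) g) with hh
    have hhc : ContinuousAt h (τ : ℂ) := (hD.differentiableAt (hso.mem_nhds hz0s)).continuousAt
    have huc : ContinuousAt u (τ : ℂ) :=
      (hud.differentiableAt (hΩo.mem_nhds τ.im_pos)).continuousAt
    have hvc : ContinuousAt v (τ : ℂ) :=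
      (hvd.differentiableAt (hΩo.mem_nhds τ.im_pos)).continuousAt
    have t1 : Tendsto (fun z => h z * u z) (𝓝[≠] (τ : ℂ)) (𝓝 (h τ * u τ)) :=
      (hhc.mul huc).tendsto.mono_left nhdsWithin_le_nhds
    have t2 : Tendsto (fun z => h z * u z) (𝓝[≠] (τ : ℂ)) (𝓝 (v τ)) := by
      refine (hvc.tendsto.mono_left nhdsWithin_le_nhds).congr' ?_
      have hmem : s \ {(τ : ℂ)} ∈ 𝓝[≠] (τ : ℂ) := by
        rw [mem_nhdsWithin_iff_exists_mem_nhds_inter]
        exact ⟨s, hso.mem_nhds hz0s, fun z hz => ⟨hz.1, hz.2⟩⟩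
      filter_upwards [hmem] with z hz
      have hzz : z ≠ (τ : ℂ) := hz.2
      simp only [hh, Function.update_of_ne hzz, hg]
      rw [div_mul_cancel₀ _ (hne z hz)]
    have e := tendsto_nhds_unique t1 t2
    have e1 : Gc τ = h τ := heq _ hz0s
    have e2 : u τ = U τ := by simp [hu]
    have e3 : v τ = V τ := by simp [hv]
    show Gc τ * U τ = V τ
    rw [e1, ← e2, ← e3]
    exact e

end Fermat.Agent.S23.Extend
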