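import Mathlib
import Fermat.Agent.S23.Extend

set_option autoImplicit false

namespace Fermat.Agent.S23.Integrality

open UpperHalfPlane Filter Topology Set ModularForm Matrix.SpecialLinearGroup
open scoped Manifold MatrixGroups ModularForm

/-- scaled Cauchy root bound -/
theorem norm_le_of_monic_eq_scaled (μ : ℕ) (hμ : 1 ≤ μ) (c : ℕ → ℂ) (x : ℂ)
    (h : x ^ μ + ∑ m ∈ Finset.Icc 1 μ, c m * x ^ (μ - m) = 0) (δ : ℝ) (hδ : 0 < δ)
    (hc : ∀ m ∈ Finset.Icc 1 μ, ‖c m‖ ≤ δ ^ m) : ‖x‖ ≤ (1 + μ) * δ := by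
  have hδc : (δ : ℂ) ≠ 0 := by exact_mod_cast hδ.ne'
  have key : (x / δ) ^ μ + ∑ m ∈ Finset.Icc 1 μ, (c m / (δ : ℂ) ^ m) * (x / δ) ^ (μ - m) = 0 := by
    have e : (x / δ) ^ μ + ∑ m ∈ Finset.Icc 1 μ, (c m / (δ : ℂ) ^ m) * (x / δ) ^ (μ - m) =
        (x ^ μ + ∑ m ∈ Finset.Icc 1 μ, c m * x ^ (μ - m)) / (δ : ℂ) ^ μ := by
      rw [add_div, Finset.sum_div, div_pow]
      congr 1
      refine Finset.sum_congr rfl fun m hm => ?_
      have hm2 : m ≤ μ := (Finset.mem_Icc.mp hm).2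
      have e' : (δ : ℂ) ^ μ = (δ : ℂ) ^ m * (δ : ℂ) ^ (μ - m) := by
        rw [← pow_add, Nat.add_sub_cancel' hm2]
      rw [e', div_pow]
      field_simp
    rw [e, h, zero_div]
  have hb := Extend.norm_le_of_monic_eq μ hμ (fun m => c m / (δ : ℂ) ^ m) (x / δ) key
  have hsum : ∑ m ∈ Finset.Icc 1 μ, ‖c m / (δ : ℂ) ^ m‖ ≤ μ := by
    calc ∑ m ∈ Finset.Icc 1 μ, ‖c m / (δ : ℂ) ^ m‖ ≤ ∑ m ∈ Finset.Icc 1 μ, (1 : ℝ) := by
          refine Finset.sum_le_sum fun m hm => ?_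
          rw [norm_div, norm_pow, Complex.norm_real, Real.norm_of_nonneg hδ.le]
          exact (div_le_one (pow_pos hδ m)).mpr (hc m hm)
      _ = μ := by simp
  have hx : ‖x / δ‖ = ‖x‖ / δ := by
    rw [norm_div, Complex.norm_real, Real.norm_of_nonneg hδ.le]
  rw [hx] at hb
  have := (div_le_iff₀ hδ).mp (hb.trans (add_le_add le_rfl hsum))
  linarith

/-- a continuous function whose product with a nonzero holomorphic function vanishes is zero. -/
theorem eq_zero_of_mul_eq_zero (U : ℍ → ℂ) (hU : MDiff U) (hU0 : U ≠ 0) (B : ℍ → ℂ)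
    (hB : Continuous B) (h : ∀ z, B z * U z = 0) : B = 0 := by
  funext τ
  have hΩo : IsOpen {z : ℂ | 0 < z.im} := isOpen_upperHalfPlaneSet
  have hud : DifferentiableOn ℂ (U ∘ ofComplex) {z : ℂ | 0 < z.im} := mdifferentiable_iff.mp hU
  have huan : AnalyticOnNhd ℂ (U ∘ ofComplex) {z : ℂ | 0 < z.im} := hud.analyticOnNhd hΩo
  have hconn : IsPreconnected {z : ℂ | 0 < z.im} := (convex_halfSpace_im_gt 0).isPreconnected
  rcases (huan (τ : ℂ) τ.im_pos).eventually_eq_zero_or_eventually_ne_zero with h0 | hne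
  · exfalso
    have hzero := huan.eqOn_zero_of_preconnected_of_eventuallyEq_zero hconn τ.im_pos h0
    apply hU0
    funext τ'
    have := hzero τ'.im_pos
    simpa using this
  · have hBc : ContinuousAt (B ∘ ofComplex) (τ : ℂ) :=
      ContinuousAt.comp hB.continuousAt (mdifferentiableAt_ofComplex τ.im_pos).continuousAt
    have t1 : Tendsto (B ∘ ofComplex) (𝓝[≠] (τ : ℂ)) (𝓝 ((B ∘ ofComplex) (τ : ℂ))) :=
      hBc.tendsto.mono_left nhdsWithin_le_nhds
    have t2 : Tendsto (B ∘ ofComplex) (𝓝[≠] (τ : ℂ)) (𝓝 0) := by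
      refine tendsto_const_nhds.congr' ?_
      filter_upwards [hne] with z hz
      have := h (ofComplex z)
      simp only [Function.comp_apply] at hz ⊢
      exact ((mul_eq_zero.mp this).resolve_right hz).symm
    have := tendsto_nhds_unique t1 t2
    simpa using this

/-- Function-level integrality criterion: a quotient `P / Q` of modular forms satisfying a monic
equation whose coefficients are level-one invariant and vanish at `i∞` is a cusp form. -/
theorem exists_cuspForm_of_monic {Γ : Subgroup (GL (Fin 2) ℝ)} (hΓ : Γ ≤ 𝒮ℒ) {k w : ℤ}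
    (P : ModularForm Γ (w + k)) (Q : ModularForm Γ w) (hQ : Q ≠ 0) (n : ℕ)
    (a : ℕ → ℍ → ℂ) (ha : ∀ m, Continuous (a m))
    (hainv : ∀ m ∈ Finset.Icc 1 n, ∀ γ : SL(2, ℤ), a m ∣[k * m] γ = a m)
    (ha0 : ∀ m ∈ Finset.Icc 1 n, IsZeroAtImInfty (a m))
    (hrel : ∀ τ : ℍ, P τ ^ n + ∑ m ∈ Finset.Icc 1 n, a m τ * P τ ^ (n - m) * Q τ ^ m = 0) :
    ∃ F : CuspForm Γ k, ∀ τ : ℍ, F τ * Q τ = P τ := by
  have hn : 1 ≤ n := by
    by_contra hcon
    have h0 : n = 0 := by omega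
    subst h0
    have := hrel ⟨Complex.I, by simp⟩
    simp at this
  have hQ0 : (⇑Q : ℍ → ℂ) ≠ 0 := by
    intro h0
    apply hQ
    ext τ
    simpa using congrFun h0 τ
  have hQmd : MDiff (⇑Q : ℍ → ℂ) := ModularFormClass.holo Q
  have hPmd : MDiff (⇑P : ℍ → ℂ) := ModularFormClass.holo P
  obtain ⟨G, hG, hGQ⟩ := Extend.exists_holo_quotient (⇑Q) (⇑P) hQmd hPmd hQ0 n a ha hrel
  have hGc : Continuous G := hG.continuous
  -- the monic equation for `G`
  have hmonic : ∀ τ, G τ ^ n + ∑ m ∈ Finset.Icc 1 n, a m τ * G τ ^ (n - m) = 0 := by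
    have hB : Continuous (fun τ => G τ ^ n + ∑ m ∈ Finset.Icc 1 n, a m τ * G τ ^ (n - m)) := by
      refine (hGc.pow n).add (continuous_finsetSum _ fun m _ => (ha m).mul (hGc.pow _))
    have hUn : MDiff (fun z : ℍ => Q z ^ n) := by
      rw [UpperHalfPlane.mdifferentiable_iff]
      exact (UpperHalfPlane.mdifferentiable_iff.mp hQmd).pow n
    have hUn0 : (fun z : ℍ => Q z ^ n) ≠ 0 := by
      intro h0
      apply hQ0
      funext τ
      have := congrFun h0 τ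
      simpa using eq_zero_of_pow_eq_zero this
    have hz := eq_zero_of_mul_eq_zero (fun z : ℍ => Q z ^ n) hUn hUn0 _ hB (by
      intro τ
      have e : (G τ ^ n + ∑ m ∈ Finset.Icc 1 n, a m τ * G τ ^ (n - m)) * Q τ ^ n =
          P τ ^ n + ∑ m ∈ Finset.Icc 1 n, a m τ * P τ ^ (n - m) * Q τ ^ m := by
        rw [add_mul, Finset.sum_mul, ← hGQ τ, mul_pow]
        congr 1
        refine Finset.sum_congr rfl fun m hm => ?_
        have hm2 : m ≤ n := (Finset.mem_Icc.mp hm).2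
        have e' : Q τ ^ n = Q τ ^ (n - m) * Q τ ^ m := by
          rw [← pow_add, Nat.sub_add_cancel hm2]
        rw [e', mul_pow]
        ring
      rw [e, hrel τ])
    intro τ
    exact congrFun hz τ
  -- slash invariance
  have hinv : ∀ γ ∈ Γ, G ∣[k] γ = G := by
    intro γ hγ
    obtain ⟨γ', rfl⟩ := hΓ hγ
    have hPγ : (⇑P : ℍ → ℂ) ∣[w + k] (mapGL ℝ γ') = ⇑P :=
      SlashInvariantFormClass.slash_action_eq P _ hγ
    have hQγ : (⇑Q : ℍ → ℂ) ∣[w] (mapGL ℝ γ') = ⇑Q :=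
      SlashInvariantFormClass.slash_action_eq Q _ hγ
    have hGQf : G * (⇑Q : ℍ → ℂ) = ⇑P := funext hGQ
    have hmul := mul_slash_SL2 k w γ' G (⇑Q)
    rw [hGQf, add_comm k w] at hmul
    have hB0 := eq_zero_of_mul_eq_zero (⇑Q) hQmd hQ0 (G ∣[k] (mapGL ℝ γ') - G)
      (((hG.slash k (mapGL ℝ γ')).continuous).sub hGc) (by
        intro z
        have h1 : ((⇑P : ℍ → ℂ) ∣[w + k] (mapGL ℝ γ')) z =
            (G ∣[k] (mapGL ℝ γ')) z * ((⇑Q : ℍ → ℂ) ∣[w] (mapGL ℝ γ')) z := congrFun hmul z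
        have h2 := congrFun hPγ z
        have h3 := congrFun hQγ z
        rw [h2, h3] at h1
        simp only [Pi.sub_apply, sub_mul]
        rw [hGQ z, ← h1]
        exact sub_self _)
    exact sub_eq_zero.mp hB0
  -- vanishing at all cusps
  have hzero : ∀ γ : SL(2, ℤ), IsZeroAtImInfty (G ∣[k] γ) := by
    intro γ
    have heq : ∀ τ : ℍ,
        (G ∣[k] γ) τ ^ n + ∑ m ∈ Finset.Icc 1 n, a m τ * (G ∣[k] γ) τ ^ (n - m) = 0 := by
      intro τ
      have h1 := hmonic (γ • τ)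
      have hd : denom γ τ ≠ 0 := denom_ne_zero γ τ
      have hx : (G ∣[k] γ) τ = G (γ • τ) * denom γ τ ^ (-k) := SL_slash_apply G γ τ
      have ham : ∀ m ∈ Finset.Icc 1 n, a m τ = a m (γ • τ) * denom γ τ ^ (-(k * m)) := by
        intro m hm
        have := congrFun (hainv m hm γ) τ
        rw [SL_slash_apply] at this
        exact this.symm
      have e : (G ∣[k] γ) τ ^ n + ∑ m ∈ Finset.Icc 1 n, a m τ * (G ∣[k] γ) τ ^ (n - m) =
          (denom γ τ ^ (-k)) ^ n *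
            (G (γ • τ) ^ n + ∑ m ∈ Finset.Icc 1 n, a m (γ • τ) * G (γ • τ) ^ (n - m)) := by
        rw [hx, mul_add, Finset.mul_sum, mul_pow, mul_comm]
        congr 1
        refine Finset.sum_congr rfl fun m hm => ?_
        have hm2 : m ≤ n := (Finset.mem_Icc.mp hm).2
        have e' : (denom γ τ ^ (-k)) ^ n =
            denom γ τ ^ (-(k * m)) * (denom γ τ ^ (-k)) ^ (n - m) := by
          rw [← zpow_natCast (denom γ τ ^ (-k)) n, ← zpow_natCast (denom γ τ ^ (-k)) (n - m),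
            ← zpow_mul, ← zpow_mul, ← zpow_add₀ hd]
          congr 1
          push_cast [Nat.cast_sub hm2]
          ring
        rw [ham m hm, mul_pow, e']
        ring
      rw [e, h1, mul_zero]
    rw [IsZeroAtImInfty, ZeroAtFilter, Metric.tendsto_nhds]
    intro ε hε
    have hδ : 0 < ε / (2 * (1 + (n : ℝ))) := by positivity
    have hev : ∀ᶠ τ in atImInfty, ∀ m ∈ Finset.Icc 1 n,
        ‖a m τ‖ ≤ (ε / (2 * (1 + (n : ℝ)))) ^ m := by
      rw [Filter.eventually_all_finset]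
      intro m hm
      have h2 : Tendsto (fun τ => ‖a m τ‖) atImInfty (𝓝 0) :=
        tendsto_zero_iff_norm_tendsto_zero.mp (ha0 m hm)
      exact h2.eventually_le_const (pow_pos hδ m)
    filter_upwards [hev] with τ hτ
    have hb := norm_le_of_monic_eq_scaled n hn (fun m => a m τ) ((G ∣[k] γ) τ) (heq τ) _ hδ hτ
    rw [dist_zero_right]
    calc ‖(G ∣[k] γ) τ‖ ≤ (1 + (n : ℝ)) * (ε / (2 * (1 + (n : ℝ)))) := hb
      _ = ε / 2 := by field_simp
      _ < ε := half_lt_self hε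
  refine ⟨{ toFun := G, slash_action_eq' := hinv, holo' := hG, zero_at_cusps' := ?_ }, hGQ⟩
  intro c hc
  exact (OnePoint.isZeroAt_iff_forall_SL2Z (hc.mono hΓ)).mpr fun γ _ => hzero γ

/-- `integrality_criterion` in the shape of the S23 plan, for any subgroup of `𝒮ℒ`. -/
theorem integrality_criterion_of_le {Γ : Subgroup (GL (Fin 2) ℝ)} (hΓ : Γ ≤ 𝒮ℒ) {k w : ℤ}
    (P : ModularForm Γ (w + k)) (Q : ModularForm Γ w) (hQ : Q ≠ 0) (n : ℕ)
    (c : (s : Fin n) → CuspForm 𝒮ℒ (k * ((s : ℕ) + 1)))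
    (h : ∀ τ : ℍ, P τ ^ n +
      ∑ s : Fin n, c s τ * P τ ^ (n - 1 - (s : ℕ)) * Q τ ^ ((s : ℕ) + 1) = 0) :
    ∃ F : CuspForm Γ k, ∀ τ : ℍ, F τ * Q τ = P τ := by
  classical
  let a : ℕ → ℍ → ℂ := fun m τ =>
    if hm : 1 ≤ m ∧ m ≤ n then c ⟨m - 1, by omega⟩ τ else 0
  have ha_pos : ∀ m (hm : 1 ≤ m ∧ m ≤ n), a m = ⇑(c ⟨m - 1, by omega⟩) := by
    intro m hm
    funext τ
    simp only [a, dif_pos hm]
  refine exists_cuspForm_of_monic hΓ P Q hQ n a ?_ ?_ ?_ ?_
  · intro m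
    by_cases hm : 1 ≤ m ∧ m ≤ n
    · rw [ha_pos m hm]
      exact (CuspFormClass.holo (c ⟨m - 1, by omega⟩)).continuous
    · have : a m = fun _ => 0 := by
        funext τ
        simp only [a, dif_neg hm]
      rw [this]
      exact continuous_const
  · intro m hm γ
    have hm' : 1 ≤ m ∧ m ≤ n := Finset.mem_Icc.mp hm
    rw [ha_pos m hm']
    have hcast : ((m - 1 : ℕ) : ℤ) + 1 = (m : ℤ) := by
      have := hm'.1
      omega
    have := SlashInvariantFormClass.slash_action_eq (c ⟨m - 1, by omega⟩) (mapGL ℝ γ) ⟨γ, rfl⟩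
    simp only [hcast] at this
    exact this
  · intro m hm
    have hm' : 1 ≤ m ∧ m ≤ n := Finset.mem_Icc.mp hm
    rw [ha_pos m hm']
    exact CuspFormClass.zero_at_infty (c ⟨m - 1, by omega⟩)
  · intro τ
    rw [← h τ]
    congr 1
    have e1 : ∑ s : Fin n, c s τ * P τ ^ (n - 1 - (s : ℕ)) * Q τ ^ ((s : ℕ) + 1) =
        ∑ i ∈ Finset.range n, a (i + 1) τ * P τ ^ (n - (i + 1)) * Q τ ^ (i + 1) := by
      rw [← Fin.sum_univ_eq_sum_range
        (fun i => a (i + 1) τ * P τ ^ (n - (i + 1)) * Q τ ^ (i + 1)) n]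
      refine Finset.sum_congr rfl fun s _ => ?_
      have hs : 1 ≤ (s : ℕ) + 1 ∧ (s : ℕ) + 1 ≤ n := ⟨by omega, s.2⟩
      have : a ((s : ℕ) + 1) τ = c s τ := by
        simp only [a, dif_pos hs]
        rfl
      rw [this, Nat.sub_sub, Nat.add_comm 1]
    rw [e1]
    refine Finset.sum_nbij' (fun m => m - 1) (fun i => i + 1) ?_ ?_ ?_ ?_ ?_
    · intro m hm
      have := Finset.mem_Icc.mp hm
      exact Finset.mem_range.mpr (by omega)
    · intro i hi
      have := Finset.mem_range.mp hi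
      exact Finset.mem_Icc.mpr ⟨by omega, by omega⟩
    · intro m hm
      have := Finset.mem_Icc.mp hm
      omega
    · intro i _
      omega
    · intro m hm
      have := Finset.mem_Icc.mp hm
      have e : m - 1 + 1 = m := by omega
      rw [e]

/-- The integrality criterion for `Γ₀(N)`, exactly in the shape of the S23 plan. -/
theorem integrality_criterion (N : ℕ) [NeZero N] {k w : ℤ}
    (P : ModularForm (Subgroup.map (mapGL ℝ) (CongruenceSubgroup.Gamma0 N)) (w + k))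
    (Q : ModularForm (Subgroup.map (mapGL ℝ) (CongruenceSubgroup.Gamma0 N)) w) (hQ : Q ≠ 0)
    (n : ℕ) (c : (s : Fin n) → CuspForm 𝒮ℒ (k * ((s : ℕ) + 1)))
    (h : ∀ τ : ℍ, P τ ^ n +
      ∑ s : Fin n, c s τ * P τ ^ (n - 1 - (s : ℕ)) * Q τ ^ ((s : ℕ) + 1) = 0) :
    ∃ F : CuspForm (Subgroup.map (mapGL ℝ) (CongruenceSubgroup.Gamma0 N)) k,
      ∀ τ : ℍ, F τ * Q τ = P τ :=
  integrality_criterion_of_le (Subgroup.map_le_range _ _) P Q hQ n c h

end Fermat.Agent.S23.Integrality
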