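import Mathlib
import Fermat.Agent.S23.Defs
import Fermat.Agent.S23.LevelOne

set_option autoImplicit false

open UpperHalfPlane ModularForm ModularFormClass EisensteinSeries
open scoped MatrixGroups

namespace Fermat.Agent.S23.LevelOneSpan

open Fermat.Agent.S23.Defs Fermat.Agent.S23.LevelOne

/-- A complex power series has integer coefficients iff it is the image of an integral one. -/
theorem isIntPS_iff (p : PowerSeries ℂ) :
    IsIntPS p ↔ ∃ P : PowerSeries ℤ, PowerSeries.map (Int.castRingHom ℂ) P = p := by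
  constructor
  · intro h
    choose m hm using h
    exact ⟨PowerSeries.mk m, by ext n; simp [hm n]⟩
  · rintro ⟨P, rfl⟩ n
    exact ⟨PowerSeries.coeff n P, by simp⟩

theorem isIntPS_zero : IsIntPS 0 := fun n => ⟨0, by simp⟩

theorem isIntPS_one : IsIntPS 1 := (isIntPS_iff _).mpr ⟨1, by simp⟩

theorem isIntPS_mul {p q : PowerSeries ℂ} (hp : IsIntPS p) (hq : IsIntPS q) : IsIntPS (p * q) := by
  obtain ⟨P, rfl⟩ := (isIntPS_iff _).mp hp
  obtain ⟨Q, rfl⟩ := (isIntPS_iff _).mp hq
  exact (isIntPS_iff _).mpr ⟨P * Q, by rw [map_mul]⟩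

theorem isIntPS_pow {p : PowerSeries ℂ} (hp : IsIntPS p) (n : ℕ) : IsIntPS (p ^ n) := by
  obtain ⟨P, rfl⟩ := (isIntPS_iff _).mp hp
  exact (isIntPS_iff _).mpr ⟨P ^ n, by rw [map_pow]⟩

theorem isIntPS_qExpansion_E₄ : IsIntPS (qExpansion 1 E₄) :=
  (isIntPS_iff _).mpr ⟨e4Z, map_e4Z⟩

theorem isIntPS_qExpansion_E₆ : IsIntPS (qExpansion 1 E₆) :=
  (isIntPS_iff _).mpr ⟨e6Z, map_e6Z⟩

theorem isIntPS_qExpansion_discriminant : IsIntPS (qExpansion 1 ModularForm.discriminant) :=
  (isIntPS_iff _).mpr ⟨deltaZ, map_deltaZ⟩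

/-- The monomial forms `E₄ ^ a * E₆ ^ b` (cast to weight `k`, or zero) have integral
`q`-expansion. -/
theorem isIntPS_qExpansion_monoCast (k : ℕ) (m : Fin 2 →₀ ℕ) :
    IsIntPS (qExpansion 1 (monoCast k m)) := by
  by_cases h : 4 * m 0 + 6 * m 1 = k
  · rw [qExpansion_monoCast h]
    exact isIntPS_mul (isIntPS_pow isIntPS_qExpansion_E₄ _) (isIntPS_pow isIntPS_qExpansion_E₆ _)
  · rw [monoCast, dif_neg h]
    have : qExpansion 1 ((0 : ModularForm 𝒮ℒ (k : ℤ)) : ℍ → ℂ) = 0 := by
      rw [FunLike.coe_zero]; exact qExpansion_zero 1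
    rw [this]
    exact isIntPS_zero

/-- Every level-one modular form is a `ℂ`-combination of forms with integral `q`-expansion. -/
theorem ratSpan_levelOne_eq_top (k : ℤ) : ratSpan 𝒮ℒ k = ⊤ := by
  rw [eq_top_iff]
  intro f _
  rcases lt_or_ge k 0 with hk | hk
  · have hf : f = 0 := rank_zero_iff_forall_zero.mp (levelOne_neg_weight_rank_zero hk) f
    rw [hf]
    exact Submodule.zero_mem _
  · obtain ⟨n, rfl⟩ := Int.eq_ofNat_of_zero_le hk
    obtain ⟨P, -, rfl⟩ := exists_isobaric n f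
    rw [ofPoly]
    refine Submodule.sum_mem _ fun m _ => Submodule.smul_mem _ _ (Submodule.subset_span ?_)
    exact isIntPS_qExpansion_monoCast n m

/-- Every level-one modular form lies in the span of the forms with integral `q`-expansion. -/
theorem modular_mem_span (k : ℤ) (f : ModularForm 𝒮ℒ k) :
    f ∈ Submodule.span ℂ {h : ModularForm 𝒮ℒ k | IsIntPS (qExpansion 1 h)} := by
  have h := ratSpan_levelOne_eq_top k
  rw [ratSpan] at h
  rw [h]
  exact Submodule.mem_top

/-- `q`-expansion of `Δ * f`. -/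
theorem qExpansion_ofMulDiscriminant {K : ℤ} (f : ModularForm 𝒮ℒ (K - 12)) :
    qExpansion 1 (CuspForm.ofMulDiscriminant f : CuspForm 𝒮ℒ K) =
      qExpansion 1 ModularForm.discriminant * qExpansion 1 f := by
  have h : ((CuspForm.ofMulDiscriminant f : CuspForm 𝒮ℒ K) : ℍ → ℂ) =
      (⇑CuspForm.discriminant * ⇑f : ℍ → ℂ) := by
    funext z
    rfl
  rw [h, ← CuspForm.coe_discriminant]
  exact ModularForm.qExpansion_mul_coe one_pos one_mem_strictPeriods_SL _ _

/-- Every level-one cusp form is a `ℂ`-combination of level-one cusp forms with integral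
`q`-expansion (namely `Δ * E₄ ^ a * E₆ ^ b`). -/
theorem cusp_mem_span (K : ℤ) (g : CuspForm 𝒮ℒ K) :
    g ∈ Submodule.span ℂ {h : CuspForm 𝒮ℒ K | IsIntPS (qExpansion 1 h)} := by
  have hg : g = (CuspForm.discriminantEquiv (k := K)).symm (CuspForm.discriminantEquiv g) :=
    ((CuspForm.discriminantEquiv (k := K)).symm_apply_apply g).symm
  rw [hg]
  have hH := modular_mem_span (K - 12) (CuspForm.discriminantEquiv g)
  have hmap := Submodule.mem_map_of_mem
    (f := ((CuspForm.discriminantEquiv (k := K)).symm : ModularForm 𝒮ℒ (K - 12) →ₗ[ℂ] CuspForm 𝒮ℒ K))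
    hH
  rw [Submodule.map_span] at hmap
  refine Submodule.span_mono ?_ hmap
  rintro _ ⟨h, hh, rfl⟩
  change IsIntPS (qExpansion 1 (CuspForm.ofMulDiscriminant h : CuspForm 𝒮ℒ K))
  rw [qExpansion_ofMulDiscriminant]
  exact isIntPS_mul isIntPS_qExpansion_discriminant hh

end Fermat.Agent.S23.LevelOneSpan
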