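import Mathlib
import Fermat.Agent.S23.Defs

set_option autoImplicit false

namespace Fermat.Agent.S23.Esymm

open UpperHalfPlane ModularForm
open scoped MatrixGroups ModularForm

variable {𝒢 : Subgroup (GL (Fin 2) ℝ)} {F : Type*} [FunLike F ℍ ℂ] {k : ℤ}

/-- The `m`-th elementary symmetric function of the `𝒮ℒ`-translates of `f`. -/
noncomputable def esymmFun [SlashInvariantFormClass F 𝒢 k] [Fintype (𝒮ℒ ⧸ 𝒢.subgroupOf 𝒮ℒ)]
    (f : F) (m : ℕ) : ℍ → ℂ := fun z =>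
  ∑ s ∈ Finset.powersetCard m (Finset.univ : Finset (𝒮ℒ ⧸ 𝒢.subgroupOf 𝒮ℒ)),
    ∏ q ∈ s, SlashInvariantForm.quotientFunc f q z

lemma esymmFun_eq [SlashInvariantFormClass F 𝒢 k] [Fintype (𝒮ℒ ⧸ 𝒢.subgroupOf 𝒮ℒ)]
    (f : F) (m : ℕ) : esymmFun f m =
      ∑ s ∈ Finset.powersetCard m (Finset.univ : Finset (𝒮ℒ ⧸ 𝒢.subgroupOf 𝒮ℒ)),
        ∏ q ∈ s, SlashInvariantForm.quotientFunc f q := by
  ext z
  simp [esymmFun, Finset.sum_apply, Finset.prod_apply]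

lemma sum_powersetCard_map {α M : Type*} [Fintype α] [AddCommMonoid M] (σ : Equiv.Perm α)
    (m : ℕ) (G : Finset α → M) :
    ∑ s ∈ Finset.powersetCard m (Finset.univ : Finset α), G (s.map σ.toEmbedding) =
      ∑ s ∈ Finset.powersetCard m (Finset.univ : Finset α), G s := by
  refine Finset.sum_equiv σ.finsetCongr ?_ ?_
  · intro s
    simp [Finset.mem_powersetCard]
  · intro s _
    rfl

lemma esymmFun_slash [SlashInvariantFormClass F 𝒢 k] [Fintype (𝒮ℒ ⧸ 𝒢.subgroupOf 𝒮ℒ)]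
    (f : F) (m : ℕ) {h : GL (Fin 2) ℝ} (hh : h ∈ 𝒮ℒ) :
    esymmFun f m ∣[k * m] h = esymmFun f m := by
  rw [esymmFun_eq, SlashAction.sum_slash]
  have key : ∀ s ∈ Finset.powersetCard m (Finset.univ : Finset (𝒮ℒ ⧸ 𝒢.subgroupOf 𝒮ℒ)),
      (∏ q ∈ s, SlashInvariantForm.quotientFunc f q) ∣[k * m] h =
        ∏ q ∈ s.map (MulAction.toPerm ((⟨h, hh⟩ : 𝒮ℒ)⁻¹)).toEmbedding,
          SlashInvariantForm.quotientFunc f q := by
    intro s hs
    rw [Finset.mem_powersetCard] at hs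
    rw [← hs.2, ModularForm.prod_slash, Finset.prod_map]
    simp [SlashInvariantForm.quotientFunc_smul f hh, Subgroup.HasDetPlusMinusOne.abs_det hh,
      -Matrix.GeneralLinearGroup.val_det_apply]
  rw [Finset.sum_congr rfl key]
  exact sum_powersetCard_map (MulAction.toPerm ((⟨h, hh⟩ : 𝒮ℒ)⁻¹)) m
    (fun s => ∏ q ∈ s, SlashInvariantForm.quotientFunc f q)

lemma mdifferentiable_esymmFun [ModularFormClass F 𝒢 k] [Fintype (𝒮ℒ ⧸ 𝒢.subgroupOf 𝒮ℒ)]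
    (f : F) (m : ℕ) :
    MDifferentiable (modelWithCornersSelf ℂ ℂ) (modelWithCornersSelf ℂ ℂ) (esymmFun f m) := by
  rw [esymmFun_eq]
  refine .sum fun s _ => .prod (Quotient.forall.mpr fun ⟨r, hr⟩ _ ↦ (translate f r⁻¹).holo')

theorem exists_modularForm_esymm [𝒢.IsFiniteRelIndex 𝒮ℒ] [ModularFormClass F 𝒢 k]
    [Fintype (𝒮ℒ ⧸ 𝒢.subgroupOf 𝒮ℒ)] (f : F) (m : ℕ) :
    ∃ E : ModularForm 𝒮ℒ (k * m), ⇑E = esymmFun f m := by
  refine ⟨{ toFun := esymmFun f m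
            slash_action_eq' := fun h hh => esymmFun_slash f m hh
            holo' := mdifferentiable_esymmFun f m
            bdd_at_cusps' := ?_ }, rfl⟩
  intro c h γ
  rintro rfl
  show IsBoundedAtImInfty (esymmFun f m ∣[k * (m : ℤ)] γ)
  rw [esymmFun_eq, SlashAction.sum_slash, IsBoundedAtImInfty, Filter.BoundedAtFilter,
    Finset.sum_fn]
  refine Asymptotics.IsBigO.fun_sum fun s hs => ?_
  rw [Finset.mem_powersetCard] at hs
  rw [← hs.2, ModularForm.prod_slash]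
  apply Asymptotics.IsBigO.const_smul_left
  rw [show (1 : ℍ → ℝ) = (fun x ↦ ∏ (i ∈ s), 1) by ext; simp, Finset.prod_fn]
  refine .finsetProd (Quotient.forall.mpr fun ⟨r, hr⟩ _ ↦ (translate f _).bdd_at_cusps' ?_ γ rfl)
  simpa using h.of_isFiniteRelIndex_conj hr

open scoped Pointwise in
theorem isZeroAtImInfty_esymm [𝒢.IsFiniteRelIndex 𝒮ℒ] [CuspFormClass F 𝒢 k]
    [Fintype (𝒮ℒ ⧸ 𝒢.subgroupOf 𝒮ℒ)] (f : F) (m : ℕ) (hm : 1 ≤ m) :
    IsZeroAtImInfty (esymmFun f m) := by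
  have hcusp : IsCusp OnePoint.infty 𝒮ℒ := by
    rw [isCusp_SL2Z_iff']
    exact ⟨1, by simp⟩
  have hq : ∀ q : 𝒮ℒ ⧸ 𝒢.subgroupOf 𝒮ℒ,
      Filter.Tendsto (SlashInvariantForm.quotientFunc f q) atImInfty (nhds 0) := by
    refine Quotient.forall.mpr fun ⟨r, hr⟩ => ?_
    have h1 : IsCusp OnePoint.infty (ConjAct.toConjAct r • 𝒢) := hcusp.of_isFiniteRelIndex_conj hr
    have h2 := (CuspForm.translate f r⁻¹).zero_at_cusps' (by simpa using h1) 1 (by simp)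
    have h3 : (⇑(CuspForm.translate f r⁻¹) : ℍ → ℂ) ∣[k] (1 : GL (Fin 2) ℝ) = ⇑f ∣[k] r⁻¹ := by
      rw [SlashAction.slash_one]
      rfl
    have h4 : IsZeroAtImInfty (⇑f ∣[k] r⁻¹) := h3 ▸ h2
    exact h4
  unfold IsZeroAtImInfty Filter.ZeroAtFilter esymmFun
  rw [show (0 : ℂ) = ∑ s ∈ Finset.powersetCard m
    (Finset.univ : Finset (𝒮ℒ ⧸ 𝒢.subgroupOf 𝒮ℒ)), (0 : ℂ) by simp]
  refine tendsto_finsetSum _ fun s hs => ?_
  rw [Finset.mem_powersetCard] at hs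
  have hne : s.Nonempty := by
    rw [← Finset.card_pos]
    omega
  have h0 : (0 : ℂ) = ∏ q ∈ s, (0 : ℂ) := by
    rw [Finset.prod_const, zero_pow (by omega)]
  rw [h0]
  exact tendsto_finsetProd _ fun q _ => hq q

end Fermat.Agent.S23.Esymm
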