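import Mathlib

set_option autoImplicit false

namespace Fermat.Agent.S23.Lagrange

open Polynomial

set_option linter.unusedSectionVars false

variable {ι : Type*} [Fintype ι] [DecidableEq ι]

/-- elementary symmetric function of a finite family -/
def esymmVal (t : ι → ℂ) (i : ℕ) : ℂ :=
  ∑ s ∈ Finset.powersetCard i (Finset.univ : Finset ι), ∏ q ∈ s, t q

/-- The polynomial `∏ q, (X - t q)`. -/
noncomputable def rootPoly (t : ι → ℂ) : ℂ[X] := ∏ q : ι, (X - C (t q))

theorem rootPoly_eq_sum (t : ι → ℂ) :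
    rootPoly t = ∑ i ∈ Finset.range (Fintype.card ι + 1),
      (-1 : ℂ[X]) ^ i * (C (esymmVal t i) * X ^ (Fintype.card ι - i)) := by
  have h := Multiset.prod_X_sub_X_eq_sum_esymm ((Finset.univ : Finset ι).val.map t)
  rw [Multiset.map_map] at h
  have hcard : Multiset.card ((Finset.univ : Finset ι).val.map t) = Fintype.card ι := by
    simp [Finset.card_univ]
  rw [hcard] at h
  have hl : rootPoly t = (Multiset.map ((fun a => X - C a) ∘ t) (Finset.univ : Finset ι).val).prod :=
    rfl
  rw [hl, h]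
  refine Finset.sum_congr rfl fun i _ => ?_
  rw [Finset.esymm_map_val]
  rfl

theorem eval_rootPoly (t : ι → ℂ) (x : ℂ) : (rootPoly t).eval x = ∏ q : ι, (x - t q) := by
  simp [rootPoly, eval_prod]

theorem eval_rootPoly_self (t : ι → ℂ) (o : ι) : (rootPoly t).eval (t o) = 0 := by
  rw [eval_rootPoly]
  exact Finset.prod_eq_zero (Finset.mem_univ o) (sub_self _)

theorem eval_rootPoly_eq_sum (t : ι → ℂ) (x : ℂ) :
    (rootPoly t).eval x = ∑ i ∈ Finset.range (Fintype.card ι + 1),
      (-1 : ℂ) ^ i * esymmVal t i * x ^ (Fintype.card ι - i) := by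
  rw [rootPoly_eq_sum, eval_finsetSum]
  refine Finset.sum_congr rfl fun i _ => ?_
  simp only [eval_mul, eval_pow, eval_neg, eval_one, eval_C, eval_X]
  ring

theorem monic_identity (o : ι) (f : ι → ℂ) :
    ∑ i ∈ Finset.range (Fintype.card ι + 1),
      (-1 : ℂ) ^ i * esymmVal f i * f o ^ (Fintype.card ι - i) = 0 := by
  rw [← eval_rootPoly_eq_sum, eval_rootPoly_self]

theorem derivative_rootPoly_eval (t : ι → ℂ) (o : ι) :
    (derivative (rootPoly t)).eval (t o) = ∏ q ∈ Finset.univ.erase o, (t o - t q) := by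
  rw [rootPoly, derivative_prod_finset, eval_finsetSum]
  rw [Finset.sum_eq_single o]
  · simp [eval_prod]
  · intro b _ hb
    have : o ∈ Finset.univ.erase b := Finset.mem_erase.mpr ⟨fun h => hb h.symm, Finset.mem_univ o⟩
    rw [eval_mul, eval_prod, Finset.prod_eq_zero this (by simp), zero_mul]
  · intro h
    exact absurd (Finset.mem_univ o) h

theorem derivative_rootPoly_eval_eq_sum (t : ι → ℂ) (x : ℂ) :
    (derivative (rootPoly t)).eval x = ∑ i ∈ Finset.range (Fintype.card ι),
      ((Fintype.card ι - i : ℕ) : ℂ) * (-1) ^ i * esymmVal t i * x ^ (Fintype.card ι - 1 - i) := by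
  rw [rootPoly_eq_sum, derivative_sum, eval_finsetSum, Finset.sum_range_succ]
  have hlast : eval x (derivative ((-1 : ℂ[X]) ^ Fintype.card ι *
      (C (esymmVal t (Fintype.card ι)) * X ^ (Fintype.card ι - Fintype.card ι)))) = 0 := by
    have h1 : (-1 : ℂ[X]) ^ Fintype.card ι = C ((-1 : ℂ) ^ Fintype.card ι) := by simp
    rw [Nat.sub_self, pow_zero, mul_one, h1, ← C_mul, derivative_C, eval_zero]
  rw [hlast, add_zero]
  refine Finset.sum_congr rfl fun i hi => ?_
  have h1 : (-1 : ℂ[X]) ^ i = C ((-1 : ℂ) ^ i) := by simp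
  rw [h1, ← mul_assoc, ← C_mul, derivative_C_mul, derivative_X_pow, eval_mul, eval_C, eval_mul,
    eval_C, eval_pow, eval_X]
  have h2 : Fintype.card ι - i - 1 = Fintype.card ι - 1 - i := by omega
  rw [h2]
  ring

theorem lagrange_denominator (o : ι) (t : ι → ℂ) :
    ∑ i ∈ Finset.range (Fintype.card ι),
      ((Fintype.card ι - i : ℕ) : ℂ) * (-1) ^ i * esymmVal t i * t o ^ (Fintype.card ι - 1 - i)
      = ∏ q ∈ Finset.univ.erase o, (t o - t q) := by
  rw [← derivative_rootPoly_eval_eq_sum, derivative_rootPoly_eval]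

/-- The divided difference polynomial `(Φ(X) - Φ(a)) / (X - a)` for `Φ = rootPoly t`. -/
noncomputable def divDiff (t : ι → ℂ) (a : ℂ) : ℂ[X] :=
  ∑ i ∈ Finset.range (Fintype.card ι), ∑ j ∈ Finset.range (Fintype.card ι - i),
    C ((-1 : ℂ) ^ i * esymmVal t i * a ^ j) * X ^ (Fintype.card ι - 1 - i - j)

theorem divDiff_mul (t : ι → ℂ) (a : ℂ) :
    divDiff t a * (X - C a) = rootPoly t - C ((rootPoly t).eval a) := by
  have h1 : rootPoly t - C ((rootPoly t).eval a) =
      ∑ i ∈ Finset.range (Fintype.card ι + 1),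
        C ((-1 : ℂ) ^ i * esymmVal t i) * (X ^ (Fintype.card ι - i) - C a ^ (Fintype.card ι - i)) := by
    rw [eval_rootPoly_eq_sum, rootPoly_eq_sum, map_sum, ← Finset.sum_sub_distrib]
    refine Finset.sum_congr rfl fun i _ => ?_
    simp only [map_mul, map_pow, map_neg, map_one]
    ring
  rw [h1, Finset.sum_range_succ, Nat.sub_self, pow_zero, pow_zero, sub_self, mul_zero, add_zero,
    divDiff, Finset.sum_mul]
  refine Finset.sum_congr rfl fun i hi => ?_
  have hi' : i < Fintype.card ι := Finset.mem_range.mp hi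
  rw [← geom_sum₂_mul (X : ℂ[X]) (C a) (Fintype.card ι - i), ← mul_assoc, Finset.mul_sum]
  congr 1
  conv_rhs => rw [← Finset.sum_range_reflect]
  refine Finset.sum_congr rfl fun j hj => ?_
  have hj' : j < Fintype.card ι - i := Finset.mem_range.mp hj
  have e1 : Fintype.card ι - i - 1 - (Fintype.card ι - i - 1 - j) = j := by omega
  have e2 : Fintype.card ι - 1 - i - j = Fintype.card ι - i - 1 - j := by omega
  rw [e1, e2]
  simp only [map_mul, map_pow, map_neg, map_one]
  ring

theorem divDiff_root (t : ι → ℂ) (q : ι) :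
    divDiff t (t q) = ∏ q' ∈ Finset.univ.erase q, (X - C (t q')) := by
  have h := divDiff_mul t (t q)
  rw [eval_rootPoly_self, map_zero, sub_zero] at h
  have h2 : rootPoly t = (∏ q' ∈ Finset.univ.erase q, (X - C (t q'))) * (X - C (t q)) := by
    rw [rootPoly, ← Finset.prod_erase_mul _ _ (Finset.mem_univ q)]
  rw [h2] at h
  exact mul_right_cancel₀ (X_sub_C_ne_zero (t q)) h

theorem eval_divDiff (t : ι → ℂ) (a x : ℂ) :
    (divDiff t a).eval x = ∑ i ∈ Finset.range (Fintype.card ι),
      ∑ j ∈ Finset.range (Fintype.card ι - i),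
        (-1 : ℂ) ^ i * esymmVal t i * a ^ j * x ^ (Fintype.card ι - 1 - i - j) := by
  simp [divDiff, eval_finsetSum]

theorem lagrange_identity (o : ι) (t f : ι → ℂ) :
    (∑ i ∈ Finset.range (Fintype.card ι),
      ((Fintype.card ι - i : ℕ) : ℂ) * (-1) ^ i * esymmVal t i * t o ^ (Fintype.card ι - 1 - i)) * f o
      = ∑ i ∈ Finset.range (Fintype.card ι), ∑ j ∈ Finset.range (Fintype.card ι - i),
          (-1 : ℂ) ^ i * esymmVal t i * (∑ q, f q * t q ^ j) * t o ^ (Fintype.card ι - 1 - i - j) := by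
  rw [lagrange_denominator]
  have key : ∀ q : ι, (divDiff t (t q)).eval (t o) =
      if q = o then ∏ q' ∈ Finset.univ.erase o, (t o - t q') else 0 := by
    intro q
    rw [divDiff_root, eval_prod]
    by_cases hq : q = o
    · subst hq
      simp
    · rw [if_neg hq]
      have : o ∈ Finset.univ.erase q := Finset.mem_erase.mpr ⟨fun h => hq h.symm, Finset.mem_univ o⟩
      exact Finset.prod_eq_zero this (by simp)
  have hsum : ∑ q : ι, f q * (divDiff t (t q)).eval (t o) =
      (∏ q' ∈ Finset.univ.erase o, (t o - t q')) * f o := by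
    simp only [key, mul_ite, mul_zero]
    rw [Finset.sum_ite_eq' Finset.univ o]
    simp [mul_comm]
  rw [← hsum]
  simp only [eval_divDiff, Finset.mul_sum]
  rw [Finset.sum_comm]
  refine Finset.sum_congr rfl fun i _ => ?_
  rw [Finset.sum_comm]
  refine Finset.sum_congr rfl fun j _ => ?_
  rw [Finset.sum_mul]
  refine Finset.sum_congr rfl fun q _ => ?_
  ring

end Fermat.Agent.S23.Lagrange
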