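import Mathlib
import Fermat.Agent.S23.Basic
import Fermat.Agent.S23.Lagrange
import Fermat.Agent.S23.Esymm

set_option autoImplicit false

open UpperHalfPlane ModularForm
open scoped MatrixGroups ModularForm

namespace Fermat.Agent.S23

noncomputable section

namespace NormPoly

open Fermat.Agent.S23.Esymm Fermat.Agent.S23.Lagrange

/-- A level-one modular form which is zero at `i∞` has vanishing constant `q`-coefficient. -/
theorem coeff_zero_of_isZeroAtImInfty {w : ℤ} (E : ModularForm 𝒮ℒ w)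
    (h : IsZeroAtImInfty (⇑E)) : (qExpansion 1 E).coeff 0 = 0 := by
  rw [qExpansion_coeff_zero one_pos
    (ModularFormClass.analyticAt_cuspFunction_zero E one_pos one_mem_strictPeriods_SL)
    (SlashInvariantFormClass.periodic_comp_ofComplex E one_mem_strictPeriods_SL)]
  exact h.valueAtInfty_eq_zero

/-- The signed elementary symmetric functions of the translates of a cusp form, as level-one
cusp forms (any weight `w` equal to `k * m`). -/
theorem exists_cuspForm_esymm {𝒢 : Subgroup (GL (Fin 2) ℝ)} [𝒢.IsFiniteRelIndex 𝒮ℒ] {k : ℤ}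
    [Fintype (𝒮ℒ ⧸ 𝒢.subgroupOf 𝒮ℒ)] (f : CuspForm 𝒢 k) (m : ℕ) (hm : 1 ≤ m)
    (w : ℤ) (hw : w = k * m) :
    ∃ c : CuspForm 𝒮ℒ w, ∀ τ : ℍ, c τ = (-1 : ℂ) ^ m * esymmFun f m τ := by
  subst hw
  obtain ⟨E, hE⟩ := exists_modularForm_esymm f m
  have hz : IsZeroAtImInfty (⇑E) := by
    rw [hE]
    exact isZeroAtImInfty_esymm f m hm
  refine ⟨(-1 : ℂ) ^ m • ModularForm.toCuspForm E (coeff_zero_of_isZeroAtImInfty E hz), ?_⟩
  intro τ
  simp [ModularForm.toCuspForm_apply, hE]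

theorem esymmVal_zero {ι : Type*} [Fintype ι] [DecidableEq ι] (t : ι → ℂ) :
    esymmVal t 0 = 1 := by
  simp [esymmVal]

end NormPoly

open NormPoly Fermat.Agent.S23.Esymm Fermat.Agent.S23.Lagrange in
/-- W3 (second half): the norm polynomial. A cusp form on `Γ₀(N)` is a root of a monic polynomial
whose coefficients are level-one cusp forms. -/
theorem norm_polynomial (N : ℕ) [NeZero N] {k : ℤ} (f : CuspForm (G0 N) k) :
    ∃ c : (s : Fin (Nat.card (Q0 N))) → CuspForm 𝒮ℒ (k * ((s : ℕ) + 1)),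
      ∀ τ : ℍ, f τ ^ (Nat.card (Q0 N)) +
        ∑ s : Fin (Nat.card (Q0 N)), c s τ * f τ ^ (Nat.card (Q0 N) - 1 - (s : ℕ)) = 0 := by
  classical
  let _ : Fintype (Q0 N) := Fintype.ofFinite (Q0 N)
  have hex : ∀ s : Fin (Nat.card (Q0 N)), ∃ c : CuspForm 𝒮ℒ (k * ((s : ℕ) + 1)),
      ∀ τ : ℍ, c τ = (-1 : ℂ) ^ ((s : ℕ) + 1) * esymmFun f ((s : ℕ) + 1) τ := fun s =>
    exists_cuspForm_esymm f ((s : ℕ) + 1) (Nat.le_add_left 1 _) _ (by push_cast; ring)
  choose c hc using hex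
  refine ⟨c, fun τ => ?_⟩
  have hcard : Nat.card (Q0 N) = Fintype.card (Q0 N) := Nat.card_eq_fintype_card
  have hmon := monic_identity (q1 N) (fun q : Q0 N => SlashInvariantForm.quotientFunc f q τ)
  have hq1 : SlashInvariantForm.quotientFunc f (q1 N) τ = f τ := by
    simp [q1]
  rw [hq1, Finset.sum_range_succ', esymmVal_zero] at hmon
  simp_rw [hc]
  rw [Fin.sum_univ_eq_sum_range
    (fun s => (-1 : ℂ) ^ (s + 1) * esymmFun f (s + 1) τ * f τ ^ (Nat.card (Q0 N) - 1 - s))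
    (Nat.card (Q0 N)), hcard]
  rw [← hmon, add_comm]
  congr 1
  · refine Finset.sum_congr rfl fun s _ => ?_
    rw [Nat.sub_sub, add_comm 1 s]
    rfl
  · simp

/-- `norm_polynomial` with the degree existentially quantified (shape used by the wiring). -/
theorem exists_norm_polynomial (N : ℕ) [NeZero N] {k : ℤ} (f : CuspForm (G0 N) k) :
    ∃ (n : ℕ) (c : (s : Fin n) → CuspForm 𝒮ℒ (k * ((s : ℕ) + 1))),
      ∀ τ : ℍ, f τ ^ n + ∑ s : Fin n, c s τ * f τ ^ (n - 1 - (s : ℕ)) = 0 :=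
  ⟨_, norm_polynomial N f⟩

end

end Fermat.Agent.S23
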