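import Mathlib

set_option autoImplicit false

namespace Fermat.Agent.S23.AutC

/-- A ring automorphism of the subalgebra generated by a transcendence basis of an algebraically
closed field extends to the whole field. -/
theorem exists_ringEquiv_extending {R K ι : Type*} [CommRing R] [Field K] [Algebra R K]
    [IsAlgClosed K] (v : ι → K) (hv : IsTranscendenceBasis R v)
    (e : Algebra.adjoin R (Set.range v) ≃+* Algebra.adjoin R (Set.range v)) :
    ∃ σ : K ≃+* K, ∀ a : Algebra.adjoin R (Set.range v), σ (a : K) = (e a : K) := by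
  let _ := IsAlgClosed.isAlgClosure_of_transcendence_basis v hv
  exact ⟨IsAlgClosure.equivOfEquiv K K e, fun a => IsAlgClosure.equivOfEquiv_algebraMap K K e a⟩

theorem exists_ringEquiv_of_mvPolynomial {R K ι : Type*} [CommRing R] [Field K] [Algebra R K]
    [IsAlgClosed K] (v : ι → K) (hv : IsTranscendenceBasis R v)
    (φ : MvPolynomial ι R ≃+* MvPolynomial ι R) :
    ∃ σ : K ≃+* K, ∀ p : MvPolynomial ι R,
      σ (MvPolynomial.aeval v p) = MvPolynomial.aeval v (φ p) := by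
  obtain ⟨σ, hσ⟩ := exists_ringEquiv_extending v hv
    ((hv.1.aevalEquiv.symm.toRingEquiv.trans φ).trans hv.1.aevalEquiv.toRingEquiv)
  refine ⟨σ, fun p => ?_⟩
  have := hσ (hv.1.aevalEquiv p)
  simpa using this

theorem exists_ringAut_ne_of_transcendental {z : ℂ} (hz : Transcendental ℚ z) :
    ∃ σ : ℂ ≃+* ℂ, σ z ≠ z := by
  have h1 : AlgebraicIndepOn ℚ id ({z} : Set ℂ) :=
    (algebraicIndependent_singleton_iff (⟨z, rfl⟩ : ({z} : Set ℂ))).mpr hz
  obtain ⟨t, hzt, ht⟩ := exists_isTranscendenceBasis_superset h1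
  let f : MvPolynomial t ℚ →ₐ[ℚ] MvPolynomial t ℚ :=
    MvPolynomial.aeval (fun i => - MvPolynomial.X i)
  have hff : f.comp f = AlgHom.id ℚ _ := by
    ext i; simp [f]
  let φ : MvPolynomial t ℚ ≃ₐ[ℚ] MvPolynomial t ℚ := AlgEquiv.ofAlgHom f f hff hff
  obtain ⟨σ, hσ⟩ := exists_ringEquiv_of_mvPolynomial _ ht φ.toRingEquiv
  refine ⟨σ, ?_⟩
  have h2 := hσ (MvPolynomial.X ⟨z, hzt rfl⟩)
  simp [φ, f] at h2
  rw [h2]
  intro h
  have hz0 : z = 0 := by linear_combination (-1/2 : ℂ) * h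
  exact hz (hz0 ▸ isAlgebraic_zero)

theorem exists_ringAut_extending_algEquiv
    (τ : algebraicClosure ℚ ℂ ≃ₐ[ℚ] algebraicClosure ℚ ℂ) :
    ∃ σ : ℂ ≃+* ℂ, ∀ a : algebraicClosure ℚ ℂ, σ (a : ℂ) = (τ a : ℂ) := by
  obtain ⟨ι, v, hv⟩ := exists_isTranscendenceBasis' (algebraicClosure ℚ ℂ) ℂ
  obtain ⟨σ, hσ⟩ := exists_ringEquiv_of_mvPolynomial v hv (MvPolynomial.mapEquiv ι τ.toRingEquiv)
  refine ⟨σ, fun a => ?_⟩
  have := hσ (MvPolynomial.C a)
  simpa using this

/-- A complex number fixed by every ring automorphism of `ℂ` is rational. -/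
theorem exists_ringAut_ne {z : ℂ} (hz : z ∉ Set.range ((↑) : ℚ → ℂ)) :
    ∃ σ : ℂ ≃+* ℂ, σ z ≠ z := by
  by_cases hzalg : IsAlgebraic ℚ z
  · by_contra hcon
    push Not at hcon
    have : IsAlgClosure ℚ (algebraicClosure ℚ ℂ) := algebraicClosure.isAlgClosure ℚ ℂ
    have : IsGalois ℚ (algebraicClosure ℚ ℂ) := IsAlgClosure.isGalois ℚ (algebraicClosure ℚ ℂ)
    have hzA : z ∈ algebraicClosure ℚ ℂ := (mem_algebraicClosure_iff' ..).mpr hzalg.isIntegral
    have : (⟨z, hzA⟩ : algebraicClosure ℚ ℂ) ∈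
        Set.range (algebraMap ℚ (algebraicClosure ℚ ℂ)) := by
      rw [InfiniteGalois.mem_range_algebraMap_iff_fixed]
      intro τ
      obtain ⟨σ, hσ⟩ := exists_ringAut_extending_algEquiv τ
      apply Subtype.ext
      rw [← hσ]; exact hcon σ
    obtain ⟨r, hr⟩ := this
    exact hz ⟨r, by simpa using congrArg Subtype.val hr⟩
  · exact exists_ringAut_ne_of_transcendental hzalg

theorem mem_range_ratCast_of_forall_ringAut {z : ℂ} (h : ∀ σ : ℂ ≃+* ℂ, σ z = z) :
    z ∈ Set.range ((↑) : ℚ → ℂ) := by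
  by_contra hz
  obtain ⟨σ, hσ⟩ := exists_ringAut_ne hz
  exact hσ (h σ)

end Fermat.Agent.S23.AutC
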