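import Mathlib

set_option autoImplicit false

namespace Fermat.Agent.S23.Series

open PowerSeries

/-- Complex power series with integer coefficients. -/
def IsInt (f : PowerSeries ℂ) : Prop := ∀ n, ∃ m : ℤ, coeff n f = m

/-- Complex power series with rational coefficients. -/
def IsRat (f : PowerSeries ℂ) : Prop := ∀ n, ∃ r : ℚ, coeff n f = r

/-- The subring of complex power series with integer coefficients. -/
noncomputable def intSubring : Subring (PowerSeries ℂ) := (PowerSeries.map (Int.castRingHom ℂ)).range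

/-- The subring of complex power series with rational coefficients. -/
noncomputable def ratSubring : Subring (PowerSeries ℂ) := (PowerSeries.map (algebraMap ℚ ℂ)).range

theorem isInt_iff_mem {f : PowerSeries ℂ} : IsInt f ↔ f ∈ intSubring := by
  constructor
  · intro h
    choose m hm using h
    refine ⟨PowerSeries.mk m, ?_⟩
    ext n
    simp [hm]
  · rintro ⟨g, rfl⟩ n
    exact ⟨coeff n g, by simp⟩

theorem isRat_iff_mem {f : PowerSeries ℂ} : IsRat f ↔ f ∈ ratSubring := by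
  constructor
  · intro h
    choose r hr using h
    refine ⟨PowerSeries.mk r, ?_⟩
    ext n
    simp [hr]
  · rintro ⟨g, rfl⟩ n
    exact ⟨coeff n g, by simp⟩

theorem IsInt.isRat {f : PowerSeries ℂ} (h : IsInt f) : IsRat f := fun n => by
  obtain ⟨m, hm⟩ := h n
  exact ⟨m, by simp [hm]⟩

theorem isInt_zero : IsInt 0 := isInt_iff_mem.mpr (Subring.zero_mem _)
theorem isInt_one : IsInt 1 := isInt_iff_mem.mpr (Subring.one_mem _)
theorem IsInt.add {f g : PowerSeries ℂ} (hf : IsInt f) (hg : IsInt g) : IsInt (f + g) :=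
  isInt_iff_mem.mpr (Subring.add_mem _ (isInt_iff_mem.mp hf) (isInt_iff_mem.mp hg))
theorem IsInt.mul {f g : PowerSeries ℂ} (hf : IsInt f) (hg : IsInt g) : IsInt (f * g) :=
  isInt_iff_mem.mpr (Subring.mul_mem _ (isInt_iff_mem.mp hf) (isInt_iff_mem.mp hg))
theorem IsInt.neg {f : PowerSeries ℂ} (hf : IsInt f) : IsInt (-f) :=
  isInt_iff_mem.mpr (Subring.neg_mem _ (isInt_iff_mem.mp hf))
theorem IsInt.sub {f g : PowerSeries ℂ} (hf : IsInt f) (hg : IsInt g) : IsInt (f - g) :=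
  isInt_iff_mem.mpr (Subring.sub_mem _ (isInt_iff_mem.mp hf) (isInt_iff_mem.mp hg))
theorem IsInt.pow {f : PowerSeries ℂ} (hf : IsInt f) (n : ℕ) : IsInt (f ^ n) :=
  isInt_iff_mem.mpr (Subring.pow_mem _ (isInt_iff_mem.mp hf) n)
theorem IsInt.sum {ι : Type*} {s : Finset ι} {f : ι → PowerSeries ℂ}
    (hf : ∀ i ∈ s, IsInt (f i)) : IsInt (∑ i ∈ s, f i) :=
  isInt_iff_mem.mpr (Subring.sum_mem _ fun i hi => isInt_iff_mem.mp (hf i hi))
theorem isInt_natCast (n : ℕ) : IsInt (n : PowerSeries ℂ) :=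
  isInt_iff_mem.mpr (natCast_mem _ n)
theorem isInt_intCast (n : ℤ) : IsInt (n : PowerSeries ℂ) :=
  isInt_iff_mem.mpr (intCast_mem _ n)
theorem isInt_X : IsInt (X : PowerSeries ℂ) := by
  intro n
  by_cases h : n = 1
  · exact ⟨1, by simp [coeff_X, h]⟩
  · exact ⟨0, by simp [coeff_X, h]⟩

theorem isRat_zero : IsRat 0 := isRat_iff_mem.mpr (Subring.zero_mem _)
theorem isRat_one : IsRat 1 := isRat_iff_mem.mpr (Subring.one_mem _)
theorem IsRat.add {f g : PowerSeries ℂ} (hf : IsRat f) (hg : IsRat g) : IsRat (f + g) :=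
  isRat_iff_mem.mpr (Subring.add_mem _ (isRat_iff_mem.mp hf) (isRat_iff_mem.mp hg))
theorem IsRat.mul {f g : PowerSeries ℂ} (hf : IsRat f) (hg : IsRat g) : IsRat (f * g) :=
  isRat_iff_mem.mpr (Subring.mul_mem _ (isRat_iff_mem.mp hf) (isRat_iff_mem.mp hg))
theorem IsRat.neg {f : PowerSeries ℂ} (hf : IsRat f) : IsRat (-f) :=
  isRat_iff_mem.mpr (Subring.neg_mem _ (isRat_iff_mem.mp hf))
theorem IsRat.sub {f g : PowerSeries ℂ} (hf : IsRat f) (hg : IsRat g) : IsRat (f - g) :=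
  isRat_iff_mem.mpr (Subring.sub_mem _ (isRat_iff_mem.mp hf) (isRat_iff_mem.mp hg))
theorem IsRat.pow {f : PowerSeries ℂ} (hf : IsRat f) (n : ℕ) : IsRat (f ^ n) :=
  isRat_iff_mem.mpr (Subring.pow_mem _ (isRat_iff_mem.mp hf) n)
theorem IsRat.sum {ι : Type*} {s : Finset ι} {f : ι → PowerSeries ℂ}
    (hf : ∀ i ∈ s, IsRat (f i)) : IsRat (∑ i ∈ s, f i) :=
  isRat_iff_mem.mpr (Subring.sum_mem _ fun i hi => isRat_iff_mem.mp (hf i hi))
theorem IsRat.smul_rat {f : PowerSeries ℂ} (hf : IsRat f) (r : ℚ) : IsRat ((r : ℂ) • f) := by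
  intro n
  obtain ⟨s, hs⟩ := hf n
  exact ⟨r * s, by simp [hs]⟩

/-- A rational power series is fixed by every ring endomorphism of `ℂ` acting on coefficients. -/
theorem IsRat.map_eq {f : PowerSeries ℂ} (hf : IsRat f) (σ : ℂ →+* ℂ) :
    PowerSeries.map σ f = f := by
  ext n
  obtain ⟨r, hr⟩ := hf n
  simp [hr]

/-- Power series with bounded denominators: some nonzero integer multiple is integral. -/
def IsBddDen (f : PowerSeries ℂ) : Prop := ∃ D : ℕ, D ≠ 0 ∧ IsInt ((D : PowerSeries ℂ) * f)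

theorem IsInt.isBddDen {f : PowerSeries ℂ} (hf : IsInt f) : IsBddDen f :=
  ⟨1, one_ne_zero, by simpa using hf⟩

theorem IsBddDen.isRat {f : PowerSeries ℂ} (hf : IsBddDen f) : IsRat f := by
  obtain ⟨D, hD, h⟩ := hf
  intro n
  obtain ⟨m, hm⟩ := h n
  refine ⟨(m : ℚ) / D, ?_⟩
  have hD' : (D : ℂ) ≠ 0 := Nat.cast_ne_zero.mpr hD
  have h1 : coeff n ((D : PowerSeries ℂ) * f) = (D : ℂ) * coeff n f := by
    rw [show (D : PowerSeries ℂ) = C (D : ℂ) from (map_natCast (C (R := ℂ)) D).symm, coeff_C_mul]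
  rw [h1] at hm
  push_cast
  field_simp
  linear_combination hm

theorem isBddDen_zero : IsBddDen 0 := isInt_zero.isBddDen
theorem isBddDen_one : IsBddDen 1 := isInt_one.isBddDen

theorem IsBddDen.mul {f g : PowerSeries ℂ} (hf : IsBddDen f) (hg : IsBddDen g) :
    IsBddDen (f * g) := by
  obtain ⟨D, hD, h⟩ := hf
  obtain ⟨E, hE, h'⟩ := hg
  refine ⟨D * E, Nat.mul_ne_zero hD hE, ?_⟩
  have : ((D * E : ℕ) : PowerSeries ℂ) * (f * g) = ((D : PowerSeries ℂ) * f) * ((E : PowerSeries ℂ) * g) := by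
    push_cast; ring
  rw [this]
  exact h.mul h'

theorem IsBddDen.add {f g : PowerSeries ℂ} (hf : IsBddDen f) (hg : IsBddDen g) :
    IsBddDen (f + g) := by
  obtain ⟨D, hD, h⟩ := hf
  obtain ⟨E, hE, h'⟩ := hg
  refine ⟨D * E, Nat.mul_ne_zero hD hE, ?_⟩
  have : ((D * E : ℕ) : PowerSeries ℂ) * (f + g) =
      (E : PowerSeries ℂ) * ((D : PowerSeries ℂ) * f) + (D : PowerSeries ℂ) * ((E : PowerSeries ℂ) * g) := by
    push_cast; ring
  rw [this]
  exact ((isInt_natCast E).mul h).add ((isInt_natCast D).mul h')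

theorem IsBddDen.pow {f : PowerSeries ℂ} (hf : IsBddDen f) (n : ℕ) : IsBddDen (f ^ n) := by
  induction n with
  | zero => simpa using isBddDen_one
  | succ n ih => rw [pow_succ]; exact ih.mul hf

theorem IsBddDen.sum {ι : Type*} {s : Finset ι} {f : ι → PowerSeries ℂ}
    (hf : ∀ i ∈ s, IsBddDen (f i)) : IsBddDen (∑ i ∈ s, f i) := by
  classical
  induction s using Finset.induction_on with
  | empty => simpa using isBddDen_zero
  | insert a s ha ih =>
    rw [Finset.sum_insert ha]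
    exact (hf a (Finset.mem_insert_self a s)).add
      (ih fun i hi => hf i (Finset.mem_insert_of_mem hi))

theorem IsBddDen.smul_rat {f : PowerSeries ℂ} (hf : IsBddDen f) (r : ℚ) :
    IsBddDen ((r : ℂ) • f) := by
  obtain ⟨D, hD, h⟩ := hf
  refine ⟨r.den * D, Nat.mul_ne_zero r.den_ne_zero hD, ?_⟩
  have : ((r.den * D : ℕ) : PowerSeries ℂ) * ((r : ℂ) • f) =
      (r.num : PowerSeries ℂ) * ((D : PowerSeries ℂ) * f) := by
    ext n
    have hD1 : ((r.den * D : ℕ) : PowerSeries ℂ) = C ((r.den : ℂ) * (D : ℂ)) := by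
      rw [← Nat.cast_mul]; exact (map_natCast (C (R := ℂ)) _).symm
    have hD2 : (D : PowerSeries ℂ) = C (D : ℂ) := (map_natCast (C (R := ℂ)) D).symm
    have hD3 : (r.num : PowerSeries ℂ) = C (r.num : ℂ) := (map_intCast (C (R := ℂ)) _).symm
    rw [hD1, hD2, hD3, coeff_C_mul, coeff_C_mul, coeff_C_mul, coeff_smul]
    have hr : (r : ℂ) = (r.num : ℂ) / (r.den : ℂ) := by
      have := Rat.num_div_den r
      conv_lhs => rw [← this]
      push_cast; rfl
    have hden : (r.den : ℂ) ≠ 0 := Nat.cast_ne_zero.mpr r.den_ne_zero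
    rw [hr]; simp only [smul_eq_mul]; field_simp
  rw [this]
  exact (isInt_intCast _).mul h

end Fermat.Agent.S23.Series
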