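import Mathlib
import Fermat.Agent.S23.AutC
import Fermat.Agent.S23.Series

set_option autoImplicit false

namespace Fermat.Agent.S23.AutDescent

open PowerSeries Fermat.Agent.S23.Series

/-- The support of `f` among the first `B + 1` coefficients. -/
noncomputable def supp (B : ℕ) (f : PowerSeries ℂ) : Finset ℕ :=
  (Finset.range (B + 1)).filter (fun n => coeff n f ≠ 0)

theorem mem_supp {B : ℕ} {f : PowerSeries ℂ} {n : ℕ} :
    n ∈ supp B f ↔ n ≤ B ∧ coeff n f ≠ 0 := by
  simp [supp]

theorem isRat_of_map_eq {g : PowerSeries ℂ}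
    (h : ∀ σ : ℂ ≃+* ℂ, PowerSeries.map (σ : ℂ →+* ℂ) g = g) : IsRat g := by
  intro n
  have h1 : coeff n g ∈ Set.range ((↑) : ℚ → ℂ) := by
    apply AutC.mem_range_ratCast_of_forall_ringAut
    intro σ
    have := congrArg (coeff n) (h σ)
    simpa using this
  obtain ⟨r, hr⟩ := h1
  exact ⟨r, hr.symm⟩

/-- Galois descent: a subspace of `ℂ⟦X⟧` which is detected by finitely many coefficients and is
stable under all ring automorphisms of `ℂ` (acting on coefficients) is spanned by its
elements with rational coefficients. -/
theorem mem_span_isRat (V : Submodule ℂ (PowerSeries ℂ)) (B : ℕ)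
    (hinj : ∀ f ∈ V, (∀ n ≤ B, coeff n f = 0) → f = 0)
    (hσ : ∀ (σ : ℂ ≃+* ℂ), ∀ f ∈ V, PowerSeries.map (σ : ℂ →+* ℂ) f ∈ V) :
    ∀ f ∈ V, f ∈ Submodule.span ℂ {g | g ∈ V ∧ IsRat g} := by
  have hzero : ∀ f ∈ V, supp B f = ∅ → f = 0 := by
    intro f hf hs
    apply hinj f hf
    intro n hn
    by_contra hne
    have : n ∈ supp B f := mem_supp.mpr ⟨hn, hne⟩
    rw [hs] at this
    exact absurd this (Finset.notMem_empty n)
  have key : ∀ k : ℕ, ∀ f ∈ V, (supp B f).card ≤ k →
      f ∈ Submodule.span ℂ {g | g ∈ V ∧ IsRat g} := by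
    intro k
    induction k with
    | zero =>
      intro f hf hk
      have : supp B f = ∅ := Finset.card_eq_zero.mp (Nat.le_zero.mp hk)
      rw [hzero f hf this]
      exact Submodule.zero_mem _
    | succ k ih =>
      intro f hf hk
      by_cases hk' : (supp B f).card ≤ k
      · exact ih f hf hk'
      have hf0 : f ≠ 0 := by
        rintro rfl
        apply hk'
        have : supp B (0 : PowerSeries ℂ) = ∅ := by
          ext n; simp [mem_supp]
        rw [this]; simp
      -- a support-minimal nonzero element with support inside that of `f`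
      let P : ℕ → Prop := fun m => ∃ g ∈ V, g ≠ 0 ∧ supp B g ⊆ supp B f ∧ (supp B g).card = m
      have hP : ∃ m, P m := ⟨_, f, hf, hf0, Finset.Subset.refl _, rfl⟩
      classical
      obtain ⟨g, hgV, hg0, hgsub, hgcard⟩ := Nat.find_spec hP
      have hmin : ∀ g' ∈ V, g' ≠ 0 → supp B g' ⊆ supp B f →
          Nat.find hP ≤ (supp B g').card := fun g' hg'V hg'0 hg'sub =>
        Nat.find_min' hP ⟨g', hg'V, hg'0, hg'sub, rfl⟩
      have hgne : (supp B g).Nonempty := by
        rw [Finset.nonempty_iff_ne_empty]
        exact fun h => hg0 (hzero g hgV h)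
      obtain ⟨n₀, hn₀⟩ := hgne
      have hn₀' := mem_supp.mp hn₀
      set c₀ := coeff n₀ g with hc₀
      set g' : PowerSeries ℂ := c₀⁻¹ • g with hg'
      have hg'V : g' ∈ V := V.smul_mem _ hgV
      have hcoeff : ∀ n, coeff n g' = c₀⁻¹ * coeff n g := by
        intro n; simp [hg']
      have hg'n₀ : coeff n₀ g' = 1 := by
        rw [hcoeff]; exact inv_mul_cancel₀ hn₀'.2
      have hsupp' : supp B g' = supp B g := by
        ext n
        simp only [mem_supp, hcoeff]
        constructor
        · rintro ⟨h1, h2⟩
          exact ⟨h1, fun h => h2 (by rw [h, mul_zero])⟩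
        · rintro ⟨h1, h2⟩
          exact ⟨h1, mul_ne_zero (inv_ne_zero hn₀'.2) h2⟩
      have hfix : ∀ σ : ℂ ≃+* ℂ, PowerSeries.map (σ : ℂ →+* ℂ) g' = g' := by
        intro σ
        by_contra hne
        set h := PowerSeries.map (σ : ℂ →+* ℂ) g' - g' with hh
        have hhV : h ∈ V := V.sub_mem (hσ σ g' hg'V) hg'V
        have hh0 : h ≠ 0 := fun h0 => hne (sub_eq_zero.mp h0)
        have hhsub : supp B h ⊆ (supp B g').erase n₀ := by
          intro n hn
          have hn' := mem_supp.mp hn
          have hcn : coeff n h = σ (coeff n g') - coeff n g' := by simp [hh]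
          rw [Finset.mem_erase]
          refine ⟨?_, mem_supp.mpr ⟨hn'.1, ?_⟩⟩
          · rintro rfl
            apply hn'.2
            rw [hcn, hg'n₀]; simp
          · intro h0
            apply hn'.2
            rw [hcn, h0]; simp
        have hlt : (supp B h).card < (supp B g').card := by
          apply lt_of_le_of_lt (Finset.card_le_card hhsub)
          exact Finset.card_erase_lt_of_mem (by rw [hsupp']; exact hn₀)
        have hle := hmin h hhV hh0
          (fun n hn => hgsub (by rw [← hsupp']; exact Finset.mem_of_mem_erase (hhsub hn)))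
        rw [hsupp', hgcard] at hlt
        exact absurd hle (not_le.mpr hlt)
      have hg'rat : IsRat g' := isRat_of_map_eq hfix
      -- subtract
      set f' : PowerSeries ℂ := f - coeff n₀ f • g' with hf'
      have hf'V : f' ∈ V := V.sub_mem hf (V.smul_mem _ hg'V)
      have hf'sub : supp B f' ⊆ (supp B f).erase n₀ := by
        intro n hn
        have hn' := mem_supp.mp hn
        have hcn : coeff n f' = coeff n f - coeff n₀ f * coeff n g' := by simp [hf']
        rw [Finset.mem_erase]
        refine ⟨?_, ?_⟩
        · rintro rfl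
          apply hn'.2
          rw [hcn, hg'n₀]; ring
        · by_contra hnf
          have h1 : coeff n f = 0 := by
            by_contra h1
            exact hnf (mem_supp.mpr ⟨hn'.1, h1⟩)
          have h2 : coeff n g' = 0 := by
            by_contra h2
            have : n ∈ supp B g' := mem_supp.mpr ⟨hn'.1, h2⟩
            rw [hsupp'] at this
            exact hnf (hgsub this)
          apply hn'.2
          rw [hcn, h1, h2]; ring
      have hf'card : (supp B f').card ≤ k := by
        have h1 := Finset.card_le_card hf'sub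
        have h2 : ((supp B f).erase n₀).card < (supp B f).card :=
          Finset.card_erase_lt_of_mem (hgsub hn₀)
        omega
      have h1 := ih f' hf'V hf'card
      have h2 : g' ∈ Submodule.span ℂ {g | g ∈ V ∧ IsRat g} :=
        Submodule.subset_span ⟨hg'V, hg'rat⟩
      have : f = f' + coeff n₀ f • g' := by rw [hf']; ring
      rw [this]
      exact Submodule.add_mem _ h1 (Submodule.smul_mem _ _ h2)
  intro f hf
  exact key _ f hf le_rfl

end Fermat.Agent.S23.AutDescent
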