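import Mathlib
import Fermat.Agent.S23.Series

set_option autoImplicit false

namespace Fermat.Agent.S23.IntClosed

open PowerSeries Fermat.Agent.S23.Series

/-- If `a * r ^ n` is an integer for every `n` (with `a` a nonzero integer), then the rational
number `r` is an integer. -/
theorem rat_int_of_mul_pow {a : ℤ} (ha : a ≠ 0) {r : ℚ}
    (h : ∀ n : ℕ, ∃ m : ℤ, (a : ℚ) * r ^ n = m) : ∃ m : ℤ, r = m := by
  have hden : r.den = 1 := by
    by_contra hne
    have h2 : 2 ≤ r.den := by
      have := r.den_pos; omega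
    obtain ⟨m, hm⟩ := h a.natAbs
    have ha' : (a : ℚ) ≠ 0 := Int.cast_ne_zero.mpr ha
    have h3 : r ^ a.natAbs = Rat.divInt m a := by
      rw [Rat.divInt_eq_div]
      field_simp
      linarith
    have h4 : ((r ^ a.natAbs).den : ℤ) ∣ a := by
      rw [h3]; exact Rat.den_dvd m a
    rw [Rat.den_pow] at h4
    have h5 : r.den ^ a.natAbs ≤ a.natAbs :=
      Nat.le_of_dvd (Int.natAbs_pos.mpr ha) (Int.natCast_dvd.mp h4)
    have h6 : a.natAbs < 2 ^ a.natAbs := Nat.lt_two_pow_self
    have h7 : 2 ^ a.natAbs ≤ r.den ^ a.natAbs := Nat.pow_le_pow_left h2 _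
    omega
  exact ⟨r.num, ((Rat.den_eq_one_iff r).mp hden).symm⟩

/-- complex version -/
theorem complex_int_of_mul_pow {a : ℤ} (ha : a ≠ 0) {r : ℚ}
    (h : ∀ n : ℕ, ∃ m : ℤ, (a : ℂ) * (r : ℂ) ^ n = m) : ∃ m : ℤ, (r : ℂ) = m := by
  obtain ⟨m, hm⟩ := rat_int_of_mul_pow ha (r := r) (fun n => by
    obtain ⟨m, hm⟩ := h n
    refine ⟨m, ?_⟩
    have : ((a * r ^ n : ℚ) : ℂ) = ((m : ℚ) : ℂ) := by push_cast; exact hm
    exact_mod_cast this)
  exact ⟨m, by rw [hm]; simp⟩

/-- `ℤ⟦X⟧` is completely integrally closed in `ℚ⟦X⟧` (stated inside `ℂ⟦X⟧`): if `c ≠ 0` is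
integral and `c * h ^ n` is integral for all `n`, where `h` is rational, then `h` is integral. -/
theorem isInt_of_mul_pow {h c : PowerSeries ℂ} (hrat : IsRat h) (hc : IsInt c) (hc0 : c ≠ 0)
    (H : ∀ n : ℕ, IsInt (c * h ^ n)) : IsInt h := by
  -- the lowest nonzero coefficient of `c`
  obtain ⟨s, hs, hsmin⟩ : ∃ s, coeff s c ≠ 0 ∧ ∀ i < s, coeff i c = 0 := by
    have hex : ∃ s, coeff s c ≠ 0 := by
      by_contra hcon
      push Not at hcon
      exact hc0 (PowerSeries.ext fun n => by simpa using hcon n)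
    classical
    exact ⟨Nat.find hex, Nat.find_spec hex, fun i hi => by
      have := Nat.find_min hex hi
      simpa using this⟩
  obtain ⟨a, ha⟩ := hc s
  have ha0 : a ≠ 0 := by
    rintro rfl
    exact hs (by simpa using ha)
  -- key claim: for every rational `g` with `c * g ^ n` integral for all `n`, the constant
  -- coefficient of `g` is an integer
  have key : ∀ g : PowerSeries ℂ, IsRat g → (∀ n : ℕ, IsInt (c * g ^ n)) →
      ∃ m : ℤ, coeff 0 g = m := by
    intro g hg Hg
    obtain ⟨r, hr⟩ := hg 0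
    rw [hr]
    apply complex_int_of_mul_pow ha0
    intro n
    obtain ⟨m, hm⟩ := Hg n s
    refine ⟨m, ?_⟩
    rw [← hm, coeff_mul]
    rw [Finset.sum_eq_single (s, 0)]
    · rw [ha, ← hr]
      simp [coeff_zero_eq_constantCoeff]
    · rintro ⟨i, j⟩ hij hne
      have hij' : i + j = s := Finset.HasAntidiagonal.mem_antidiagonal.mp hij
      have hi : i < s := by
        rcases Nat.eq_zero_or_pos j with hj | hj
        · exfalso; apply hne; subst hj; simp at hij'; simp [hij']
        · omega
      simp [hsmin i hi]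
    · intro hnot
      exact absurd (Finset.HasAntidiagonal.mem_antidiagonal.mpr (by simp)) hnot
  -- induction: all shifts of `h` satisfy the hypothesis
  have shift : ∀ k : ℕ, (∀ i < k, ∃ m : ℤ, coeff i h = m) →
      (∀ n : ℕ, IsInt (c * (PowerSeries.mk fun i => coeff (i + k) h) ^ n)) := by
    intro k hk n
    set h' : PowerSeries ℂ := PowerSeries.mk fun i => coeff (i + k) h with hh'
    set p : PowerSeries ℂ := (h.trunc k : PowerSeries ℂ) with hp
    have hpint : IsInt p := by
      intro i
      rw [hp, Polynomial.coeff_coe, coeff_trunc]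
      split_ifs with hi
      · exact hk i hi
      · exact ⟨0, by simp⟩
    have hsplit : h = X ^ k * h' + p := eq_X_pow_mul_shift_add_trunc k h
    have h1 : X ^ k * h' = h - p := by rw [eq_sub_iff_add_eq]; exact hsplit.symm
    have h2 : IsInt (c * (h - p) ^ n) := by
      rw [sub_eq_add_neg, add_pow, Finset.mul_sum]
      apply IsInt.sum
      intro m _
      have : c * (h ^ m * (-p) ^ (n - m) * (n.choose m : PowerSeries ℂ)) =
          (c * h ^ m) * ((-p) ^ (n - m) * (n.choose m : PowerSeries ℂ)) := by ring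
      rw [this]
      exact (H m).mul ((hpint.neg.pow _).mul (isInt_natCast _))
    rw [← h1, mul_pow, ← pow_mul] at h2
    intro i
    obtain ⟨m, hm⟩ := h2 (i + k * n)
    refine ⟨m, ?_⟩
    rw [← hm]
    have : c * (X ^ (k * n) * h' ^ n) = X ^ (k * n) * (c * h' ^ n) := by ring
    rw [this, coeff_X_pow_mul]
  have main : ∀ k : ℕ, ∀ i < k, ∃ m : ℤ, coeff i h = m := by
    intro k
    induction k with
    | zero => intro i hi; omega
    | succ k ih =>
      intro i hi
      rcases Nat.lt_succ_iff_lt_or_eq.mp hi with hlt | rfl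
      · exact ih i hlt
      · have hrat' : IsRat (PowerSeries.mk fun j => coeff (j + i) h) := by
          intro j
          obtain ⟨r, hr⟩ := hrat (j + i)
          exact ⟨r, by simp [hr]⟩
        obtain ⟨m, hm⟩ := key _ hrat' (shift i ih)
        exact ⟨m, by simpa using hm⟩
  intro n
  exact main (n + 1) n (Nat.lt_succ_self n)

/-- A rational power series `h` that is a root of a monic polynomial with integral power series
coefficients and admits a nonzero integral multiplier `c` with `c * h` integral is integral. -/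
theorem isInt_of_monic {h c : PowerSeries ℂ} (hrat : IsRat h) (hc : IsInt c) (hc0 : c ≠ 0)
    (hch : IsInt (c * h)) {n : ℕ} (e : ℕ → PowerSeries ℂ) (he : ∀ i < n, IsInt (e i))
    (hmonic : h ^ n + ∑ i ∈ Finset.range n, e i * h ^ i = 0) : IsInt h := by
  have hcn0 : c ^ n ≠ 0 := pow_ne_zero n hc0
  apply isInt_of_mul_pow hrat (hc.pow n) hcn0
  intro m
  induction m using Nat.strong_induction_on with
  | _ m ih =>
    by_cases hm : m < n
    · have : c ^ n * h ^ m = c ^ (n - m) * (c * h) ^ m := by
        rw [mul_pow, ← mul_assoc, ← pow_add, Nat.sub_add_cancel hm.le]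
      rw [this]
      exact (hc.pow _).mul (hch.pow _)
    · push Not at hm
      have h1 : h ^ n = - ∑ i ∈ Finset.range n, e i * h ^ i := eq_neg_of_add_eq_zero_left hmonic
      have h2 : c ^ n * h ^ m = - ∑ i ∈ Finset.range n, e i * (c ^ n * h ^ (i + (m - n))) := by
        have : h ^ m = h ^ n * h ^ (m - n) := by rw [← pow_add, Nat.add_sub_cancel' hm]
        rw [this, h1, neg_mul, mul_neg, Finset.sum_mul, Finset.mul_sum]
        congr 1
        apply Finset.sum_congr rfl
        intro i _
        rw [pow_add]; ring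
      rw [h2]
      apply IsInt.neg
      apply IsInt.sum
      intro i hi
      rw [Finset.mem_range] at hi
      exact (he i hi).mul (ih (i + (m - n)) (by omega))

end Fermat.Agent.S23.IntClosed
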