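import Mathlib
import Fermat.Agent.S23.Series
import Fermat.Agent.S23.IntClosed

set_option autoImplicit false

namespace Fermat.Agent.S23.Cert

open PowerSeries Fermat.Agent.S23.Series

/-- Part I of a certificate: `φ = P / Q` with `Q`, `P` in the complex span of given series. -/
def CritI (Qs Ps : Set (PowerSeries ℂ)) (φ : PowerSeries ℂ) : Prop :=
  ∃ Q ∈ Submodule.span ℂ Qs, ∃ P ∈ Submodule.span ℂ Ps, Q ≠ 0 ∧ φ * Q = P

/-- Part II of a certificate: `φ` is a root of a monic polynomial of some degree `n` whose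
coefficient of `φ ^ i` lies in the complex span of `Es n i`. -/
def CritII (Es : ℕ → ℕ → Set (PowerSeries ℂ)) (φ : PowerSeries ℂ) : Prop :=
  ∃ n : ℕ, ∃ e : ℕ → PowerSeries ℂ, (∀ i < n, e i ∈ Submodule.span ℂ (Es n i)) ∧
    φ ^ n + ∑ i ∈ Finset.range n, e i * φ ^ i = 0

section Stable

theorem map_smul' (σ : ℂ →+* ℂ) (c : ℂ) (x : PowerSeries ℂ) :
    PowerSeries.map σ (c • x) = σ c • PowerSeries.map σ x := by
  ext n; simp

theorem map_mem_span {𝔐 : Set (PowerSeries ℂ)} (h𝔐 : ∀ M ∈ 𝔐, IsRat M) (σ : ℂ →+* ℂ)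
    {x : PowerSeries ℂ} (hx : x ∈ Submodule.span ℂ 𝔐) :
    PowerSeries.map σ x ∈ Submodule.span ℂ 𝔐 := by
  induction hx using Submodule.span_induction with
  | mem M hM => rw [(h𝔐 M hM).map_eq σ]; exact Submodule.subset_span hM
  | zero => simp
  | add x y _ _ hx hy => rw [map_add]; exact Submodule.add_mem _ hx hy
  | smul c x _ hx => rw [map_smul']; exact Submodule.smul_mem _ _ hx

theorem map_ne_zero (σ : ℂ →+* ℂ) {x : PowerSeries ℂ} (hx : x ≠ 0) :
    PowerSeries.map σ x ≠ 0 := by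
  intro h
  apply hx
  ext n
  have := congrArg (coeff n) h
  simpa using this

theorem CritI.map {Qs Ps : Set (PowerSeries ℂ)} (hQs : ∀ M ∈ Qs, IsRat M) (hPs : ∀ M ∈ Ps, IsRat M)
    (σ : ℂ →+* ℂ) {φ : PowerSeries ℂ} (h : CritI Qs Ps φ) : CritI Qs Ps (PowerSeries.map σ φ) := by
  obtain ⟨Q, hQ, P, hP, hQ0, hφQ⟩ := h
  refine ⟨_, map_mem_span hQs σ hQ, _, map_mem_span hPs σ hP, map_ne_zero σ hQ0, ?_⟩
  rw [← hφQ, map_mul]

theorem CritII.map {Es : ℕ → ℕ → Set (PowerSeries ℂ)} (hEs : ∀ n i, ∀ M ∈ Es n i, IsRat M)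
    (σ : ℂ →+* ℂ) {φ : PowerSeries ℂ} (h : CritII Es φ) : CritII Es (PowerSeries.map σ φ) := by
  obtain ⟨n, e, he, hmon⟩ := h
  refine ⟨n, fun i => PowerSeries.map σ (e i), fun i hi => map_mem_span (hEs n i) σ (he i hi), ?_⟩
  have := congrArg (PowerSeries.map σ) hmon
  simpa [map_add, map_sum, map_mul, map_pow] using this

end Stable

section Functional

/-- Apply a `ℚ`-linear functional `ℂ → ℚ` to every coefficient. -/
noncomputable def applyFun (l : ℂ →ₗ[ℚ] ℚ) (f : PowerSeries ℂ) : PowerSeries ℂ :=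
  PowerSeries.mk fun n => ((l (coeff n f) : ℚ) : ℂ)

@[simp] theorem coeff_applyFun (l : ℂ →ₗ[ℚ] ℚ) (f : PowerSeries ℂ) (n : ℕ) :
    coeff n (applyFun l f) = ((l (coeff n f) : ℚ) : ℂ) := by
  simp [applyFun]

theorem applyFun_zero (l : ℂ →ₗ[ℚ] ℚ) : applyFun l 0 = 0 := by
  ext n; simp

theorem applyFun_add (l : ℂ →ₗ[ℚ] ℚ) (f g : PowerSeries ℂ) :
    applyFun l (f + g) = applyFun l f + applyFun l g := by
  ext n; simp

theorem applyFun_sum (l : ℂ →ₗ[ℚ] ℚ) {ι : Type*} (s : Finset ι) (f : ι → PowerSeries ℂ) :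
    applyFun l (∑ i ∈ s, f i) = ∑ i ∈ s, applyFun l (f i) := by
  classical
  induction s using Finset.induction_on with
  | empty => simp [applyFun_zero]
  | insert a s ha ih => rw [Finset.sum_insert ha, Finset.sum_insert ha, applyFun_add, ih]

theorem isRat_applyFun (l : ℂ →ₗ[ℚ] ℚ) (f : PowerSeries ℂ) : IsRat (applyFun l f) :=
  fun n => ⟨l (coeff n f), by simp⟩

theorem applyFun_rat_mul (l : ℂ →ₗ[ℚ] ℚ) {ψ : PowerSeries ℂ} (hψ : IsRat ψ) (f : PowerSeries ℂ) :
    applyFun l (ψ * f) = ψ * applyFun l f := by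
  ext n
  rw [coeff_applyFun, coeff_mul, coeff_mul, map_sum]
  push_cast
  apply Finset.sum_congr rfl
  rintro ⟨i, j⟩ _
  obtain ⟨r, hr⟩ := hψ i
  simp only [coeff_applyFun, hr]
  have : (r : ℂ) * coeff j f = r • coeff j f := by
    rw [Rat.smul_def]
  rw [this, map_smul]
  simp

theorem applyFun_mul_rat (l : ℂ →ₗ[ℚ] ℚ) {ψ : PowerSeries ℂ} (hψ : IsRat ψ) (f : PowerSeries ℂ) :
    applyFun l (f * ψ) = applyFun l f * ψ := by
  rw [mul_comm, applyFun_rat_mul l hψ, mul_comm]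

theorem applyFun_smul_rat (l : ℂ →ₗ[ℚ] ℚ) {ψ : PowerSeries ℂ} (hψ : IsRat ψ) (c : ℂ) :
    applyFun l (c • ψ) = ((l c : ℚ) : ℂ) • ψ := by
  have h1 : c • ψ = ψ * C c := by
    ext n; simp [mul_comm]
  have h2 : applyFun l (C c) = C ((l c : ℚ) : ℂ) := by
    ext n
    rw [coeff_applyFun, coeff_C, coeff_C]
    split_ifs <;> simp
  rw [h1, applyFun_rat_mul l hψ, h2]
  ext n; simp [mul_comm]

theorem applyFun_of_isRat {l : ℂ →ₗ[ℚ] ℚ} (hl : l 1 = 1) {ψ : PowerSeries ℂ} (hψ : IsRat ψ) :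
    applyFun l ψ = ψ := by
  ext n
  obtain ⟨r, hr⟩ := hψ n
  rw [coeff_applyFun, hr]
  have : (r : ℂ) = r • (1 : ℂ) := by rw [Rat.smul_def, mul_one]
  rw [this, map_smul, hl]
  simp

theorem isBddDen_applyFun_of_mem_span (l : ℂ →ₗ[ℚ] ℚ) {𝔐 : Set (PowerSeries ℂ)}
    (h𝔐 : ∀ M ∈ 𝔐, IsBddDen M) {x : PowerSeries ℂ} (hx : x ∈ Submodule.span ℂ 𝔐) :
    IsBddDen (applyFun l x) := by
  have key : ∀ c : ℂ, IsBddDen (applyFun l (c • x)) := by
    induction hx using Submodule.span_induction with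
    | mem M hM =>
      intro c
      rw [applyFun_smul_rat l (h𝔐 M hM).isRat]
      exact (h𝔐 M hM).smul_rat _
    | zero => intro c; simpa [applyFun_zero] using isBddDen_zero
    | add x y _ _ hx hy =>
      intro c
      rw [smul_add, applyFun_add]
      exact (hx c).add (hy c)
    | smul a x _ hx =>
      intro c
      rw [smul_smul]
      exact hx (c * a)
  simpa using key 1

theorem exists_functional_ne_zero {w : ℂ} (hw : w ≠ 0) : ∃ l : ℂ →ₗ[ℚ] ℚ, l w ≠ 0 := by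
  by_contra h
  push Not at h
  exact hw ((Module.forall_dual_apply_eq_zero_iff ℚ w).mp h)

theorem exists_functional_one : ∃ l : ℂ →ₗ[ℚ] ℚ, l 1 = 1 := by
  obtain ⟨l, hl⟩ := exists_functional_ne_zero (one_ne_zero : (1 : ℂ) ≠ 0)
  exact ⟨(l 1)⁻¹ • l, by simp [hl]⟩

end Functional

theorem natCast_ne_zero' {D : ℕ} (hD : D ≠ 0) : (D : PowerSeries ℂ) ≠ 0 := by
  intro h
  have h1 := congrArg (constantCoeff (R := ℂ)) h
  rw [map_natCast, map_zero] at h1
  exact hD (by exact_mod_cast h1)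

theorem exists_common_den {ι : Type*} (s : Finset ι) (f : ι → PowerSeries ℂ)
    (hf : ∀ i ∈ s, IsBddDen (f i)) :
    ∃ D : ℕ, D ≠ 0 ∧ ∀ i ∈ s, IsInt ((D : PowerSeries ℂ) * f i) := by
  classical
  induction s using Finset.induction_on with
  | empty => exact ⟨1, one_ne_zero, by simp⟩
  | insert a s ha ih =>
    obtain ⟨D, hD, h⟩ := ih fun i hi => hf i (Finset.mem_insert_of_mem hi)
    obtain ⟨E, hE, h'⟩ := hf a (Finset.mem_insert_self a s)
    refine ⟨D * E, Nat.mul_ne_zero hD hE, ?_⟩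
    intro i hi
    rcases Finset.mem_insert.mp hi with rfl | hi
    · have : ((D * E : ℕ) : PowerSeries ℂ) * f i = (D : PowerSeries ℂ) * ((E : PowerSeries ℂ) * f i) := by
        push_cast; ring
      rw [this]; exact (isInt_natCast D).mul h'
    · have : ((D * E : ℕ) : PowerSeries ℂ) * f i = (E : PowerSeries ℂ) * ((D : PowerSeries ℂ) * f i) := by
        push_cast; ring
      rw [this]; exact (isInt_natCast E).mul (h i hi)

/-- Bounded denominators: a rational power series with a certificate over series with bounded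
denominators has an integral nonzero integer multiple. -/
theorem exists_isInt_of_cert {Qs Ps : Set (PowerSeries ℂ)} {Es : ℕ → ℕ → Set (PowerSeries ℂ)}
    (hQs : ∀ M ∈ Qs, IsBddDen M) (hPs : ∀ M ∈ Ps, IsBddDen M)
    (hEs : ∀ n i, ∀ M ∈ Es n i, IsBddDen M) {φ : PowerSeries ℂ} (hφ : IsRat φ)
    (h1 : CritI Qs Ps φ) (h2 : CritII Es φ) :
    ∃ D : ℕ, D ≠ 0 ∧ IsInt ((D : PowerSeries ℂ) * φ) := by
  obtain ⟨Q, hQ, P, hP, hQ0, hφQ⟩ := h1
  obtain ⟨n, e, he, hmon⟩ := h2
  -- Part I: an integral nonzero multiplier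
  obtain ⟨n₀, hn₀⟩ : ∃ n₀, coeff n₀ Q ≠ 0 := by
    by_contra hcon
    push Not at hcon
    exact hQ0 (PowerSeries.ext fun n => by simpa using hcon n)
  obtain ⟨l, hl⟩ := exists_functional_ne_zero hn₀
  have hQ' : applyFun l Q ≠ 0 := by
    intro h
    have := congrArg (coeff n₀) h
    simp only [coeff_applyFun, map_zero] at this
    exact hl (by exact_mod_cast this)
  have hφQ' : φ * applyFun l Q = applyFun l P := by
    rw [← applyFun_rat_mul l hφ, hφQ]
  obtain ⟨DQ, hDQ, hDQint⟩ := isBddDen_applyFun_of_mem_span l hQs hQ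
  obtain ⟨DP, hDP, hDPint⟩ := isBddDen_applyFun_of_mem_span l hPs hP
  set c : PowerSeries ℂ := (DP : PowerSeries ℂ) * ((DQ : PowerSeries ℂ) * applyFun l Q) with hc
  have hcint : IsInt c := (isInt_natCast DP).mul hDQint
  have hDQ' : (DQ : PowerSeries ℂ) ≠ 0 := natCast_ne_zero' hDQ
  have hDP' : (DP : PowerSeries ℂ) ≠ 0 := natCast_ne_zero' hDP
  have hc0 : c ≠ 0 := mul_ne_zero hDP' (mul_ne_zero hDQ' hQ')
  have hcφ : IsInt (c * φ) := by
    have : c * φ = (DQ : PowerSeries ℂ) * ((DP : PowerSeries ℂ) * applyFun l P) := by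
      rw [hc, ← hφQ']; ring
    rw [this]
    exact (isInt_natCast DQ).mul hDPint
  -- Part II: a monic equation with rational coefficients of bounded denominators
  obtain ⟨l₁, hl₁⟩ := exists_functional_one
  have hmon' : φ ^ n + ∑ i ∈ Finset.range n, applyFun l₁ (e i) * φ ^ i = 0 := by
    have h := congrArg (applyFun l₁) hmon
    rw [applyFun_add, applyFun_zero, applyFun_of_isRat hl₁ (hφ.pow n), applyFun_sum] at h
    rw [← h]
    congr 1
    apply Finset.sum_congr rfl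
    intro i _
    rw [applyFun_mul_rat l₁ (hφ.pow i)]
  obtain ⟨D, hD, hDint⟩ := exists_common_den (Finset.range n) (fun i => applyFun l₁ (e i))
    (fun i hi => isBddDen_applyFun_of_mem_span l₁ (hEs n i) (he i (Finset.mem_range.mp hi)))
  have hD' : (D : PowerSeries ℂ) ≠ 0 := natCast_ne_zero' hD
  refine ⟨D, hD, ?_⟩
  have hrat : IsRat ((D : PowerSeries ℂ) * φ) := (isInt_natCast D).isRat.mul hφ
  have hch : IsInt (c * ((D : PowerSeries ℂ) * φ)) := by
    have : c * ((D : PowerSeries ℂ) * φ) = (D : PowerSeries ℂ) * (c * φ) := by ring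
    rw [this]; exact (isInt_natCast D).mul hcφ
  refine IntClosed.isInt_of_monic hrat hcint hc0 hch (n := n)
    (fun i => (D : PowerSeries ℂ) ^ (n - 1 - i) * ((D : PowerSeries ℂ) * applyFun l₁ (e i))) ?_ ?_
  · intro i hi
    exact ((isInt_natCast D).pow _).mul (hDint i (Finset.mem_range.mpr hi))
  · have : ((D : PowerSeries ℂ) * φ) ^ n + ∑ i ∈ Finset.range n,
        (D : PowerSeries ℂ) ^ (n - 1 - i) * ((D : PowerSeries ℂ) * applyFun l₁ (e i)) *
          ((D : PowerSeries ℂ) * φ) ^ i =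
        (D : PowerSeries ℂ) ^ n * (φ ^ n + ∑ i ∈ Finset.range n, applyFun l₁ (e i) * φ ^ i) := by
      rw [mul_add, Finset.mul_sum, mul_pow]
      congr 1
      apply Finset.sum_congr rfl
      intro i hi
      rw [Finset.mem_range] at hi
      have hn : n = (n - 1 - i) + 1 + i := by omega
      conv_rhs => rw [hn, pow_add, pow_succ]
      rw [mul_pow]; ring
    rw [this, hmon', mul_zero]

end Fermat.Agent.S23.Cert
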