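import Mathlib
import Fermat.Prelude.Def_CuspForm_IntegralStructure
import Fermat.Prelude.Thm_ModularForm_sturm_bound_Gamma0
import Fermat.Prelude.Thm_CongruenceSubgroup_one_mem_strictPeriods_Gamma0
import Fermat.Agent.S23.AutDescent
import Fermat.Agent.S23.Cert

set_option autoImplicit false

namespace Fermat.Agent.S23.Endgame

open PowerSeries UpperHalfPlane Fermat.Agent.S23.Series

variable (N : ℕ)

theorem one_mem_strictPeriods :
    (1 : ℝ) ∈ (CongruenceSubgroup.Gamma0 N : Subgroup (GL (Fin 2) ℝ)).strictPeriods :=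
  CongruenceSubgroup.one_mem_strictPeriods_Gamma0 N

/-- The `q`-expansion as a linear map on weight-`k` cusp forms of level `Γ₀(N)`. -/
noncomputable def qExpLin (k : ℤ) :
    CuspForm (CongruenceSubgroup.Gamma0 N) k →ₗ[ℂ] PowerSeries ℂ where
  toFun f := qExpansion 1 f
  map_add' f g := by
    rw [FunLike.coe_add]
    exact ModularForm.qExpansion_add one_pos (one_mem_strictPeriods N) f g
  map_smul' c f := by
    rw [FunLike.coe_smul]
    exact ModularForm.qExpansion_smul one_pos (one_mem_strictPeriods N) c f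

@[simp] theorem qExpLin_apply (k : ℤ) (f : CuspForm (CongruenceSubgroup.Gamma0 N) k) :
    qExpLin N k f = qExpansion 1 f := rfl

/-- Sturm bound for cusp forms. -/
theorem eq_zero_of_coeff_eq_zero [NeZero N] {k : ℤ} (f : CuspForm (CongruenceSubgroup.Gamma0 N) k)
    (h : ∀ n : ℕ, n ≤ (k * (CongruenceSubgroup.Gamma0 N).index).toNat / 12 →
      (qExpansion 1 f).coeff n = 0) : f = 0 := by
  have h0 := ModularForm.sturm_bound_Gamma0 N (ModularFormClass.modularForm f) h
  ext τ
  have := congrArg (fun g : ModularForm (CongruenceSubgroup.Gamma0 N) k => g τ) h0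
  simpa using this

/-- The abstract endgame: if the set of `q`-expansions of weight-2 cusp forms of level `Γ₀(N)`
is cut out by a criterion that is stable under automorphisms of `ℂ` and forces bounded
denominators on rational series, then `S₂(Γ₀(N))` has an integral structure. -/
theorem hasIntegralStructure_of_crit [NeZero N] (k : ℤ) (Crit : PowerSeries ℂ → Prop)
    (h1 : ∀ φ, (∃ f : CuspForm (CongruenceSubgroup.Gamma0 N) k, qExpansion 1 f = φ) ↔ Crit φ)
    (h2 : ∀ σ : ℂ ≃+* ℂ, ∀ φ, Crit φ → Crit (PowerSeries.map (σ : ℂ →+* ℂ) φ))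
    (h3 : ∀ φ, IsRat φ → Crit φ → ∃ D : ℕ, D ≠ 0 ∧ IsInt ((D : PowerSeries ℂ) * φ)) :
    CuspForm.HasIntegralStructure N k := by
  set V : Submodule ℂ (PowerSeries ℂ) := LinearMap.range (qExpLin N k) with hV
  set B : ℕ := (k * (CongruenceSubgroup.Gamma0 N).index).toNat / 12 with hB
  have hinj : ∀ f ∈ V, (∀ n ≤ B, coeff n f = 0) → f = 0 := by
    rintro _ ⟨f, rfl⟩ hf
    rw [eq_zero_of_coeff_eq_zero N f hf, map_zero]
  have hσ : ∀ (σ : ℂ ≃+* ℂ), ∀ f ∈ V, PowerSeries.map (σ : ℂ →+* ℂ) f ∈ V := by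
    rintro σ _ ⟨f, rfl⟩
    obtain ⟨g, hg⟩ := (h1 _).mpr (h2 σ _ ((h1 _).mp ⟨f, rfl⟩))
    exact ⟨g, hg⟩
  have hdesc := AutDescent.mem_span_isRat V B hinj hσ
  have hinj' : Function.Injective (qExpLin N k) := by
    rw [← LinearMap.ker_eq_bot, LinearMap.ker_eq_bot']
    intro f hf
    apply eq_zero_of_coeff_eq_zero N f
    intro n _
    rw [← qExpLin_apply, hf]; simp
  -- rational forms lie in the complex span of the integral lattice
  have hrat : ∀ g : CuspForm (CongruenceSubgroup.Gamma0 N) k, IsRat (qExpansion 1 g) →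
      g ∈ Submodule.span ℂ ((CuspForm.intLattice N k : Submodule ℤ _) : Set _) := by
    intro g hg
    obtain ⟨D, hD, hDint⟩ := h3 _ hg ((h1 _).mp ⟨g, rfl⟩)
    have hD' : (D : ℂ) ≠ 0 := Nat.cast_ne_zero.mpr hD
    have hq : qExpansion 1 (((D : ℂ) • g : CuspForm (CongruenceSubgroup.Gamma0 N) k) : ℍ → ℂ) =
        (D : PowerSeries ℂ) * qExpansion 1 g := by
      have h4 := (qExpLin N k).map_smul (D : ℂ) g
      simp only [qExpLin_apply] at h4
      rw [h4]
      ext n
      rw [show (D : PowerSeries ℂ) = C (D : ℂ) from (map_natCast (C (R := ℂ)) D).symm, coeff_C_mul]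
      simp
    have hmem : (D : ℂ) • g ∈ CuspForm.intLattice N k := by
      apply Submodule.subset_span
      intro n
      obtain ⟨m, hm⟩ := hDint n
      refine ⟨m, ?_⟩
      change (qExpansion 1 (((D : ℂ) • g : CuspForm (CongruenceSubgroup.Gamma0 N) k) : ℍ → ℂ)).coeff n = _
      rw [hq]
      exact hm
    have : g = (D : ℂ)⁻¹ • ((D : ℂ) • g) := by
      rw [smul_smul, inv_mul_cancel₀ hD', one_smul]
    rw [this]
    exact Submodule.smul_mem _ _ (Submodule.subset_span hmem)
  rw [CuspForm.HasIntegralStructure, eq_top_iff]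
  intro f _
  have hf : qExpLin N k f ∈ Submodule.span ℂ {g | g ∈ V ∧ IsRat g} :=
    hdesc _ ⟨f, rfl⟩
  -- pull back along the injective map `qExpLin`
  have hsub : Submodule.span ℂ {g | g ∈ V ∧ IsRat g} ≤
      Submodule.map (qExpLin N k)
        (Submodule.span ℂ ((CuspForm.intLattice N k : Submodule ℤ _) : Set _)) := by
    rw [Submodule.span_le]
    rintro _ ⟨⟨g, rfl⟩, hg⟩
    exact ⟨g, hrat g hg, rfl⟩
  obtain ⟨f', hf', hff'⟩ := hsub hf
  rw [← hinj' hff']
  exact hf'

end Fermat.Agent.S23.Endgame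

namespace Fermat.Agent.S23.Endgame

open PowerSeries UpperHalfPlane Fermat.Agent.S23.Series Fermat.Agent.S23.Cert

/-- The endgame in certificate form: it suffices to characterise the `q`-expansions of cusp forms
by certificates `φ * Q = P` (with `Q ≠ 0`, `Q ∈ span ℂ (Qs w)`, `P ∈ span ℂ (Ps w)` for some `w`)
together with a monic relation whose coefficients lie in `span ℂ (Es n i)`, where all the
generating series have bounded denominators. -/
theorem hasIntegralStructure_of_cert (N : ℕ) [NeZero N] (k : ℤ) {W : Type*}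
    (Qs Ps : W → Set (PowerSeries ℂ)) (Es : ℕ → ℕ → Set (PowerSeries ℂ))
    (hQs : ∀ w, ∀ M ∈ Qs w, IsBddDen M) (hPs : ∀ w, ∀ M ∈ Ps w, IsBddDen M)
    (hEs : ∀ n i, ∀ M ∈ Es n i, IsBddDen M)
    (h : ∀ φ, (∃ f : CuspForm (CongruenceSubgroup.Gamma0 N) k, qExpansion 1 f = φ) ↔
      ((∃ w, CritI (Qs w) (Ps w) φ) ∧ CritII Es φ)) :
    CuspForm.HasIntegralStructure N k := by
  refine hasIntegralStructure_of_crit N k _ h ?_ ?_
  · rintro σ φ ⟨⟨w, hw⟩, h2⟩
    exact ⟨⟨w, hw.map (fun M hM => (hQs w M hM).isRat) (fun M hM => (hPs w M hM).isRat) _⟩,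
      h2.map (fun n i M hM => (hEs n i M hM).isRat) _⟩
  · rintro φ hφ ⟨⟨w, hw⟩, h2⟩
    exact exists_isInt_of_cert (hQs w) (hPs w) hEs hφ hw h2

end Fermat.Agent.S23.Endgame
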