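import Mathlib
import Fermat.Agent.S23.Basic
import Fermat.Agent.S23.Defs
import Fermat.Agent.S23.Endgame

set_option autoImplicit false

namespace Fermat.Agent.S23.Wiring

open UpperHalfPlane ModularForm PowerSeries
open Fermat.Agent.S23 Fermat.Agent.S23.Series Fermat.Agent.S23.Cert
open scoped MatrixGroups Manifold

/-! ### Nice functions: `1`-periodic, holomorphic, bounded at `i∞` -/

/-- A function on the upper half plane which is `1`-periodic, holomorphic and bounded at `i∞`. -/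
structure IsNice (f : ℍ → ℂ) : Prop where
  per : Function.Periodic (f ∘ ofComplex) 1
  hol : MDiff f
  bdd : IsBoundedAtImInfty f

namespace IsNice

variable {f g : ℍ → ℂ}

theorem analytic (hf : IsNice f) : AnalyticAt ℂ (cuspFunction 1 f) 0 :=
  analyticAt_cuspFunction_zero one_pos hf.per hf.hol hf.bdd

theorem add (hf : IsNice f) (hg : IsNice g) : IsNice (f + g) :=
  ⟨hf.per.add hg.per, hf.hol.add hg.hol, hf.bdd.add hg.bdd⟩

theorem mul (hf : IsNice f) (hg : IsNice g) : IsNice (f * g) :=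
  ⟨hf.per.mul hg.per, hf.hol.mul hg.hol, hf.bdd.mul hg.bdd⟩

theorem one : IsNice (1 : ℍ → ℂ) :=
  ⟨fun _ => rfl, mdifferentiable_const, Filter.const_boundedAtFilter _ _⟩

theorem zero : IsNice (0 : ℍ → ℂ) :=
  ⟨fun _ => rfl, mdifferentiable_const, Filter.const_boundedAtFilter _ _⟩

theorem pow (hf : IsNice f) (n : ℕ) : IsNice (f ^ n) := by
  induction n with
  | zero => simpa using one
  | succ n ih => rw [pow_succ]; exact ih.mul hf

theorem sum {ι : Type*} {s : Finset ι} {F : ι → ℍ → ℂ} (hF : ∀ i ∈ s, IsNice (F i)) :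
    IsNice (∑ i ∈ s, F i) := by
  classical
  induction s using Finset.induction_on with
  | empty => simpa using zero
  | insert a s ha ih =>
    rw [Finset.sum_insert ha]
    exact (hF a (Finset.mem_insert_self a s)).add
      (ih fun i hi => hF i (Finset.mem_insert_of_mem hi))

theorem qExp_add (hf : IsNice f) (hg : IsNice g) :
    qExpansion 1 (f + g) = qExpansion 1 f + qExpansion 1 g :=
  qExpansion_add hf.analytic hg.analytic

theorem qExp_mul (hf : IsNice f) (hg : IsNice g) :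
    qExpansion 1 (f * g) = qExpansion 1 f * qExpansion 1 g :=
  qExpansion_mul hf.analytic hg.analytic

theorem qExp_pow (hf : IsNice f) (n : ℕ) : qExpansion 1 (f ^ n) = qExpansion 1 f ^ n := by
  induction n with
  | zero => simpa using qExpansion_one 1
  | succ n ih => rw [pow_succ, pow_succ, qExp_mul (hf.pow n) hf, ih]

theorem qExp_sum {ι : Type*} {s : Finset ι} {F : ι → ℍ → ℂ} (hF : ∀ i ∈ s, IsNice (F i)) :
    qExpansion 1 (∑ i ∈ s, F i) = ∑ i ∈ s, qExpansion 1 (F i) := by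
  classical
  induction s using Finset.induction_on with
  | empty => simpa using qExpansion_zero 1
  | insert a s ha ih =>
    rw [Finset.sum_insert ha, Finset.sum_insert ha,
      qExp_add (hF a (Finset.mem_insert_self a s))
        (sum fun i hi => hF i (Finset.mem_insert_of_mem hi)),
      ih fun i hi => hF i (Finset.mem_insert_of_mem hi)]

theorem eq_zero (hf : IsNice f) (h : qExpansion 1 f = 0) : f = 0 :=
  (qExpansion_eq_zero_iff one_pos hf.per hf.hol hf.bdd).mp h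

end IsNice

/-- Modular forms for a group having `1` as a strict period are nice. -/
theorem isNice_of_modularFormClass {F : Type*} [FunLike F ℍ ℂ] {Γ : Subgroup (GL (Fin 2) ℝ)}
    {k : ℤ} [ModularFormClass F Γ k] (hΓ : (1 : ℝ) ∈ Γ.strictPeriods) (f : F) :
    IsNice (f : ℍ → ℂ) :=
  have : Fact (IsCusp OnePoint.infty Γ) := ⟨Γ.isCusp_of_mem_strictPeriods one_pos hΓ⟩
  ⟨SlashInvariantFormClass.periodic_comp_ofComplex f hΓ, ModularFormClass.holo f,
    ModularFormClass.bdd_at_infty f⟩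

variable (N : ℕ)

theorem hG0 : (1 : ℝ) ∈ (G0 N).strictPeriods := Endgame.one_mem_strictPeriods N

theorem hSL : (1 : ℝ) ∈ (𝒮ℒ).strictPeriods := _root_.one_mem_strictPeriods_SL

/-- `q`-expansion as a linear map on modular forms of level `Γ₀(N)`. -/
noncomputable def qMF (w : ℤ) : ModularForm (G0 N) w →ₗ[ℂ] PowerSeries ℂ where
  toFun h := qExpansion 1 h
  map_add' f g := by
    rw [FunLike.coe_add]
    exact ModularForm.qExpansion_add one_pos (hG0 N) f g
  map_smul' c f := by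
    rw [FunLike.coe_smul]
    exact ModularForm.qExpansion_smul one_pos (hG0 N) c f

/-- `q`-expansion as a linear map on cusp forms of level one. -/
noncomputable def qCF (K : ℤ) : CuspForm 𝒮ℒ K →ₗ[ℂ] PowerSeries ℂ where
  toFun h := qExpansion 1 h
  map_add' f g := by
    rw [FunLike.coe_add]
    exact ModularForm.qExpansion_add one_pos hSL f g
  map_smul' c f := by
    rw [FunLike.coe_smul]
    exact ModularForm.qExpansion_smul one_pos hSL c f

/-- Generators for numerators/denominators: `q`-expansions of weight-`w` forms on `Γ₀(N)` with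
integral `q`-expansion. -/
def Qs (w : ℤ) : Set (PowerSeries ℂ) :=
  {p | ∃ h : ModularForm (G0 N) w, Defs.IsIntPS (qExpansion 1 h) ∧ qExpansion 1 h = p}

/-- Generators for the coefficients of the monic relation: `q`-expansions of level-one cusp
forms with integral `q`-expansion, of weight `k * (s + 1)` for the coefficient of `φ ^ i`,
`s + i + 1 = n`. -/
def Es (k : ℤ) (n i : ℕ) : Set (PowerSeries ℂ) :=
  {p | ∃ s : Fin n, (s : ℕ) + i + 1 = n ∧ ∃ c : CuspForm 𝒮ℒ (k * ((s : ℕ) + 1)),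
    Defs.IsIntPS (qExpansion 1 c) ∧ qExpansion 1 c = p}

theorem isBddDen_of_mem_Qs {w : ℤ} {M : PowerSeries ℂ} (hM : M ∈ Qs N w) : IsBddDen M := by
  obtain ⟨h, hh, rfl⟩ := hM
  exact IsInt.isBddDen hh

theorem isBddDen_of_mem_Es {k : ℤ} {n i : ℕ} {M : PowerSeries ℂ} (hM : M ∈ Es k n i) :
    IsBddDen M := by
  obtain ⟨s, _, c, hc, rfl⟩ := hM
  exact IsInt.isBddDen hc

theorem exists_of_mem_span_Qs {w : ℤ} {x : PowerSeries ℂ} (hx : x ∈ Submodule.span ℂ (Qs N w)) :
    ∃ h : ModularForm (G0 N) w, qExpansion 1 h = x := by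
  have : Submodule.span ℂ (Qs N w) ≤ LinearMap.range (qMF N w) := by
    rw [Submodule.span_le]
    rintro _ ⟨h, _, rfl⟩
    exact ⟨h, rfl⟩
  exact this hx

theorem exists_of_mem_span_Es {k : ℤ} {n i : ℕ} (s : Fin n) (hs : (s : ℕ) + i + 1 = n)
    {x : PowerSeries ℂ} (hx : x ∈ Submodule.span ℂ (Es k n i)) :
    ∃ c : CuspForm 𝒮ℒ (k * ((s : ℕ) + 1)), qExpansion 1 c = x := by
  have : Submodule.span ℂ (Es k n i) ≤ LinearMap.range (qCF (k * ((s : ℕ) + 1))) := by
    rw [Submodule.span_le]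
    rintro _ ⟨s', hs', c, _, rfl⟩
    have : s' = s := Fin.ext (by omega)
    subst this
    exact ⟨c, rfl⟩
  exact this hx

theorem mem_span_Qs_of_mem_ratSpan {w : ℤ} {Q : ModularForm (G0 N) w}
    (hQ : Q ∈ Defs.ratSpan (G0 N) w) : qExpansion 1 Q ∈ Submodule.span ℂ (Qs N w) := by
  have h1 : qMF N w Q ∈ Submodule.map (qMF N w) (Defs.ratSpan (G0 N) w) := ⟨Q, hQ, rfl⟩
  rw [Defs.ratSpan, Submodule.map_span] at h1
  refine Submodule.span_mono ?_ h1
  rintro _ ⟨h, hh, rfl⟩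
  exact ⟨h, hh, rfl⟩

theorem mem_span_Es_of_mem_span {k : ℤ} {n i : ℕ} (s : Fin n) (hs : (s : ℕ) + i + 1 = n)
    {c : CuspForm 𝒮ℒ (k * ((s : ℕ) + 1))}
    (hc : c ∈ Submodule.span ℂ {h : CuspForm 𝒮ℒ (k * ((s : ℕ) + 1)) |
      Defs.IsIntPS (qExpansion 1 h)}) :
    qExpansion 1 c ∈ Submodule.span ℂ (Es k n i) := by
  have h1 : qCF (k * ((s : ℕ) + 1)) c ∈ Submodule.map (qCF (k * ((s : ℕ) + 1)))
      (Submodule.span ℂ {h : CuspForm 𝒮ℒ (k * ((s : ℕ) + 1)) | Defs.IsIntPS (qExpansion 1 h)}) :=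
    ⟨c, hc, rfl⟩
  rw [Submodule.map_span] at h1
  refine Submodule.span_mono ?_ h1
  rintro _ ⟨h, hh, rfl⟩
  exact ⟨s, hs, h, hh, rfl⟩

/-- The final wiring: `HasIntegralStructure N k` from the fraction lemma, the norm polynomial,
the level-one cusp adapter and the integrality criterion. -/
theorem hasIntegralStructure_of_parts [NeZero N] (k : ℤ)
    (hfrac : ∀ f : CuspForm (G0 N) k, ∃ (w : ℤ) (Q : ModularForm (G0 N) w)
      (P : ModularForm (G0 N) (w + k)), Q ≠ 0 ∧ (∀ τ : ℍ, f τ * Q τ = P τ) ∧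
      Q ∈ Defs.ratSpan (G0 N) w ∧ P ∈ Defs.ratSpan (G0 N) (w + k))
    (hnorm : ∀ f : CuspForm (G0 N) k, ∃ (n : ℕ)
      (c : (s : Fin n) → CuspForm 𝒮ℒ (k * ((s : ℕ) + 1))),
      ∀ τ : ℍ, f τ ^ n + ∑ s : Fin n, c s τ * f τ ^ (n - 1 - (s : ℕ)) = 0)
    (hcusp : ∀ (K : ℤ) (g : CuspForm 𝒮ℒ K),
      g ∈ Submodule.span ℂ {h : CuspForm 𝒮ℒ K | Defs.IsIntPS (qExpansion 1 h)})
    (hint : ∀ {w : ℤ} (P : ModularForm (G0 N) (w + k)) (Q : ModularForm (G0 N) w), Q ≠ 0 →
      ∀ (n : ℕ) (c : (s : Fin n) → CuspForm 𝒮ℒ (k * ((s : ℕ) + 1))),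
      (∀ τ : ℍ, P τ ^ n + ∑ s : Fin n, c s τ * P τ ^ (n - 1 - (s : ℕ)) * Q τ ^ ((s : ℕ) + 1) = 0) →
      ∃ F : CuspForm (G0 N) k, ∀ τ : ℍ, F τ * Q τ = P τ) :
    CuspForm.HasIntegralStructure N k := by
  refine Endgame.hasIntegralStructure_of_cert N k (Qs N) (fun w => Qs N (w + k)) (Es k)
    (fun w M hM => isBddDen_of_mem_Qs N hM) (fun w M hM => isBddDen_of_mem_Qs N hM)
    (fun n i M hM => isBddDen_of_mem_Es hM) ?_
  intro φ
  constructor
  · -- forward direction
    rintro ⟨f, rfl⟩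
    have hfn : IsNice (f : ℍ → ℂ) := isNice_of_modularFormClass (hG0 N) f
    constructor
    · obtain ⟨w, Q, P, hQ0, hfQ, hQr, hPr⟩ := hfrac f
      refine ⟨w, qExpansion 1 Q, mem_span_Qs_of_mem_ratSpan N hQr, qExpansion 1 P,
        mem_span_Qs_of_mem_ratSpan N hPr, ?_, ?_⟩
      · exact fun h => hQ0 ((ModularForm.qExpansion_eq_zero_iff one_pos (hG0 N) Q).mp h)
      · have hQn : IsNice (Q : ℍ → ℂ) := isNice_of_modularFormClass (hG0 N) Q
        rw [← hfn.qExp_mul hQn]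
        congr 1
        funext τ
        exact hfQ τ
    · obtain ⟨n, c, hrel⟩ := hnorm f
      have hcn : ∀ s : Fin n, IsNice (c s : ℍ → ℂ) := fun s => isNice_of_modularFormClass hSL (c s)
      refine ⟨n, fun i => if h : i < n then qExpansion 1 (c ⟨n - 1 - i, by omega⟩) else 0, ?_, ?_⟩
      · intro i hi
        beta_reduce
        rw [dif_pos hi]
        exact mem_span_Es_of_mem_span ⟨n - 1 - i, by omega⟩ (by simp; omega) (hcusp _ _)
      · have hfun : (f : ℍ → ℂ) ^ n + ∑ s : Fin n, (c s : ℍ → ℂ) * (f : ℍ → ℂ) ^ (n - 1 - (s : ℕ)) = 0 := by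
          funext τ
          simpa using hrel τ
        have hq := congrArg (qExpansion 1) hfun
        rw [(hfn.pow n).qExp_add (IsNice.sum fun s _ => (hcn s).mul (hfn.pow _)),
          hfn.qExp_pow, IsNice.qExp_sum (fun s _ => (hcn s).mul (hfn.pow _)), qExpansion_zero] at hq
        refine Eq.trans ?_ hq
        congr 1
        rw [← Finset.sum_range_reflect, Finset.sum_range fun i => _]
        apply Finset.sum_congr rfl
        intro s _
        rw [(hcn s).qExp_mul (hfn.pow _), hfn.qExp_pow]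
        have h1 : n - 1 - (s : ℕ) < n := by omega
        have h2 : n - 1 - (n - 1 - (s : ℕ)) = (s : ℕ) := by omega
        beta_reduce
        rw [dif_pos h1]
        have h3 : (⟨n - 1 - (n - 1 - (s : ℕ)), by omega⟩ : Fin n) = s := Fin.ext h2
        rw [h3]
  · -- backward direction
    rintro ⟨⟨w, Q, hQ, P, hP, hQ0, hφQ⟩, n, e, he, hmon⟩
    obtain ⟨Qf, rfl⟩ := exists_of_mem_span_Qs N hQ
    obtain ⟨Pf, rfl⟩ := exists_of_mem_span_Qs N hP
    have hQf0 : Qf ≠ 0 := by
      rintro rfl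
      apply hQ0
      simpa using qExpansion_zero 1
    have hc : ∀ s : Fin n, ∃ c : CuspForm 𝒮ℒ (k * ((s : ℕ) + 1)),
        qExpansion 1 c = e (n - 1 - (s : ℕ)) := fun s =>
      exists_of_mem_span_Es s (by omega) (he _ (by omega))
    choose c hcq using hc
    have hPn : IsNice (Pf : ℍ → ℂ) := isNice_of_modularFormClass (hG0 N) Pf
    have hQn : IsNice (Qf : ℍ → ℂ) := isNice_of_modularFormClass (hG0 N) Qf
    have hcn : ∀ s : Fin n, IsNice (c s : ℍ → ℂ) := fun s => isNice_of_modularFormClass hSL (c s)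
    set R : ℍ → ℂ := (Pf : ℍ → ℂ) ^ n + ∑ s : Fin n, (c s : ℍ → ℂ) *
      (Pf : ℍ → ℂ) ^ (n - 1 - (s : ℕ)) * (Qf : ℍ → ℂ) ^ ((s : ℕ) + 1) with hR
    have hRn : IsNice R :=
      (hPn.pow n).add (IsNice.sum fun s _ => ((hcn s).mul (hPn.pow _)).mul (hQn.pow _))
    have hRq : qExpansion 1 R = 0 := by
      rw [hR, (hPn.pow n).qExp_add (IsNice.sum fun s _ => ((hcn s).mul (hPn.pow _)).mul (hQn.pow _)),
        hPn.qExp_pow, IsNice.qExp_sum (fun s _ => ((hcn s).mul (hPn.pow _)).mul (hQn.pow _))]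
      have hterm : ∀ s : Fin n, qExpansion 1 ((c s : ℍ → ℂ) * (Pf : ℍ → ℂ) ^ (n - 1 - (s : ℕ)) *
          (Qf : ℍ → ℂ) ^ ((s : ℕ) + 1)) =
          qExpansion 1 Qf ^ n * (e (n - 1 - (s : ℕ)) * φ ^ (n - 1 - (s : ℕ))) := by
        intro s
        rw [((hcn s).mul (hPn.pow _)).qExp_mul (hQn.pow _), (hcn s).qExp_mul (hPn.pow _),
          hPn.qExp_pow, hQn.qExp_pow, hcq s, ← hφQ, mul_pow]
        have h3 : qExpansion 1 Qf ^ n =
            qExpansion 1 Qf ^ (n - 1 - (s : ℕ)) * qExpansion 1 Qf ^ ((s : ℕ) + 1) := by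
          rw [← pow_add]
          congr 1
          omega
        rw [h3]
        ring
      rw [Finset.sum_congr rfl fun s _ => hterm s, ← Finset.mul_sum, ← hφQ, mul_pow]
      have hsum : ∑ s : Fin n, e (n - 1 - (s : ℕ)) * φ ^ (n - 1 - (s : ℕ)) =
          ∑ i ∈ Finset.range n, e i * φ ^ i := by
        rw [← Finset.sum_range_reflect, Finset.sum_range fun i => e (n - 1 - i) * φ ^ (n - 1 - i)]
      rw [hsum, mul_comm (φ ^ n), ← mul_add, hmon, mul_zero]
    have hR0 := hRn.eq_zero hRq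
    obtain ⟨F, hF⟩ := hint Pf Qf hQf0 n c (fun τ => by
      have := congrFun hR0 τ
      simpa [hR] using this)
    refine ⟨F, ?_⟩
    have hFn : IsNice (F : ℍ → ℂ) := isNice_of_modularFormClass (hG0 N) F
    have h4 : qExpansion 1 F * qExpansion 1 Qf = φ * qExpansion 1 Qf := by
      rw [← hFn.qExp_mul hQn, hφQ]
      congr 1
      funext τ
      exact hF τ
    exact mul_right_cancel₀ hQ0 h4

end Fermat.Agent.S23.Wiring
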