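import Mathlib
import Fermat.Agent.S23.Basic
import Fermat.Agent.S23.RatSpan
import Fermat.Agent.S23.Integrality
import Fermat.Prelude.Thm_CongruenceSubgroup_one_mem_strictPeriods_Gamma0

set_option autoImplicit false

namespace Fermat.Agent.S23.Backward

open UpperHalfPlane ModularForm Filter Topology Fermat.Agent.S23.RatSpan
open scoped MatrixGroups Manifold

theorem nice_G0 (N : ℕ) {k : ℤ} {F : Type*} [FunLike F ℍ ℂ]
    [ModularFormClass F (G0 N) k] (f : F) : Nice (f : ℍ → ℂ) :=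
  Nice.of_modularForm (CongruenceSubgroup.one_mem_strictPeriods_Gamma0 N) f

theorem nice_SL {k : ℤ} {F : Type*} [FunLike F ℍ ℂ]
    [ModularFormClass F 𝒮ℒ k] (f : F) : Nice (f : ℍ → ℂ) :=
  Nice.of_modularForm _root_.one_mem_strictPeriods_SL f

/-- `q`-expansion relations imply the pointwise monic relation. -/
theorem relation_of_qExp (N : ℕ) [NeZero N] {k w : ℤ}
    (P : ModularForm (G0 N) (w + k)) (Q : ModularForm (G0 N) w) (n : ℕ)
    (c : (s : Fin n) → CuspForm 𝒮ℒ (k * ((s : ℕ) + 1))) (v : PowerSeries ℂ)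
    (h1 : v * qExpansion 1 Q = qExpansion 1 P)
    (h2 : v ^ n + ∑ s : Fin n, qExpansion 1 (c s) * v ^ (n - 1 - (s : ℕ)) = 0) :
    ∀ τ : ℍ, P τ ^ n + ∑ s : Fin n, c s τ * P τ ^ (n - 1 - (s : ℕ)) * Q τ ^ ((s : ℕ) + 1) = 0 := by
  have key : qExpansion 1 P ^ n + ∑ s : Fin n, qExpansion 1 (c s) *
      qExpansion 1 P ^ (n - 1 - (s : ℕ)) * qExpansion 1 Q ^ ((s : ℕ) + 1) = 0 := by
    have hs : ∀ s : Fin n, qExpansion 1 (c s) * qExpansion 1 P ^ (n - 1 - (s : ℕ)) *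
        qExpansion 1 Q ^ ((s : ℕ) + 1) =
        (qExpansion 1 (c s) * v ^ (n - 1 - (s : ℕ))) * qExpansion 1 Q ^ n := by
      intro s
      have hn : n - 1 - (s : ℕ) + ((s : ℕ) + 1) = n := by have := s.2; omega
      have hq : qExpansion 1 Q ^ n =
          qExpansion 1 Q ^ (n - 1 - (s : ℕ)) * qExpansion 1 Q ^ ((s : ℕ) + 1) := by
        rw [← pow_add, hn]
      rw [hq, ← h1, mul_pow]
      ring
    rw [Finset.sum_congr rfl (fun s _ => hs s), ← Finset.sum_mul, ← h1, mul_pow, ← add_mul, h2,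
      zero_mul]
  let Pn : niceSub := ⟨P, nice_G0 N P⟩
  let Qn : niceSub := ⟨Q, nice_G0 N Q⟩
  let cn : Fin n → niceSub := fun s => ⟨c s, nice_SL (c s)⟩
  let H : niceSub := Pn ^ n + ∑ s : Fin n, cn s * Pn ^ (n - 1 - (s : ℕ)) * Qn ^ ((s : ℕ) + 1)
  have hH : qExpHom H = 0 := by
    simp only [H, map_add, map_pow, map_sum, map_mul]
    exact key
  have hH0 : H = 0 := qExpHom_injective (by rw [hH, map_zero])
  intro τ
  have := congrFun (congrArg (fun f : niceSub => (f : ℍ → ℂ)) hH0) τ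
  simpa [H, Pn, Qn, cn] using this

/-- Backward direction, with the integrality criterion as a hypothesis. -/
theorem exists_cuspForm_of_qExp_relations_aux (N : ℕ) [NeZero N] {k w : ℤ}
    (P : ModularForm (G0 N) (w + k)) (Q : ModularForm (G0 N) w) (n : ℕ)
    (c : (s : Fin n) → CuspForm 𝒮ℒ (k * ((s : ℕ) + 1))) (v : PowerSeries ℂ)
    (hcrit : Q ≠ 0 → (∀ τ : ℍ, P τ ^ n + ∑ s : Fin n, c s τ * P τ ^ (n - 1 - (s : ℕ)) *
      Q τ ^ ((s : ℕ) + 1) = 0) → ∃ F : CuspForm (G0 N) k, ∀ τ : ℍ, F τ * Q τ = P τ)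
    (hQ : qExpansion 1 Q ≠ 0) (h1 : v * qExpansion 1 Q = qExpansion 1 P)
    (h2 : v ^ n + ∑ s : Fin n, qExpansion 1 (c s) * v ^ (n - 1 - (s : ℕ)) = 0) :
    ∃ F : CuspForm (G0 N) k, qExpansion 1 F = v := by
  have hQ0 : Q ≠ 0 := by
    rintro rfl
    exact hQ (by rw [FunLike.coe_zero]; exact qExpansion_zero 1)
  obtain ⟨F, hF⟩ := hcrit hQ0 (relation_of_qExp N P Q n c v h1 h2)
  refine ⟨F, ?_⟩
  have hFQ : (F : ℍ → ℂ) * (Q : ℍ → ℂ) = (P : ℍ → ℂ) := funext hF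
  have h3 : qExpansion 1 F * qExpansion 1 Q = qExpansion 1 P := by
    rw [← hFQ, qExpansion_mul (Nice.analytic (nice_G0 N F)) (Nice.analytic (nice_G0 N Q))]
  exact mul_right_cancel₀ hQ (h3.trans h1.symm)

/-- Backward direction: `q`-expansion relations `v * Q = P` and a monic relation for `v`
with level-one cusp form coefficients force `v` to be the `q`-expansion of a cusp form. -/
theorem exists_cuspForm_of_qExp_relations (N : ℕ) [NeZero N] {k w : ℤ}
    (P : ModularForm (G0 N) (w + k)) (Q : ModularForm (G0 N) w) (n : ℕ)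
    (c : (s : Fin n) → CuspForm 𝒮ℒ (k * ((s : ℕ) + 1))) (v : PowerSeries ℂ)
    (hQ : qExpansion 1 Q ≠ 0) (h1 : v * qExpansion 1 Q = qExpansion 1 P)
    (h2 : v ^ n + ∑ s : Fin n, qExpansion 1 (c s) * v ^ (n - 1 - (s : ℕ)) = 0) :
    ∃ F : CuspForm (G0 N) k, qExpansion 1 F = v :=
  exists_cuspForm_of_qExp_relations_aux N P Q n c v
    (fun hQ0 h => Fermat.Agent.S23.Integrality.integrality_criterion N P Q hQ0 n c h) hQ h1 h2

end Fermat.Agent.S23.Backward
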