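import Mathlib
import Fermat.Agent.S23.Basic
import Fermat.Agent.S23.CuspSep

set_option autoImplicit false

open UpperHalfPlane ModularForm CongruenceSubgroup Filter
open scoped MatrixGroups ModularForm

namespace Fermat.Agent.S23

/-- Each factor of the interpolation denominator is eventually nonzero at `i∞`. -/
theorem eventually_factor_ne (N : ℕ) [NeZero N] (a b : ModularForm (G0 N) 12)
    (ha : ∀ τ : ℍ, a τ = E₄ (heckeDiagMatrix N • τ) ^ 3)
    (hb : ∀ τ : ℍ, b τ = CuspForm.discriminant (heckeDiagMatrix N • τ))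
    (q : Q0 N) (hq : q ≠ q1 N) :
    ∀ᶠ τ in atImInfty,
      a τ * SlashInvariantForm.quotientFunc (ℋ := 𝒮ℒ) b q τ
        - SlashInvariantForm.quotientFunc (ℋ := 𝒮ℒ) a q τ * b τ ≠ 0 := by
  induction q using Quotient.inductionOn with
  | h r =>
    obtain ⟨g, hg⟩ := r
    obtain ⟨γ, rfl⟩ := hg
    -- `γ⁻¹ ∉ Γ₀(N)` because the coset is not the trivial one
    have hγ : γ⁻¹ ∉ Gamma0 N := by
      intro hmem
      apply hq
      unfold q1
      show (QuotientGroup.mk (⟨Matrix.SpecialLinearGroup.mapGL ℝ γ, ⟨γ, rfl⟩⟩ : 𝒮ℒ) : Q0 N)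
        = QuotientGroup.mk 1
      rw [QuotientGroup.eq, Subgroup.mem_subgroupOf]
      simp only [InvMemClass.coe_inv, mul_one]
      exact ⟨γ⁻¹, hmem, map_inv _ _⟩
    have hev := CuspSep.eventually_mul_slash_ne (N := N) (NeZero.ne N) hγ
      (a := (a : ℍ → ℂ)) (b := (b : ℍ → ℂ)) (ca := 1) (cb := 1) one_ne_zero one_ne_zero
      (fun τ => by rw [ha τ, one_mul])
      (fun τ => by rw [hb τ, one_mul]; rfl)
    filter_upwards [hev] with τ hτ
    have e : ((Matrix.SpecialLinearGroup.mapGL ℝ) γ)⁻¹ = ((γ⁻¹ : SL(2, ℤ)) : GL (Fin 2) ℝ) := by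
      rw [← map_inv]; rfl
    rw [sub_ne_zero]
    show a τ * ((b : ℍ → ℂ) ∣[(12 : ℤ)] ((Matrix.SpecialLinearGroup.mapGL ℝ) γ)⁻¹) τ
      ≠ ((a : ℍ → ℂ) ∣[(12 : ℤ)] ((Matrix.SpecialLinearGroup.mapGL ℝ) γ)⁻¹) τ * b τ
    rw [e, ← ModularForm.SL_slash]
    exact hτ

theorem Udenom_ne_zero (N : ℕ) [NeZero N] (a b : ModularForm (G0 N) 12)
    (ha : ∀ τ : ℍ, a τ = E₄ (heckeDiagMatrix N • τ) ^ 3)
    (hb : ∀ τ : ℍ, b τ = CuspForm.discriminant (heckeDiagMatrix N • τ)) :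
    ∃ τ : ℍ, Udenom N a b τ ≠ 0 := by
  classical
  let _ := Fintype.ofFinite (Q0 N)
  have hev : ∀ᶠ τ in atImInfty, ∀ q ∈ (Finset.univ.erase (q1 N) : Finset (Q0 N)),
      a τ * SlashInvariantForm.quotientFunc (ℋ := 𝒮ℒ) b q τ
        - SlashInvariantForm.quotientFunc (ℋ := 𝒮ℒ) a q τ * b τ ≠ 0 := by
    rw [Filter.eventually_all_finset]
    intro q hq
    exact eventually_factor_ne N a b ha hb q (Finset.ne_of_mem_erase hq)
  obtain ⟨τ, hτ⟩ := hev.exists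
  refine ⟨τ, ?_⟩
  unfold Udenom
  rw [Finset.prod_ne_zero_iff]
  intro q hq
  convert hτ q (by simpa using hq) using 0
end Fermat.Agent.S23
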