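import Mathlib
import Fermat.Prelude.Def_ModularForm_HeckeOperator
import Fermat.Agent.S23.CuspSep

set_option autoImplicit false

namespace Fermat.Agent.S23.CuspQExp

open ModularForm Filter Function Complex
open UpperHalfPlane hiding I
open scoped MatrixGroups ModularForm Manifold Topology Real

local notation "𝕢" => Periodic.qParam

/-- A wrapper so that plain functions `ℍ → ℂ` can be used with the `FunLike`-based API. -/
def FnLike : Type := ℍ → ℂ

instance : FunLike FnLike ℍ ℂ where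
  coe f := f
  coe_injective _ _ h := h

/-- The upper triangular matrix `[[A, B], [0, D]]` with positive diagonal, as an element of
`GL(2, ℝ)`. -/
noncomputable abbrev triMat (A : ℕ) (B : ℤ) (D : ℕ) (hA : 0 < A) (hD : 0 < D) : GL (Fin 2) ℝ :=
  upperTriangularGL (A : ℝ) (B : ℝ) (D : ℝ)
    (mul_pos (Nat.cast_pos.mpr hA) (Nat.cast_pos.mpr hD)).ne'

/-- The root of unity `exp(2πi B / D)`. -/
noncomputable def zetaBD (B : ℤ) (D : ℕ) : ℂ := cexp (2 * π * I * B / D)

theorem zetaBD_pow_D (B : ℤ) {D : ℕ} (hD : 0 < D) : zetaBD B D ^ D = 1 := by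
  have hD' : (D : ℂ) ≠ 0 := by exact_mod_cast hD.ne'
  rw [zetaBD, ← Complex.exp_nat_mul]
  have : (D : ℂ) * (2 * π * I * B / D) = B * (2 * π * I) := by field_simp
  rw [this]
  exact Complex.exp_int_mul_two_pi_mul_I B

theorem zetaBD_ne_zero (B : ℤ) (D : ℕ) : zetaBD B D ≠ 0 := Complex.exp_ne_zero _

theorem isIntegral_zetaBD (B : ℤ) {D : ℕ} (hD : 0 < D) : IsIntegral ℤ (zetaBD B D) :=
  IsIntegral.of_pow hD (by rw [zetaBD_pow_D B hD]; exact isIntegral_one)

theorem isIntegral_zetaBD_inv (B : ℤ) {D : ℕ} (hD : 0 < D) : IsIntegral ℤ (zetaBD B D)⁻¹ := by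
  have h : (zetaBD B D)⁻¹ = zetaBD B D ^ (D - 1) := by
    have h1 : zetaBD B D * zetaBD B D ^ (D - 1) = 1 := by
      rw [← pow_succ', Nat.sub_add_cancel hD, zetaBD_pow_D B hD]
    exact inv_eq_of_mul_eq_one_right h1
  rw [h]
  exact (isIntegral_zetaBD B hD).pow _

theorem qParam_triMat_smul {A D N : ℕ} (B : ℤ) (hA : 0 < A) (hD : 0 < D) (hADN : A * D = N)
    (τ : ℍ) :
    𝕢 1 (triMat A B D hA hD • τ : ℍ) = zetaBD B D * 𝕢 N τ ^ (A ^ 2) := by
  have hD' : (D : ℂ) ≠ 0 := by exact_mod_cast hD.ne'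
  have hA' : (A : ℂ) ≠ 0 := by exact_mod_cast hA.ne'
  have hN : (N : ℂ) = A * D := by rw [← hADN]; push_cast; ring
  have hcoe : ((triMat A B D hA hD • τ : ℍ) : ℂ) = ((A : ℂ) * τ + B) / D := by
    have := CuspSep.coe_upperTriangularGL_smul (A : ℝ) (B : ℝ) (D : ℝ)
      (Nat.cast_pos.mpr hA) (Nat.cast_pos.mpr hD) τ
    simpa using this
  simp only [Periodic.qParam, zetaBD, ← Complex.exp_nat_mul, ← Complex.exp_add]
  congr 1
  rw [hcoe]
  push_cast
  rw [hN]
  field_simp
  ring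

theorem det_triMat_pos (A : ℕ) (B : ℤ) (D : ℕ) (hA : 0 < A) (hD : 0 < D) :
    0 < (triMat A B D hA hD).det.val := by
  rw [Matrix.GeneralLinearGroup.val_det_apply, val_upperTriangularGL, Matrix.det_fin_two_of]
  have h1 : (0 : ℝ) < A := Nat.cast_pos.mpr hA
  have h2 : (0 : ℝ) < D := Nat.cast_pos.mpr hD
  simpa using mul_pos h1 h2

/-- The `q_N`-expansion coefficients of `τ ↦ G ((A τ + B) / D)`. -/
noncomputable def compCoeff (G : ℍ → ℂ) (A : ℕ) (B : ℤ) (D : ℕ) (m : ℕ) : ℂ :=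
  if A ^ 2 ∣ m then (qExpansion 1 G).coeff (m / A ^ 2) * zetaBD B D ^ (m / A ^ 2) else 0

section comp

variable {G : ℍ → ℂ} {A D N : ℕ} (B : ℤ)

theorem hasSum_comp_triMat (hper : Periodic (G ∘ ofComplex) 1) (hhol : MDiff G)
    (hbdd : IsBoundedAtImInfty G) (hA : 0 < A) (hD : 0 < D) (hADN : A * D = N) (τ : ℍ) :
    HasSum (fun m : ℕ => compCoeff G A B D m • 𝕢 N τ ^ m) (G (triMat A B D hA hD • τ)) := by
  have hs := hasSum_qExpansion one_pos hper hhol hbdd (triMat A B D hA hD • τ)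
  rw [qParam_triMat_smul B hA hD hADN τ] at hs
  simp_rw [mul_pow, ← pow_mul] at hs
  have hA2 : 0 < A ^ 2 := by positivity
  have hinj : Injective (fun m : ℕ ↦ A ^ 2 * m) := mul_right_injective₀ hA2.ne'
  have hsupp : ∀ x ∉ Set.range (fun m : ℕ ↦ A ^ 2 * m),
      (fun m ↦ compCoeff G A B D m • 𝕢 N τ ^ m) x = 0 := by
    intro x hx
    have : ¬ A ^ 2 ∣ x := by
      rintro ⟨d, rfl⟩
      exact hx ⟨d, rfl⟩
    simp [compCoeff, this]
  refine (hinj.hasSum_iff hsupp).mp ?_
  convert hs using 1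
  ext m
  simp [compCoeff, Nat.mul_div_cancel_left _ hA2, mul_assoc]

theorem mdifferentiable_comp_triMat (hhol : MDiff G) (hA : 0 < A) (hD : 0 < D) :
    MDiff (fun τ : ℍ => G (triMat A B D hA hD • τ)) :=
  hhol.comp (mdifferentiable_smul (det_triMat_pos A B D hA hD))

theorem isBoundedAtImInfty_comp_triMat (hbdd : IsBoundedAtImInfty G) (hA : 0 < A) (hD : 0 < D) :
    IsBoundedAtImInfty (fun τ : ℍ => G (triMat A B D hA hD • τ)) :=
  hbdd.comp_tendsto (tendsto_smul_atImInfty (by simp [val_upperTriangularGL]))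

theorem periodic_comp_triMat (hper : Periodic (G ∘ ofComplex) 1) (hhol : MDiff G)
    (hbdd : IsBoundedAtImInfty G) (hA : 0 < A) (hD : 0 < D) (hADN : A * D = N) :
    Periodic ((fun τ : ℍ => G (triMat A B D hA hD • τ)) ∘ ofComplex) (N : ℝ) := by
  intro w
  have hN : (N : ℂ) ≠ 0 := by
    have : 0 < N := by rw [← hADN]; positivity
    exact_mod_cast this.ne'
  rw [Complex.ofReal_natCast]
  by_cases hw : 0 < w.im
  · have hw' : 0 < (w + (N : ℂ)).im := by simpa using hw
    simp only [comp_apply, ofComplex_apply_of_im_pos hw', ofComplex_apply_of_im_pos hw]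
    have h1 := hasSum_comp_triMat B hper hhol hbdd hA hD hADN ⟨w + (N : ℂ), hw'⟩
    have h2 := hasSum_comp_triMat B hper hhol hbdd hA hD hADN ⟨w, hw⟩
    have hq : 𝕢 (N : ℝ) (((⟨w + (N : ℂ), hw'⟩ : ℍ) : ℂ)) = 𝕢 (N : ℝ) (((⟨w, hw⟩ : ℍ) : ℂ)) := by
      simp only [Periodic.qParam]
      have : 2 * π * I * (w + (N : ℂ)) / ((N : ℝ) : ℂ) = 2 * π * I * w / ((N : ℝ) : ℂ) + 2 * π * I := by
        push_cast
        field_simp
      rw [this, Complex.exp_add, Complex.exp_two_pi_mul_I, mul_one]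
    rw [hq] at h1
    exact h1.unique h2
  · have hw1 : w.im ≤ 0 := not_lt.mp hw
    have hw2 : (w + (N : ℂ)).im ≤ 0 := by simpa using hw1
    simp only [comp_apply, ofComplex_apply_of_im_nonpos hw1, ofComplex_apply_of_im_nonpos hw2]

theorem analyticAt_cuspFunction_comp_triMat (hper : Periodic (G ∘ ofComplex) 1) (hhol : MDiff G)
    (hbdd : IsBoundedAtImInfty G) (hA : 0 < A) (hD : 0 < D) (hADN : A * D = N) :
    AnalyticAt ℂ (cuspFunction (N : ℝ) (fun τ : ℍ => G (triMat A B D hA hD • τ))) 0 := by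
  have hN : (0 : ℝ) < N := by
    have : 0 < N := by rw [← hADN]; positivity
    exact_mod_cast this
  exact analyticAt_cuspFunction_zero hN (periodic_comp_triMat B hper hhol hbdd hA hD hADN)
    (mdifferentiable_comp_triMat B hhol hA hD) (isBoundedAtImInfty_comp_triMat B hbdd hA hD)

/-- **`q_N`-expansion at another cusp**: the width-`N` expansion of `τ ↦ G ((A τ + B) / D)`,
`A D = N`, has coefficient `c_n ζ_D^{nB}` at exponent `n A²` and zero elsewhere. -/
theorem qExpansion_comp_triMat_coeff (hper : Periodic (G ∘ ofComplex) 1) (hhol : MDiff G)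
    (hbdd : IsBoundedAtImInfty G) (hA : 0 < A) (hD : 0 < D) (hADN : A * D = N) (m : ℕ) :
    (qExpansion (N : ℝ) (fun τ : ℍ => G (triMat A B D hA hD • τ))).coeff m
      = compCoeff G A B D m := by
  have hN : (0 : ℝ) < N := by
    have : 0 < N := by rw [← hADN]; positivity
    exact_mod_cast this
  have han := analyticAt_cuspFunction_comp_triMat B hper hhol hbdd hA hD hADN
  have key := qExpansion_coeff_unique (F := FnLike)
    (show FnLike from (fun τ : ℍ => G (triMat A B D hA hD • τ))) hN han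
    (hasSum_comp_triMat B hper hhol hbdd hA hD hADN) m
  exact key.symm

theorem isIntegral_compCoeff (hG : ∀ n, IsIntegral ℤ ((qExpansion 1 G).coeff n)) (hD : 0 < D)
    (m : ℕ) : IsIntegral ℤ (compCoeff G A B D m) := by
  unfold compCoeff
  split_ifs
  · exact (hG _).mul ((isIntegral_zetaBD B hD).pow _)
  · exact isIntegral_zero

theorem compCoeff_eq_zero_of_lt {r : ℕ} (h0 : ∀ n < r, (qExpansion 1 G).coeff n = 0) {m : ℕ}
    (hm : m < A ^ 2 * r) : compCoeff G A B D m = 0 := by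
  unfold compCoeff
  split_ifs with h
  · obtain ⟨d, rfl⟩ := h
    have hA2 : 0 < A ^ 2 := Nat.pos_of_ne_zero (by rintro h; rw [h] at hm; simp at hm)
    rw [Nat.mul_div_cancel_left _ hA2, h0 d (lt_of_mul_lt_mul_left hm (Nat.zero_le _)), zero_mul]
  · rfl

theorem compCoeff_sq_mul (hA : 0 < A) (r : ℕ) :
    compCoeff G A B D (A ^ 2 * r) = (qExpansion 1 G).coeff r * zetaBD B D ^ r := by
  have hA2 : 0 < A ^ 2 := by positivity
  simp [compCoeff, Nat.mul_div_cancel_left _ hA2]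

end comp

end Fermat.Agent.S23.CuspQExp
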