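import Mathlib

set_option autoImplicit false

/-!
# S23, package W8': bounded denominators (pure algebra)

If a power series `v` with rational coefficients is a quotient of two `ℂ`-combinations of
integral power series and satisfies a monic equation whose coefficients are `ℂ`-combinations of
integral power series, then `v` has bounded denominators.

Method: apply a `ℚ`-linear functional `ℂ → ℚ` coefficientwise to transport both relations to
`ℚ⟦q⟧`, clear denominators, and use that `ℤ⟦q⟧` is completely integrally closed in `ℚ⟦q⟧`.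
-/

namespace Fermat.Agent.S23.Denominators

noncomputable section

/-- Base change `ℤ⟦q⟧ → ℂ⟦q⟧`. -/
abbrev zc (p : PowerSeries ℤ) : PowerSeries ℂ := PowerSeries.map (Int.castRingHom ℂ) p

/-- Base change `ℤ⟦q⟧ → ℚ⟦q⟧`. -/
abbrev zq (p : PowerSeries ℤ) : PowerSeries ℚ := PowerSeries.map (Int.castRingHom ℚ) p

/-- The subring of `ℚ⟦q⟧` of series with integer coefficients. -/
def intSub : Subring (PowerSeries ℚ) := (PowerSeries.map (Int.castRingHom ℚ)).range

theorem zq_mem_intSub (μ : PowerSeries ℤ) : zq μ ∈ intSub := ⟨μ, rfl⟩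

theorem mem_intSub_iff (p : PowerSeries ℚ) :
    p ∈ intSub ↔ ∀ n, ∃ m : ℤ, PowerSeries.coeff n p = (m : ℚ) := by
  constructor
  · rintro ⟨μ, rfl⟩ n
    exact ⟨PowerSeries.coeff n μ, by simp⟩
  · intro h
    choose m hm using h
    refine ⟨PowerSeries.mk m, ?_⟩
    ext n
    simp [hm n]

theorem C_intCast_mem_intSub (k : ℤ) : PowerSeries.C (k : ℚ) ∈ intSub := by
  rw [mem_intSub_iff]
  intro n
  rw [PowerSeries.coeff_C]
  split_ifs
  · exact ⟨k, rfl⟩
  · exact ⟨0, by simp⟩

theorem C_natCast_mem_intSub (k : ℕ) : PowerSeries.C (k : ℚ) ∈ intSub := by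
  rw [map_natCast]
  exact natCast_mem _ _

/-- A rational number `a` such that `N * a ^ j` is an integer for all `j` (`N ≠ 0` a fixed
integer) is an integer. -/
theorem rat_isInt_of_mul_pow (a : ℚ) (N : ℤ) (hN : N ≠ 0)
    (H : ∀ j : ℕ, ∃ m : ℤ, (N : ℚ) * a ^ j = (m : ℚ)) : ∃ m : ℤ, a = (m : ℚ) := by
  have hden : a.den = 1 := by
    by_contra hne
    have h2 : 2 ≤ a.den := by
      have := a.den_pos
      omega
    obtain ⟨m, hm⟩ := H N.natAbs
    have key : N * a.num ^ N.natAbs = m * (a.den : ℤ) ^ N.natAbs := by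
      have h3 : (N : ℚ) * (a.num : ℚ) ^ N.natAbs = (m : ℚ) * (a.den : ℚ) ^ N.natAbs := by
        rw [← hm, ← Rat.mul_den_eq_num, mul_pow]; ring
      exact_mod_cast h3
    have hcop : IsCoprime ((a.den : ℤ) ^ N.natAbs) (a.num ^ N.natAbs) := by
      apply IsCoprime.pow
      rw [Int.isCoprime_iff_gcd_eq_one]
      have := a.reduced
      rw [Int.gcd_comm]
      simpa [Int.gcd, Nat.Coprime] using this
    have hdvd : ((a.den : ℤ) ^ N.natAbs) ∣ N := by
      have h4 : ((a.den : ℤ) ^ N.natAbs) ∣ N * a.num ^ N.natAbs := ⟨m, by rw [key]; ring⟩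
      exact hcop.dvd_of_dvd_mul_right h4
    have h5 : a.den ^ N.natAbs ≤ N.natAbs := by
      have h6 := Int.natAbs_dvd_natAbs.mpr hdvd
      rw [Int.natAbs_pow, Int.natAbs_natCast] at h6
      exact Nat.le_of_dvd (Int.natAbs_pos.mpr hN) h6
    have h7 : N.natAbs < 2 ^ N.natAbs := Nat.lt_two_pow_self
    have h8 : 2 ^ N.natAbs ≤ a.den ^ N.natAbs := Nat.pow_le_pow_left h2 _
    omega
  exact ⟨a.num, (Rat.coe_int_num_of_den_eq_one hden).symm⟩

/-- `ℤ⟦q⟧` is completely integrally closed in `ℚ⟦q⟧`. -/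
theorem mem_intSub_of_mul_pow (h c : PowerSeries ℚ) (hc0 : c ≠ 0) (hc : c ∈ intSub)
    (H : ∀ j : ℕ, c * h ^ j ∈ intSub) : h ∈ intSub := by
  rw [mem_intSub_iff]
  intro k
  induction k using Nat.strong_induction_on with
  | _ k ih =>
    set t : PowerSeries ℚ := ((PowerSeries.trunc k h : Polynomial ℚ) : PowerSeries ℚ) with ht
    have ht_mem : t ∈ intSub := by
      rw [mem_intSub_iff]
      intro i
      rw [ht, Polynomial.coeff_coe, PowerSeries.coeff_trunc]
      split_ifs with hik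
      · exact ih i hik
      · exact ⟨0, by simp⟩
    have H' : ∀ j : ℕ, c * (h - t) ^ j ∈ intSub := by
      intro j
      rw [sub_eq_add_neg, add_pow, Finset.mul_sum]
      refine Subring.sum_mem _ fun i _ => ?_
      have e1 : c * (h ^ i * (-t) ^ (j - i) * (j.choose i : PowerSeries ℚ))
          = (c * h ^ i) * (-t) ^ (j - i) * (j.choose i : PowerSeries ℚ) := by ring
      rw [e1]
      exact Subring.mul_mem _ (Subring.mul_mem _ (H i)
        (Subring.pow_mem _ (Subring.neg_mem _ ht_mem) _)) (natCast_mem _ _)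
    have hex : ∃ m, PowerSeries.coeff m c ≠ 0 := by
      by_contra hcon
      push Not at hcon
      exact hc0 (PowerSeries.ext fun n => by simpa using hcon n)
    classical
    let m := Nat.find hex
    have hm : PowerSeries.coeff m c ≠ 0 := Nat.find_spec hex
    have hm' : ∀ i < m, PowerSeries.coeff i c = 0 := fun i hi => by
      have := Nat.find_min hex hi
      simpa using this
    obtain ⟨c1, hc1⟩ := PowerSeries.X_pow_dvd_iff.mpr hm'
    have hdvd : (PowerSeries.X : PowerSeries ℚ) ^ k ∣ h - t := by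
      rw [PowerSeries.X_pow_dvd_iff]
      intro i hi
      rw [map_sub, ht, Polynomial.coeff_coe, PowerSeries.coeff_trunc, if_pos hi, sub_self]
    obtain ⟨h1, hh1⟩ := hdvd
    have hck : PowerSeries.coeff k h = PowerSeries.constantCoeff h1 := by
      have e2 : PowerSeries.coeff k (h - t) = PowerSeries.coeff k h := by
        rw [map_sub, ht, Polynomial.coeff_coe, PowerSeries.coeff_trunc, if_neg (lt_irrefl k),
          sub_zero]
      rw [← e2, hh1]
      have := PowerSeries.coeff_X_pow_mul h1 k 0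
      simpa using this
    have hcm : PowerSeries.coeff m c = PowerSeries.constantCoeff c1 := by
      rw [hc1]
      have := PowerSeries.coeff_X_pow_mul c1 m 0
      simpa using this
    obtain ⟨N, hN⟩ := (mem_intSub_iff c).mp hc m
    have hN0 : N ≠ 0 := by
      rintro rfl
      exact hm (by simpa using hN)
    apply rat_isInt_of_mul_pow (PowerSeries.coeff k h) N hN0
    intro j
    obtain ⟨r, hr⟩ := (mem_intSub_iff _).mp (H' j) (m + k * j)
    refine ⟨r, ?_⟩
    rw [← hr, hc1, hh1]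
    have e3 : (PowerSeries.X : PowerSeries ℚ) ^ m * c1 * (PowerSeries.X ^ k * h1) ^ j
        = PowerSeries.X ^ (m + k * j) * (c1 * h1 ^ j) := by
      rw [mul_pow, ← pow_mul, pow_add]; ring
    rw [e3]
    have e4 := PowerSeries.coeff_X_pow_mul (c1 * h1 ^ j) (m + k * j) 0
    rw [zero_add] at e4
    rw [e4, PowerSeries.coeff_zero_eq_constantCoeff_apply, map_mul, map_pow, ← hN, hcm, hck]

/-- A quotient of integral series which is integral over `ℤ⟦q⟧` is integral. -/
theorem mem_intSub_of_monic (g U P : PowerSeries ℚ) (hU0 : U ≠ 0) (hU : U ∈ intSub)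
    (hP : P ∈ intSub) (hg : g * U = P) (n : ℕ) (c : Fin n → PowerSeries ℚ)
    (hc : ∀ s, c s ∈ intSub)
    (hmonic : g ^ n + ∑ s : Fin n, c s * g ^ (n - 1 - (s : ℕ)) = 0) : g ∈ intSub := by
  apply mem_intSub_of_mul_pow g (U ^ n) (pow_ne_zero n hU0) (Subring.pow_mem _ hU n)
  intro j
  induction j using Nat.strong_induction_on with
  | _ j ih =>
    rcases lt_or_ge j n with hj | hj
    · have e1 : U ^ n * g ^ j = U ^ (n - j) * P ^ j := by
        rw [← hg, mul_pow]
        have e2 : U ^ n = U ^ (n - j) * U ^ j := by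
          rw [← pow_add]; congr 1; omega
        rw [e2]; ring
      rw [e1]
      exact Subring.mul_mem _ (Subring.pow_mem _ hU _) (Subring.pow_mem _ hP _)
    · obtain ⟨k, rfl⟩ := Nat.exists_eq_add_of_le hj
      have hgn : g ^ n = - ∑ s : Fin n, c s * g ^ (n - 1 - (s : ℕ)) :=
        eq_neg_of_add_eq_zero_left hmonic
      have e3 : U ^ n * g ^ (n + k)
          = - ∑ s : Fin n, c s * (U ^ n * g ^ (n - 1 - (s : ℕ) + k)) := by
        rw [pow_add, hgn, neg_mul, mul_neg, Finset.sum_mul, Finset.mul_sum]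
        congr 1
        refine Finset.sum_congr rfl fun s _ => ?_
        rw [pow_add]; ring
      rw [e3]
      refine Subring.neg_mem _ (Subring.sum_mem _ fun s _ => ?_)
      exact Subring.mul_mem _ (hc s) (ih _ (by have := s.isLt; omega))

/-- Apply a `ℚ`-linear functional coefficientwise. -/
def coeffMap (φ : ℂ →ₗ[ℚ] ℚ) : PowerSeries ℂ →ₗ[ℚ] PowerSeries ℚ where
  toFun p := PowerSeries.mk fun n => φ (PowerSeries.coeff n p)
  map_add' p p' := by ext n; simp
  map_smul' r p := by ext n; simp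

@[simp] theorem coeff_coeffMap (φ : ℂ →ₗ[ℚ] ℚ) (p : PowerSeries ℂ) (n : ℕ) :
    PowerSeries.coeff n (coeffMap φ p) = φ (PowerSeries.coeff n p) := by
  simp [coeffMap]

theorem coeffMap_map_mul (φ : ℂ →ₗ[ℚ] ℚ) (w : PowerSeries ℚ) (p : PowerSeries ℂ) :
    coeffMap φ (PowerSeries.map (algebraMap ℚ ℂ) w * p) = w * coeffMap φ p := by
  ext n
  rw [coeff_coeffMap, PowerSeries.coeff_mul, PowerSeries.coeff_mul, map_sum]
  refine Finset.sum_congr rfl fun ij _ => ?_
  rw [PowerSeries.coeff_map, coeff_coeffMap, ← Algebra.smul_def, map_smul, smul_eq_mul]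

theorem coeffMap_smul_zc (φ : ℂ →ₗ[ℚ] ℚ) (a : ℂ) (μ : PowerSeries ℤ) :
    coeffMap φ (a • zc μ) = φ a • zq μ := by
  ext n
  rw [coeff_coeffMap, PowerSeries.coeff_smul, PowerSeries.coeff_smul, PowerSeries.coeff_map,
    PowerSeries.coeff_map]
  simp only [smul_eq_mul, eq_intCast]
  rw [mul_comm, ← zsmul_eq_mul, map_zsmul, zsmul_eq_mul, mul_comm]

theorem coeffMap_one (ψ : ℂ →ₗ[ℚ] ℚ) (hψ : ψ 1 = 1) : coeffMap ψ 1 = 1 := by
  ext n
  rw [coeff_coeffMap, PowerSeries.coeff_one, PowerSeries.coeff_one]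
  split_ifs
  · exact hψ
  · exact map_zero ψ

/-- bounded denominators -/
def BddDen (p : PowerSeries ℚ) : Prop :=
  ∃ d : ℕ, d ≠ 0 ∧ PowerSeries.C (d : ℚ) * p ∈ intSub

theorem bddDen_zero : BddDen 0 := ⟨1, one_ne_zero, by simp⟩

theorem bddDen_add {p p' : PowerSeries ℚ} (hp : BddDen p) (hp' : BddDen p') :
    BddDen (p + p') := by
  obtain ⟨d, hd, hdp⟩ := hp
  obtain ⟨d', hd', hdp'⟩ := hp'
  refine ⟨d * d', mul_ne_zero hd hd', ?_⟩
  have e : PowerSeries.C ((d * d' : ℕ) : ℚ) * (p + p')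
      = PowerSeries.C (d' : ℚ) * (PowerSeries.C (d : ℚ) * p)
        + PowerSeries.C (d : ℚ) * (PowerSeries.C (d' : ℚ) * p') := by
    rw [Nat.cast_mul, map_mul]; ring
  rw [e]
  exact Subring.add_mem _ (Subring.mul_mem _ (C_natCast_mem_intSub d') hdp)
    (Subring.mul_mem _ (C_natCast_mem_intSub d) hdp')

theorem bddDen_smul_zq (r : ℚ) (μ : PowerSeries ℤ) : BddDen (r • zq μ) := by
  refine ⟨r.den, r.den_ne_zero, ?_⟩
  have e : PowerSeries.C (r.den : ℚ) * (r • zq μ) = PowerSeries.C (r.num : ℚ) * zq μ := by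
    rw [PowerSeries.smul_eq_C_mul, ← mul_assoc, ← map_mul, Rat.den_mul_eq_num]
  rw [e]
  exact Subring.mul_mem _ (C_intCast_mem_intSub _) (zq_mem_intSub μ)

theorem bddDen_sum {ι : Type} [Fintype ι] (r : ι → ℚ) (μ : ι → PowerSeries ℤ) :
    BddDen (∑ i, r i • zq (μ i)) :=
  Finset.sum_induction _ BddDen (fun _ _ => bddDen_add) bddDen_zero
    fun i _ => bddDen_smul_zq (r i) (μ i)

/-- **W8'**: bounded denominators from the specialisation data.
(`zc p` of the S23 plan is written out as `PowerSeries.map (Int.castRingHom ℂ) p`.) -/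
theorem exists_nat_mul_coeff_int (v : PowerSeries ℂ)
    (hv : ∀ n, ∃ r : ℚ, PowerSeries.coeff n v = (r : ℂ))
    {ι κ : Type} [Fintype ι] [Fintype κ]
    (lam : ι → PowerSeries ℤ) (nu : κ → PowerSeries ℤ) (x : ι → ℂ) (y : κ → ℂ)
    (hy : ∑ i, y i • PowerSeries.map (Int.castRingHom ℂ) (nu i) ≠ 0)
    (h : v * ∑ i, y i • PowerSeries.map (Int.castRingHom ℂ) (nu i)
      = ∑ i, x i • PowerSeries.map (Int.castRingHom ℂ) (lam i))
    (n : ℕ) {τ : Fin n → Type} [∀ s, Fintype (τ s)]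
    (kap : (s : Fin n) → τ s → PowerSeries ℤ) (z : (s : Fin n) → τ s → ℂ)
    (hmonic : v ^ n + ∑ s : Fin n, (∑ t, z s t • PowerSeries.map (Int.castRingHom ℂ) (kap s t))
      * v ^ (n - 1 - (s : ℕ)) = 0) :
    ∃ D : ℕ, D ≠ 0 ∧ ∀ m, ∃ c : ℤ, (D : ℂ) * PowerSeries.coeff m v = (c : ℂ) := by
  -- a rational model `w` of `v`
  choose wc hwc using hv
  obtain ⟨w, hvw⟩ : ∃ w : PowerSeries ℚ, v = PowerSeries.map (algebraMap ℚ ℂ) w :=
    ⟨PowerSeries.mk wc, by ext m; simp [hwc m]⟩
  subst hvw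
  clear hwc wc
  -- functionals
  obtain ⟨m0, hm0⟩ : ∃ m0, PowerSeries.coeff m0 (∑ i, y i • zc (nu i)) ≠ 0 := by
    by_contra hcon
    push Not at hcon
    exact hy (PowerSeries.ext fun m => by simpa using hcon m)
  obtain ⟨φ, hφ⟩ := Module.Projective.exists_dual_ne_zero ℚ hm0
  obtain ⟨ψ, hψ⟩ := Module.Projective.exists_dual_eq_one ℚ (one_ne_zero : (1 : ℂ) ≠ 0)
  -- the denominator relation over `ℚ`
  have hU' : coeffMap φ (∑ i, y i • zc (nu i)) = ∑ i, φ (y i) • zq (nu i) := by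
    rw [map_sum]
    exact Finset.sum_congr rfl fun i _ => coeffMap_smul_zc φ _ _
  have hP' : coeffMap φ (∑ i, x i • zc (lam i)) = ∑ i, φ (x i) • zq (lam i) := by
    rw [map_sum]
    exact Finset.sum_congr rfl fun i _ => coeffMap_smul_zc φ _ _
  have h1 : w * ∑ i, φ (y i) • zq (nu i) = ∑ i, φ (x i) • zq (lam i) := by
    have := congrArg (coeffMap φ) h
    rwa [coeffMap_map_mul, hU', hP'] at this
  have hU0 : ∑ i, φ (y i) • zq (nu i) ≠ 0 := by
    intro h0
    apply hφ
    have := congrArg (PowerSeries.coeff m0) (hU'.trans h0)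
    simpa using this
  -- the monic relation over `ℚ`
  have h2 : w ^ n + ∑ s : Fin n, (∑ t, ψ (z s t) • zq (kap s t)) * w ^ (n - 1 - (s : ℕ)) = 0 := by
    have := congrArg (coeffMap ψ) hmonic
    rw [map_add, map_sum, map_zero] at this
    rw [← this]
    congr 1
    · rw [← map_pow, ← mul_one (PowerSeries.map (algebraMap ℚ ℂ) (w ^ n)), coeffMap_map_mul,
        coeffMap_one ψ hψ, mul_one]
    · refine Finset.sum_congr rfl fun s _ => ?_
      rw [← map_pow, mul_comm _ (PowerSeries.map (algebraMap ℚ ℂ) (w ^ (n - 1 - (s : ℕ)))),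
        coeffMap_map_mul, map_sum, mul_comm]
      congr 1
      exact (Finset.sum_congr rfl fun t _ => coeffMap_smul_zc ψ _ _).symm
  -- clear denominators
  obtain ⟨dU, hdU, hdU'⟩ := bddDen_sum (fun i => φ (y i)) nu
  obtain ⟨dP, hdP, hdP'⟩ := bddDen_sum (fun i => φ (x i)) lam
  have hC : ∀ s : Fin n, BddDen (∑ t, ψ (z s t) • zq (kap s t)) := fun s =>
    bddDen_sum (fun t => ψ (z s t)) (kap s)
  choose d hd hd' using hC
  set M : ℕ := ∏ s : Fin n, d s with hM
  have hM0 : M ≠ 0 := Finset.prod_ne_zero_iff.mpr fun s _ => hd s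
  have hMC : ∀ s : Fin n, PowerSeries.C (M : ℚ) * (∑ t, ψ (z s t) • zq (kap s t)) ∈ intSub := by
    intro s
    obtain ⟨e, he⟩ : d s ∣ M := Finset.dvd_prod_of_mem d (Finset.mem_univ s)
    have e1 : PowerSeries.C (M : ℚ) * (∑ t, ψ (z s t) • zq (kap s t))
        = PowerSeries.C (e : ℚ) * (PowerSeries.C (d s : ℚ) * ∑ t, ψ (z s t) • zq (kap s t)) := by
      rw [he, Nat.cast_mul, map_mul]; ring
    rw [e1]
    exact Subring.mul_mem _ (C_natCast_mem_intSub e) (hd' s)
  -- the integral element `g = M w`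
  have hg : PowerSeries.C (M : ℚ) * w ∈ intSub := by
    refine mem_intSub_of_monic (PowerSeries.C (M : ℚ) * w)
      (PowerSeries.C (dP : ℚ) * (PowerSeries.C (dU : ℚ) * ∑ i, φ (y i) • zq (nu i)))
      (PowerSeries.C (M : ℚ) * (PowerSeries.C (dU : ℚ)
        * (PowerSeries.C (dP : ℚ) * ∑ i, φ (x i) • zq (lam i))))
      ?_ ?_ ?_ ?_ n
      (fun s => PowerSeries.C (M : ℚ) ^ (s : ℕ)
        * (PowerSeries.C (M : ℚ) * ∑ t, ψ (z s t) • zq (kap s t)))
      ?_ ?_
    · have hC0 : ∀ k : ℕ, k ≠ 0 → PowerSeries.C (k : ℚ) ≠ 0 := fun k hk => by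
        rw [Ne, map_eq_zero_iff _ PowerSeries.C_injective]
        exact_mod_cast hk
      exact mul_ne_zero (hC0 dP hdP) (mul_ne_zero (hC0 dU hdU) hU0)
    · exact Subring.mul_mem _ (C_natCast_mem_intSub dP) hdU'
    · exact Subring.mul_mem _ (C_natCast_mem_intSub M)
        (Subring.mul_mem _ (C_natCast_mem_intSub dU) hdP')
    · rw [← h1]; ring
    · intro s
      exact Subring.mul_mem _ (Subring.pow_mem _ (C_natCast_mem_intSub M) _) (hMC s)
    · have e2 : (PowerSeries.C (M : ℚ) * w) ^ n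
          + ∑ s : Fin n, (PowerSeries.C (M : ℚ) ^ (s : ℕ)
              * (PowerSeries.C (M : ℚ) * ∑ t, ψ (z s t) • zq (kap s t)))
              * (PowerSeries.C (M : ℚ) * w) ^ (n - 1 - (s : ℕ))
          = PowerSeries.C (M : ℚ) ^ n * (w ^ n
            + ∑ s : Fin n, (∑ t, ψ (z s t) • zq (kap s t)) * w ^ (n - 1 - (s : ℕ))) := by
        rw [mul_add, Finset.mul_sum, mul_pow]
        congr 1
        refine Finset.sum_congr rfl fun s _ => ?_
        have e3 : PowerSeries.C (M : ℚ) ^ n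
            = PowerSeries.C (M : ℚ) ^ (s : ℕ) * PowerSeries.C (M : ℚ)
              * PowerSeries.C (M : ℚ) ^ (n - 1 - (s : ℕ)) := by
          rw [← pow_succ, ← pow_add]
          congr 1
          have := s.isLt
          omega
        rw [e3, mul_pow]; ring
      rw [e2, h2, mul_zero]
  refine ⟨M, hM0, fun m => ?_⟩
  obtain ⟨c, hc⟩ := (mem_intSub_iff _).mp hg m
  refine ⟨c, ?_⟩
  rw [PowerSeries.coeff_C_mul] at hc
  rw [PowerSeries.coeff_map]
  have := congrArg (algebraMap ℚ ℂ) hc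
  simpa using this

end

end Fermat.Agent.S23.Denominators
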