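import Fermat.Agent.S23.Basic

set_option autoImplicit false
set_option linter.style.haveILetI false

namespace Fermat.Agent.S23

noncomputable section

open PowerSeries

theorem finite_rat_of_surjective {A L : Type*} [CommRing A] [Algebra ℚ A]
    [Algebra.FiniteType ℚ A] [Field L] [CharZero L] (π : A →+* L)
    (hπ : Function.Surjective π) : Module.Finite ℚ L :=
  haveI : Algebra.FiniteType ℚ L := Algebra.FiniteType.of_surjective π.toRatAlgHom hπ
  finite_of_finite_type_of_isJacobsonRing ℚ L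

theorem exists_rat_of_forall_embedding_eq {L : Type*} [Field L] [CharZero L] [Module.Finite ℚ L]
    (xb : L) (c : ℂ) (key : ∀ ι : L →+* ℂ, ι xb = c) : ∃ r : ℚ, c = r := by
  classical
  haveI : NumberField L := ⟨⟩
  have hrange := NumberField.Embeddings.range_eval_eq_rootSet_minpoly L ℂ xb
  have hroot : (minpoly ℚ xb).rootSet ℂ = {c} := by
    rw [← hrange]
    ext y
    constructor
    · rintro ⟨ι, rfl⟩
      exact key ι
    · rintro rfl
      obtain ⟨ι⟩ := (inferInstance : Nonempty (L →+* ℂ))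
      exact ⟨ι, key ι⟩
  have hint : IsIntegral ℚ xb := Algebra.IsIntegral.isIntegral xb
  have hsep : (minpoly ℚ xb).Separable := (minpoly.irreducible hint).separable
  have hcard : Fintype.card ((minpoly ℚ xb).rootSet ℂ) = (minpoly ℚ xb).natDegree :=
    Polynomial.card_rootSet_eq_natDegree hsep (IsAlgClosed.splits _)
  have hdeg : (minpoly ℚ xb).natDegree = 1 := by
    rw [← hcard]
    simp [hroot]
  obtain ⟨r, hr⟩ := (minpoly.natDegree_eq_one_iff).mp hdeg
  obtain ⟨ι⟩ := (inferInstance : Nonempty (L →+* ℂ))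
  refine ⟨r, ?_⟩
  rw [← key ι, ← hr]
  simp

/-- An element of a finitely generated `ℚ`-subalgebra of `ℂ` which is fixed by every
`ℚ`-algebra homomorphism to `ℂ` is rational. -/
theorem exists_rat_eq_of_forall_algHom_eq (R : Subalgebra ℚ ℂ) (hR : R.FG) (x : R)
    (h : ∀ φ : R →ₐ[ℚ] ℂ, φ x = (x : ℂ)) : ∃ r : ℚ, (x : ℂ) = r := by
  classical
  haveI : Algebra.FiniteType ℚ R := (Subalgebra.fg_iff_finiteType R).mp hR
  obtain ⟨𝔪, h𝔪⟩ := Ideal.exists_maximal R
  letI fld : Field (R ⧸ 𝔪) := Ideal.Quotient.field 𝔪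
  haveI cz : CharZero (R ⧸ 𝔪) :=
    charZero_of_injective_ringHom (RingHom.injective ((Ideal.Quotient.mk 𝔪).comp (algebraMap ℚ R)))
  have fin := finite_rat_of_surjective (Ideal.Quotient.mk 𝔪) Ideal.Quotient.mk_surjective
  refine @exists_rat_of_forall_embedding_eq (R ⧸ 𝔪) fld cz fin (Ideal.Quotient.mk 𝔪 x) (x : ℂ)
    fun ι => ?_
  have := h ((ι.comp (Ideal.Quotient.mk 𝔪)).toRatAlgHom)
  simpa using this


/-- Division by a power series whose lowest coefficient is a unit of a subring `R` preserves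
`R`-coefficients. -/
theorem coeff_mem_of_mul_eq (R : Subring ℂ) (v u p : PowerSeries ℂ) (m₀ : ℕ)
    (hu : ∀ n, coeff n u ∈ R) (hp : ∀ n, coeff n p ∈ R)
    (hu0 : ∀ n < m₀, coeff n u = 0) (hne : coeff m₀ u ≠ 0) (hinv : (coeff m₀ u)⁻¹ ∈ R)
    (h : v * u = p) : ∀ n, coeff n v ∈ R := by
  intro n
  induction n using Nat.strong_induction_on with
  | _ n ih =>
    have h1 : coeff (n + m₀) p
        = ∑ k ∈ Finset.range (n + m₀ + 1), coeff k v * coeff (n + m₀ - k) u := by
      rw [← h, coeff_mul, Finset.Nat.sum_antidiagonal_eq_sum_range_succ_mk]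
    have h2 : ∑ k ∈ Finset.range (n + m₀ + 1), coeff k v * coeff (n + m₀ - k) u
        = ∑ k ∈ Finset.range (n + 1), coeff k v * coeff (n + m₀ - k) u := by
      symm
      apply Finset.sum_subset (Finset.range_mono (by omega))
      intro k hk hk'
      simp only [Finset.mem_range] at hk hk'
      rw [hu0 _ (by omega), mul_zero]
    rw [h2, Finset.sum_range_succ] at h1
    have h3 : coeff n v = (coeff (n + m₀) p
        - ∑ k ∈ Finset.range n, coeff k v * coeff (n + m₀ - k) u) * (coeff m₀ u)⁻¹ := by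
      have : n + m₀ - n = m₀ := by omega
      rw [this] at h1
      rw [h1]
      field_simp
      ring
    rw [h3]
    exact R.mul_mem (R.sub_mem (hp _) (R.sum_mem fun k hk =>
      R.mul_mem (ih k (Finset.mem_range.mp hk)) (hu _))) hinv

/-- Apply a `ℚ`-algebra hom defined on a subalgebra coefficientwise. -/
def specialize (R : Subalgebra ℚ ℂ) (φ : R →ₐ[ℚ] ℂ) (v : PowerSeries ℂ)
    (hv : ∀ n, coeff n v ∈ R) : PowerSeries ℂ :=
  PowerSeries.mk fun n => φ ⟨coeff n v, hv n⟩

/-- `V` is stable under specialisation of coefficients. -/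
def SpecStable (V : Submodule ℂ (PowerSeries ℂ)) : Prop :=
  ∀ v ∈ V, ∃ (R : Subalgebra ℚ ℂ) (_ : R.FG) (hv : ∀ n, coeff n v ∈ R),
    ∀ φ : R →ₐ[ℚ] ℂ, specialize R φ v hv ∈ V

theorem span_rational_of_specStable (V : Submodule ℂ (PowerSeries ℂ)) [FiniteDimensional ℂ V]
    (hV : SpecStable V) :
    V ≤ Submodule.span ℂ {w | w ∈ V ∧ ∀ n, ∃ r : ℚ, coeff n w = (r : ℂ)} := by
  classical
  let c : ℕ → Module.Dual ℂ V := fun n => (PowerSeries.coeff (R := ℂ) n).comp V.subtype
  have hsep : ∀ v : V, (∀ n, c n v = 0) → v = 0 := by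
    intro v hv
    apply Subtype.ext
    ext n
    simpa [c] using hv n
  have hspan : Submodule.span ℂ (Set.range c) = ⊤ := by
    have h1 : (Submodule.span ℂ (Set.range c)).dualCoannihilator = ⊥ := by
      rw [eq_bot_iff]
      intro v hv
      rw [Submodule.mem_dualCoannihilator] at hv
      rw [Submodule.mem_bot]
      exact hsep v fun n => hv (c n) (Submodule.subset_span ⟨n, rfl⟩)
    have h2 := Subspace.dualCoannihilator_dualAnnihilator_eq
      (W := Submodule.span ℂ (Set.range c))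
    rw [h1] at h2
    rw [← h2]
    simp
  obtain ⟨b, hbsub, hbspan, hbli⟩ := exists_linearIndependent ℂ (Set.range c)
  let B : Module.Basis b ℂ (Module.Dual ℂ V) := Module.Basis.mk hbli (by
    rw [Subtype.range_coe, hbspan, hspan])
  haveI : Fintype b := FiniteDimensional.fintypeBasisIndex B
  -- the evaluation map
  let Φ : V →ₗ[ℂ] (b → ℂ) := LinearMap.pi fun β => (β : Module.Dual ℂ V)
  have hΦinj : Function.Injective Φ := by
    rw [← LinearMap.ker_eq_bot, eq_bot_iff]
    intro v hv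
    rw [LinearMap.mem_ker] at hv
    rw [Submodule.mem_bot]
    apply hsep
    intro n
    have hmem : c n ∈ Submodule.span ℂ b := by
      rw [hbspan]
      exact Submodule.subset_span ⟨n, rfl⟩
    refine Submodule.span_induction (p := fun ψ _ => ψ v = 0) ?_ ?_ ?_ ?_ hmem
    · intro ψ hψ
      have := congrFun hv ⟨ψ, hψ⟩
      simpa [Φ] using this
    · simp
    · intro ψ₁ ψ₂ _ _ h1 h2
      simp [h1, h2]
    · intro a ψ _ h1
      simp [h1]
  have hfin : Module.finrank ℂ V = Module.finrank ℂ (b → ℂ) := by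
    rw [Module.finrank_fintype_fun_eq_card, ← Module.finrank_eq_card_basis B,
      Subspace.dual_finrank_eq]
  let e : V ≃ₗ[ℂ] (b → ℂ) := LinearEquiv.ofInjectiveOfFinrankEq Φ hΦinj hfin
  have he : ∀ v, e v = Φ v := fun v => rfl
  -- the dual basis vectors
  let E : b → V := fun β => e.symm (Pi.single β 1)
  have hE : ∀ β β' : b, (β' : Module.Dual ℂ V) (E β) = if β' = β then 1 else 0 := by
    intro β β'
    have h1 : Φ (E β) = Pi.single β 1 := by
      rw [← he]
      exact e.apply_symm_apply _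
    have h2 := congrFun h1 β'
    simp only [Φ, LinearMap.pi_apply] at h2
    rw [h2, Pi.single_apply]
  have hErat : ∀ β : b, ∀ m, ∃ r : ℚ, coeff m (E β : PowerSeries ℂ) = (r : ℂ) := by
    intro β m
    obtain ⟨R, hRfg, hv, hφ⟩ := hV (E β) (E β).2
    refine exists_rat_eq_of_forall_algHom_eq R hRfg ⟨coeff m (E β : PowerSeries ℂ), hv m⟩ ?_
    intro φ
    have hw := hφ φ
    have hΦw : Φ ⟨_, hw⟩ = Φ (E β) := by
      funext β'
      obtain ⟨n', hn'⟩ := hbsub β'.2
      have h3 : (β' : Module.Dual ℂ V) ⟨_, hw⟩ = φ ⟨coeff n' (E β : PowerSeries ℂ), hv n'⟩ := by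
        rw [← hn']
        simp [c, specialize]
      have h4 : coeff n' (E β : PowerSeries ℂ) = if β' = β then 1 else 0 := by
        rw [← hE β β', ← hn']
        simp [c]
      simp only [Φ, LinearMap.pi_apply]
      rw [h3, hE β β']
      have h5 : (⟨coeff n' (E β : PowerSeries ℂ), hv n'⟩ : R) = if β' = β then 1 else 0 := by
        apply Subtype.ext
        show coeff n' (E β : PowerSeries ℂ) = _
        rw [h4]
        split_ifs <;> simp
      rw [h5]
      split_ifs <;> simp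
    have hweq := hΦinj hΦw
    have := congrArg (fun u : V => coeff m (u : PowerSeries ℂ)) hweq
    simpa [specialize] using this
  intro v hv
  have hdecomp : (⟨v, hv⟩ : V) = ∑ β : b, ((β : Module.Dual ℂ V) ⟨v, hv⟩) • E β := by
    apply hΦinj
    funext β'
    simp only [Φ, LinearMap.pi_apply, map_sum, map_smul, smul_eq_mul, hE]
    simp
  have hv' : v = ∑ β : b, ((β : Module.Dual ℂ V) ⟨v, hv⟩) • (E β : PowerSeries ℂ) := by
    have := congrArg (fun u : V => (u : PowerSeries ℂ)) hdecomp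
    simpa using this
  rw [hv']
  refine Submodule.sum_mem _ fun β _ => Submodule.smul_mem _ _ (Submodule.subset_span ?_)
  exact ⟨(E β).2, hErat β⟩


/-- Specialisation data for a power series `v` relative to a subspace `V`. -/
def HasSpecData (V : Submodule ℂ (PowerSeries ℂ)) (v : PowerSeries ℂ) : Prop :=
  ∃ (ι κ : Type) (_ : Fintype ι) (_ : Fintype κ) (n : ℕ) (τ : Fin n → Type)
    (_ : ∀ s, Fintype (τ s))
    (lam : ι → PowerSeries ℤ) (nu : κ → PowerSeries ℤ) (kap : (s : Fin n) → τ s → PowerSeries ℤ)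
    (x : ι → ℂ) (y : κ → ℂ) (z : (s : Fin n) → τ s → ℂ),
    (∑ i, y i • zc (nu i) ≠ 0) ∧
    (v * ∑ i, y i • zc (nu i) = ∑ i, x i • zc (lam i)) ∧
    (v ^ n + ∑ s : Fin n, (∑ t, z s t • zc (kap s t)) * v ^ (n - 1 - (s : ℕ)) = 0) ∧
    ∀ (x' : ι → ℂ) (y' : κ → ℂ) (z' : (s : Fin n) → τ s → ℂ) (v' : PowerSeries ℂ),
      (∑ i, y' i • zc (nu i) ≠ 0) →
      (v' * ∑ i, y' i • zc (nu i) = ∑ i, x' i • zc (lam i)) →
      (v' ^ n + ∑ s : Fin n, (∑ t, z' s t • zc (kap s t)) * v' ^ (n - 1 - (s : ℕ)) = 0) →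
      v' ∈ V

theorem specStable_of_specData (V : Submodule ℂ (PowerSeries ℂ)) (v : PowerSeries ℂ)
    (h : HasSpecData V v) :
    ∃ (R : Subalgebra ℚ ℂ) (_ : R.FG) (hv : ∀ n, coeff n v ∈ R),
      ∀ φ : R →ₐ[ℚ] ℂ, specialize R φ v hv ∈ V := by
  classical
  obtain ⟨ι, κ, fι, fκ, n, τ, fτ, lam, nu, kap, x, y, z, hQ, h1, h3, geom⟩ := h
  set Qs : PowerSeries ℂ := ∑ i, y i • zc (nu i) with hQs
  obtain ⟨m₀, hm₀ne, hm₀lt⟩ : ∃ m₀, coeff m₀ Qs ≠ 0 ∧ ∀ n < m₀, coeff n Qs = 0 := by
    have hex : ∃ m, coeff m Qs ≠ 0 := by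
      by_contra hcon
      simp only [not_exists, not_not] at hcon
      exact hQ (PowerSeries.ext fun n => by simpa using hcon n)
    exact ⟨Nat.find hex, Nat.find_spec hex, fun n hn => by_contra fun h => Nat.find_min hex hn h⟩
  let S : Set ℂ := Set.range x ∪ Set.range y ∪ (⋃ s, Set.range (z s)) ∪ {(coeff m₀ Qs)⁻¹}
  have hSfin : S.Finite := by
    refine Set.Finite.union (Set.Finite.union (Set.Finite.union (Set.finite_range x)
      (Set.finite_range y)) (Set.finite_iUnion fun s => Set.finite_range (z s)))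
      (Set.finite_singleton _)
  let R : Subalgebra ℚ ℂ := Algebra.adjoin ℚ S
  have hRfg : R.FG := Subalgebra.fg_def.mpr ⟨S, hSfin, rfl⟩
  have hx : ∀ i, x i ∈ R := fun i => Algebra.subset_adjoin
    (Or.inl (Or.inl (Or.inl ⟨i, rfl⟩)))
  have hy : ∀ i, y i ∈ R := fun i => Algebra.subset_adjoin
    (Or.inl (Or.inl (Or.inr ⟨i, rfl⟩)))
  have hz : ∀ s t, z s t ∈ R := fun s t => Algebra.subset_adjoin
    (Or.inl (Or.inr (Set.mem_iUnion.mpr ⟨s, ⟨t, rfl⟩⟩)))
  have hinv : (coeff m₀ Qs)⁻¹ ∈ R := Algebra.subset_adjoin (Or.inr rfl)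
  have hzc : ∀ (p : PowerSeries ℤ) n, coeff n (zc p) ∈ R := by
    intro p n
    rw [PowerSeries.coeff_map]
    exact R.intCast_mem _
  have hQsR : ∀ n, coeff n Qs ∈ R := by
    intro n
    rw [hQs, map_sum]
    refine R.sum_mem fun i _ => ?_
    rw [PowerSeries.coeff_smul]
    exact R.mul_mem (hy i) (hzc _ _)
  have hPsR : ∀ n, coeff n (∑ i, x i • zc (lam i)) ∈ R := by
    intro n
    rw [map_sum]
    refine R.sum_mem fun i _ => ?_
    rw [PowerSeries.coeff_smul]
    exact R.mul_mem (hx i) (hzc _ _)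
  have hv : ∀ n, coeff n v ∈ R :=
    coeff_mem_of_mul_eq R.toSubring v Qs _ m₀ hQsR hPsR hm₀lt hm₀ne hinv h1
  refine ⟨R, hRfg, hv, fun φ => ?_⟩
  let vR : PowerSeries R := PowerSeries.mk fun n => ⟨coeff n v, hv n⟩
  let ι₀ : R →+* ℂ := (R.val : R →+* ℂ)
  have hvR : PowerSeries.map ι₀ vR = v := by
    ext n
    simp [vR, ι₀]
  let zR : PowerSeries ℤ → PowerSeries R := fun p => PowerSeries.map (Int.castRingHom R) p
  have hzR : ∀ p, PowerSeries.map ι₀ (zR p) = zc p := by
    intro p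
    ext n
    simp [zR, ι₀]
  let QR : PowerSeries R := ∑ i, PowerSeries.C (⟨y i, hy i⟩ : R) * zR (nu i)
  let PR : PowerSeries R := ∑ i, PowerSeries.C (⟨x i, hx i⟩ : R) * zR (lam i)
  let cR : (s : Fin n) → PowerSeries R := fun s =>
    ∑ t, PowerSeries.C (⟨z s t, hz s t⟩ : R) * zR (kap s t)
  have hinj : Function.Injective (PowerSeries.map ι₀) :=
    PowerSeries.map_injective _ Subtype.val_injective
  have hQR : PowerSeries.map ι₀ QR = Qs := by
    simp only [QR, hQs, map_sum, map_mul, PowerSeries.map_C, hzR, PowerSeries.smul_eq_C_mul]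
    rfl
  have hPR : PowerSeries.map ι₀ PR = ∑ i, x i • zc (lam i) := by
    simp only [PR, map_sum, map_mul, PowerSeries.map_C, hzR, PowerSeries.smul_eq_C_mul]
    rfl
  have hcR : ∀ s, PowerSeries.map ι₀ (cR s) = ∑ t, z s t • zc (kap s t) := by
    intro s
    simp only [cR, map_sum, map_mul, PowerSeries.map_C, hzR, PowerSeries.smul_eq_C_mul]
    rfl
  have e1 : vR * QR = PR := hinj (by rw [map_mul, hvR, hQR, hPR]; exact h1)
  have e3 : vR ^ n + ∑ s : Fin n, cR s * vR ^ (n - 1 - (s : ℕ)) = 0 := hinj (by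
    simp only [map_add, map_pow, map_sum, map_mul, hvR, hcR, map_zero]
    exact h3)
  let φr : R →+* ℂ := (φ : R →+* ℂ)
  have hspec : specialize R φ v hv = PowerSeries.map φr vR := by
    ext n
    simp [specialize, vR, φr]
  have hzφ : ∀ p, PowerSeries.map φr (zR p) = zc p := by
    intro p
    ext n
    simp [zR, φr]
  have hmapQ : ∑ i, φ ⟨y i, hy i⟩ • zc (nu i) = PowerSeries.map φr QR := by
    simp only [QR, map_sum, map_mul, PowerSeries.map_C, hzφ, PowerSeries.smul_eq_C_mul]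
    rfl
  have hmapP : ∑ i, φ ⟨x i, hx i⟩ • zc (lam i) = PowerSeries.map φr PR := by
    simp only [PR, map_sum, map_mul, PowerSeries.map_C, hzφ, PowerSeries.smul_eq_C_mul]
    rfl
  have hmapc : ∀ s, ∑ t, φ ⟨z s t, hz s t⟩ • zc (kap s t) = PowerSeries.map φr (cR s) := by
    intro s
    simp only [cR, map_sum, map_mul, PowerSeries.map_C, hzφ, PowerSeries.smul_eq_C_mul]
    rfl
  rw [hspec]
  refine geom (fun i => φ ⟨x i, hx i⟩) (fun i => φ ⟨y i, hy i⟩) (fun s t => φ ⟨z s t, hz s t⟩)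
    _ ?_ ?_ ?_
  · rw [hmapQ]
    intro h0
    have hc : coeff m₀ (PowerSeries.map φr QR) = 0 := by rw [h0]; simp
    rw [PowerSeries.coeff_map] at hc
    have hcoe : ((coeff m₀ QR : R) : ℂ) = coeff m₀ Qs := by
      rw [← hQR, PowerSeries.coeff_map]
      rfl
    have hunit : (coeff m₀ QR) * ⟨(coeff m₀ Qs)⁻¹, hinv⟩ = 1 := by
      apply Subtype.ext
      show ((coeff m₀ QR : R) : ℂ) * (coeff m₀ Qs)⁻¹ = 1
      rw [hcoe]
      exact mul_inv_cancel₀ hm₀ne
    have := congrArg φr hunit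
    rw [map_mul, hc, zero_mul, map_one] at this
    exact zero_ne_one this
  · rw [hmapQ, hmapP, ← map_mul, e1]
  · have := congrArg (PowerSeries.map φr) e3
    simp only [map_add, map_pow, map_sum, map_mul, map_zero] at this
    simp only [hmapc]
    exact this

theorem span_rational_of_specData (V : Submodule ℂ (PowerSeries ℂ)) [FiniteDimensional ℂ V]
    (h : ∀ v ∈ V, HasSpecData V v) :
    V ≤ Submodule.span ℂ {w | w ∈ V ∧ ∀ n, ∃ r : ℚ, PowerSeries.coeff n w = (r : ℂ)} :=
  span_rational_of_specStable V fun v hv => specStable_of_specData V v (h v hv)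

end

end Fermat.Agent.S23
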