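import Mathlib
import Fermat.Prelude.Thm_CongruenceSubgroup_one_mem_strictPeriods_Gamma0
import Fermat.Prelude.Thm_ModularForm_sturm_bound_Gamma0

/-!
# Finite-dimensionality of `M_k(Γ₀(N))` and `S_k(Γ₀(N))`

From the Sturm bound for `Γ₀(N)` (Prelude): a modular form is determined by its first
`B + 1` `q`-expansion coefficients, so truncation is an injective linear map into `Fin (B+1) → ℂ`.
-/

set_option autoImplicit false

noncomputable section

open CongruenceSubgroup UpperHalfPlane ModularFormClass

namespace Fermat.Agent.S23.FinDim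

/-- The Sturm bound exponent for `Γ₀(N)` in weight `k`. -/
def sturmB (N : ℕ) (k : ℤ) : ℕ := (k * (Gamma0 N).index).toNat / 12

/-- Truncation of the `q`-expansion (at width `1`) to the first `sturmB N k + 1` coefficients,
as a `ℂ`-linear map. -/
def truncₗ (N : ℕ) (k : ℤ) : ModularForm (Gamma0 N) k →ₗ[ℂ] (Fin (sturmB N k + 1) → ℂ) where
  toFun f i := (qExpansion 1 f).coeff i
  map_add' f g := by
    funext i
    simp only [Pi.add_apply]
    rw [FunLike.coe_add,
      ModularForm.qExpansion_add one_pos (CongruenceSubgroup.one_mem_strictPeriods_Gamma0 N) f g,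
      map_add]
  map_smul' c f := by
    funext i
    simp only [Pi.smul_apply, RingHom.id_apply]
    rw [FunLike.coe_smul,
      ModularForm.qExpansion_smul one_pos (CongruenceSubgroup.one_mem_strictPeriods_Gamma0 N) c f,
      map_smul]

theorem truncₗ_apply (N : ℕ) (k : ℤ) (f : ModularForm (Gamma0 N) k) (i : Fin (sturmB N k + 1)) :
    truncₗ N k f i = (qExpansion 1 f).coeff i := rfl

theorem truncₗ_injective (N : ℕ) [NeZero N] (k : ℤ) : Function.Injective (truncₗ N k) := by
  refine (injective_iff_map_eq_zero _).mpr fun f hf ↦ ?_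
  refine ModularForm.sturm_bound_Gamma0 N f fun n hn ↦ ?_
  have := congrFun hf ⟨n, Nat.lt_succ_of_le hn⟩
  simpa [truncₗ_apply] using this

/-- `M_k(Γ₀(N))` is finite-dimensional over `ℂ`. -/
theorem finiteDimensional_modularForm (N : ℕ) [NeZero N] (k : ℤ) :
    FiniteDimensional ℂ (ModularForm (Gamma0 N) k) :=
  FiniteDimensional.of_injective (truncₗ N k) (truncₗ_injective N k)

/-- `S_k(Γ₀(N))` is finite-dimensional over `ℂ`. -/
theorem finiteDimensional_cuspForm (N : ℕ) [NeZero N] (k : ℤ) :
    FiniteDimensional ℂ (CuspForm (Gamma0 N) k) := by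
  have := finiteDimensional_modularForm N k
  exact FiniteDimensional.of_injective (CuspForm.toModularFormₗ (Γ := Gamma0 N) (k := k))
    CuspForm.toModularFormₗ_injective

/-- Dimension bound: `dim M_k(Γ₀(N)) ≤ sturmB N k + 1`. -/
theorem finrank_modularForm_le (N : ℕ) [NeZero N] (k : ℤ) :
    Module.finrank ℂ (ModularForm (Gamma0 N) k) ≤ sturmB N k + 1 := by
  have h := LinearMap.finrank_le_finrank_of_injective (truncₗ_injective N k)
  simpa using h

end Fermat.Agent.S23.FinDim
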