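import Mathlib

/-!
# S23: the integrality criterion, general arithmetic-group and modular-form variants

If `P`, `Q` are modular forms of weights `w + k`, `w` for an arithmetic group `Γ`, `Q ≠ 0`, and
`Pⁿ + c₁ Pⁿ⁻¹ Q + ⋯ + cₙ Qⁿ = 0` where the coefficients `c_s` "have weight `k s`" and
vanish at every cusp, then `P / Q` extends to a cusp form of weight `k` for `Γ`.

Main statements (namespace `Fermat.Agent.S23.IntegralityGen`):

* `exists_holomorphic_quotient` : the holomorphic, slash-invariant quotient `F = P / Q`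
  (no growth condition), for functions `P`, `Q`, `c_s` on `ℍ`;
* `exists_cuspForm_of_monic_relation`, `exists_modularForm_of_monic_relation` : general
  coefficients (continuous functions whose `SL(2, ℤ)`-translates vanish / are bounded at `i∞`);
* `integrality_criterion_arithmetic`, `integrality_criterion` : level-one cusp-form coefficients,
  any arithmetic `Γ`, resp. `Γ₀(N)`;
* `integrality_criterion_modularForm` : level-one modular-form coefficients give a modular form.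
-/

set_option autoImplicit false

open UpperHalfPlane ModularForm Filter Topology
open scoped MatrixGroups Manifold

noncomputable section

namespace Fermat.Agent.S23.IntegralityGen

/-- Cauchy-type root bound for a monic polynomial. -/
lemma norm_le_of_monic_eq {n : ℕ} (x : ℂ) (a : Fin n → ℂ)
    (h : x ^ n + ∑ s : Fin n, a s * x ^ (n - 1 - (s : ℕ)) = 0) :
    ‖x‖ ≤ max 1 (∑ s : Fin n, ‖a s‖) := by
  rcases le_or_gt ‖x‖ 1 with h1 | h1
  · exact le_max_of_le_left h1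
  · apply le_max_of_le_right
    have hn : n ≠ 0 := by
      rintro rfl
      simp at h
    have hx0 : 0 < ‖x‖ := lt_trans one_pos h1
    have e1 : ‖x‖ ^ n = ‖∑ s : Fin n, a s * x ^ (n - 1 - (s : ℕ))‖ := by
      have : x ^ n = -∑ s : Fin n, a s * x ^ (n - 1 - (s : ℕ)) := eq_neg_of_add_eq_zero_left h
      rw [← norm_pow, this, norm_neg]
    have e2 : ‖∑ s : Fin n, a s * x ^ (n - 1 - (s : ℕ))‖ ≤
        (∑ s : Fin n, ‖a s‖) * ‖x‖ ^ (n - 1) := by
      refine (norm_sum_le _ _).trans ?_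
      rw [Finset.sum_mul]
      refine Finset.sum_le_sum fun s _ => ?_
      rw [norm_mul, norm_pow]
      exact mul_le_mul_of_nonneg_left
        (pow_le_pow_right₀ h1.le (Nat.sub_le _ _)) (norm_nonneg _)
    have e3 : ‖x‖ ^ n = ‖x‖ * ‖x‖ ^ (n - 1) := by
      rw [← pow_succ', Nat.sub_add_cancel (Nat.one_le_iff_ne_zero.mpr hn)]
    have hpos : 0 < ‖x‖ ^ (n - 1) := pow_pos hx0 _
    rw [e3] at e1
    exact le_of_mul_le_mul_right (e1.le.trans e2) hpos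

/-- If the coefficients of a monic polynomial are small, so are its roots. -/
lemma norm_pow_le_of_monic_eq {n : ℕ} (x : ℂ) (a : Fin n → ℂ)
    (h : x ^ n + ∑ s : Fin n, a s * x ^ (n - 1 - (s : ℕ)) = 0)
    (ha : ∑ s : Fin n, ‖a s‖ ≤ 1) :
    ‖x‖ ^ n ≤ ∑ s : Fin n, ‖a s‖ := by
  have h1 : ‖x‖ ≤ 1 := by
    have := norm_le_of_monic_eq x a h
    rwa [max_eq_left ha] at this
  have e1 : ‖x‖ ^ n = ‖∑ s : Fin n, a s * x ^ (n - 1 - (s : ℕ))‖ := by
    have : x ^ n = -∑ s : Fin n, a s * x ^ (n - 1 - (s : ℕ)) := eq_neg_of_add_eq_zero_left h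
    rw [← norm_pow, this, norm_neg]
  rw [e1]
  refine (norm_sum_le _ _).trans ?_
  refine Finset.sum_le_sum fun s _ => ?_
  rw [norm_mul, norm_pow]
  exact mul_le_of_le_one_right (norm_nonneg _) (pow_le_one₀ (norm_nonneg _) h1)

/-- Homogeneity of the monic relation under the weight-`k` twist. -/
lemma translate_rel {n : ℕ} (k : ℤ) (x d : ℂ) (hd : d ≠ 0) (a : Fin n → ℂ)
    (h : x ^ n + ∑ s : Fin n, a s * x ^ (n - 1 - (s : ℕ)) = 0) :
    (x * d ^ (-k)) ^ n + ∑ s : Fin n, (a s * d ^ (-(k * ((s : ℕ) + 1)))) *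
      (x * d ^ (-k)) ^ (n - 1 - (s : ℕ)) = 0 := by
  have key : (x * d ^ (-k)) ^ n + ∑ s : Fin n, (a s * d ^ (-(k * ((s : ℕ) + 1)))) *
      (x * d ^ (-k)) ^ (n - 1 - (s : ℕ)) =
      (x ^ n + ∑ s : Fin n, a s * x ^ (n - 1 - (s : ℕ))) * (d ^ (-k)) ^ n := by
    rw [add_mul, Finset.sum_mul, mul_pow]
    congr 1
    refine Finset.sum_congr rfl fun s _ => ?_
    have hs : (d ^ (-k)) ^ n = d ^ (-(k * ((s : ℕ) + 1))) * (d ^ (-k)) ^ (n - 1 - (s : ℕ)) := by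
      rw [← zpow_natCast, ← zpow_natCast, ← zpow_mul, ← zpow_mul, ← zpow_add₀ hd]
      congr 1
      have h1 : (s : ℕ) + 1 ≤ n := s.2
      have h2 : n - 1 - (s : ℕ) = n - ((s : ℕ) + 1) := by omega
      rw [h2, Nat.cast_sub h1]
      push_cast
      ring
    rw [hs, mul_pow]
    ring
  rw [key, h, zero_mul]

/-- A continuous identity that holds off the zero set of a nonzero holomorphic function on `ℍ`
holds everywhere. -/
lemma eq_of_eq_on_ne_zero {Q : ℍ → ℂ} (hQ : MDifferentiable 𝓘(ℂ) 𝓘(ℂ) Q) (hQ0 : Q ≠ 0)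
    {A B : ℍ → ℂ} (hA : Continuous A) (hB : Continuous B)
    (hAB : ∀ τ, Q τ ≠ 0 → A τ = B τ) (τ : ℍ) : A τ = B τ := by
  have hU : IsOpen {z : ℂ | 0 < z.im} := isOpen_upperHalfPlaneSet
  have hQa : AnalyticOnNhd ℂ (Q ∘ ofComplex) {z : ℂ | 0 < z.im} :=
    (UpperHalfPlane.mdifferentiable_iff.mp hQ).analyticOnNhd hU
  have hτ : (τ : ℂ) ∈ {z : ℂ | 0 < z.im} := τ.im_pos
  have hne : ∀ᶠ z in 𝓝[≠] (τ : ℂ), (Q ∘ ofComplex) z ≠ 0 := by
    rcases (hQa _ hτ).eventually_eq_zero_or_eventually_ne_zero with h0 | h0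
    · exfalso
      apply hQ0
      have h1 := hQa.eqOn_zero_of_preconnected_of_eventuallyEq_zero
        (convex_halfSpace_im_gt 0).isPreconnected hτ h0
      funext σ
      have h2 := h1 σ.im_pos
      simpa using h2
    · exact h0
  have hof : ContinuousAt ofComplex (τ : ℂ) :=
    (contMDiffAt_ofComplex (n := 0) τ.im_pos).continuousAt
  have hcA : ContinuousAt (A ∘ ofComplex) (τ : ℂ) := hA.continuousAt.comp hof
  have hcB : ContinuousAt (B ∘ ofComplex) (τ : ℂ) := hB.continuousAt.comp hof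
  have h3 := (hcA.eventuallyEq_nhds_iff_eventuallyEq_nhdsNE hcB).mp
    (hne.mono fun z hz => hAB _ hz)
  have h4 := h3.self_of_nhds
  simpa using h4

/-- **The holomorphic quotient.**  Let `P`, `Q` be holomorphic on `ℍ`, slash-invariant of weights
`w + k`, `w` under a group `Γ` of determinant `± 1`, with `Q ≠ 0`, and assume
`Pⁿ + ∑ c_s Pⁿ⁻¹⁻ˢ Qˢ⁺¹ = 0` with continuous coefficients `c_s`.  Then `P / Q` extends to a
holomorphic function `F` on `ℍ`, slash-invariant of weight `k` under `Γ`, which is a root of the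
monic polynomial `Xⁿ + ∑ c_s Xⁿ⁻¹⁻ˢ`. -/
theorem exists_holomorphic_quotient (Γ : Subgroup (GL (Fin 2) ℝ)) [Γ.HasDetPlusMinusOne]
    {k w : ℤ} {P Q : ℍ → ℂ} (hP : MDifferentiable 𝓘(ℂ) 𝓘(ℂ) P)
    (hQ : MDifferentiable 𝓘(ℂ) 𝓘(ℂ) Q) (hPΓ : ∀ γ ∈ Γ, P ∣[w + k] γ = P)
    (hQΓ : ∀ γ ∈ Γ, Q ∣[w] γ = Q) (hQ0 : Q ≠ 0) (n : ℕ)
    (c : Fin n → ℍ → ℂ) (hc : ∀ s, Continuous (c s))
    (h : ∀ τ : ℍ, P τ ^ n +
      ∑ s : Fin n, c s τ * P τ ^ (n - 1 - (s : ℕ)) * Q τ ^ ((s : ℕ) + 1) = 0) :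
    ∃ F : ℍ → ℂ, MDifferentiable 𝓘(ℂ) 𝓘(ℂ) F ∧ (∀ γ ∈ Γ, F ∣[k] γ = F) ∧
      (∀ τ : ℍ, F τ * Q τ = P τ) ∧
      ∀ τ : ℍ, F τ ^ n + ∑ s : Fin n, c s τ * F τ ^ (n - 1 - (s : ℕ)) = 0 := by
  classical
  have hn : n ≠ 0 := by
    rintro rfl
    have := h UpperHalfPlane.I
    simp at this
  set U : Set ℂ := {z : ℂ | 0 < z.im} with hUdef
  have hU : IsOpen U := isOpen_upperHalfPlaneSet
  have hPa : AnalyticOnNhd ℂ (P ∘ ofComplex) U :=
    (UpperHalfPlane.mdifferentiable_iff.mp hP).analyticOnNhd hU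
  have hQa : AnalyticOnNhd ℂ (Q ∘ ofComplex) U :=
    (UpperHalfPlane.mdifferentiable_iff.mp hQ).analyticOnNhd hU
  -- pointwise algebra
  have hPzero : ∀ τ : ℍ, Q τ = 0 → P τ = 0 := by
    intro τ hq
    have h1 := h τ
    have h2 : ∑ s : Fin n, c s τ * P τ ^ (n - 1 - (s : ℕ)) * Q τ ^ ((s : ℕ) + 1) = 0 :=
      Finset.sum_eq_zero fun s _ => by rw [hq, zero_pow (Nat.succ_ne_zero _), mul_zero]
    rw [h2, add_zero] at h1
    exact pow_eq_zero_iff hn |>.mp h1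
  have hroot : ∀ τ : ℍ, Q τ ≠ 0 →
      (P τ / Q τ) ^ n + ∑ s : Fin n, c s τ * (P τ / Q τ) ^ (n - 1 - (s : ℕ)) = 0 := by
    intro τ hq
    have h1 := h τ
    have hqn : Q τ ^ n ≠ 0 := pow_ne_zero _ hq
    have h2 : ((P τ / Q τ) ^ n + ∑ s : Fin n, c s τ * (P τ / Q τ) ^ (n - 1 - (s : ℕ))) *
        Q τ ^ n = 0 := by
      rw [← h1, add_mul, Finset.sum_mul]
      congr 1
      · rw [div_pow, div_mul_cancel₀ _ hqn]
      · refine Finset.sum_congr rfl fun s _ => ?_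
        have hs : Q τ ^ n = Q τ ^ (n - 1 - (s : ℕ)) * Q τ ^ ((s : ℕ) + 1) := by
          rw [← pow_add]
          congr 1
          have := s.2
          omega
        rw [hs, div_pow]
        field_simp
    exact (mul_eq_zero.mp h2).resolve_right hqn
  -- the meromorphic quotient and its normal form
  set g₀ : ℂ → ℂ := fun z => (P ∘ ofComplex) z / (Q ∘ ofComplex) z with hg₀
  have hg₀m : MeromorphicOn g₀ U := fun z hz =>
    (hPa z hz).meromorphicAt.div (hQa z hz).meromorphicAt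
  set Ft : ℂ → ℂ := toMeromorphicNFOn g₀ U with hFt
  have hg₀Q : ∀ z : ℂ, g₀ z * (Q ∘ ofComplex) z = (P ∘ ofComplex) z := by
    intro z
    by_cases hq : Q (ofComplex z) = 0
    · simp [hg₀, hq, hPzero _ hq]
    · simp only [hg₀, Function.comp_apply]
      exact div_mul_cancel₀ _ hq
  -- local boundedness of the quotient
  have hbdd : ∀ z₀ ∈ U, ∃ B : ℝ, ∀ᶠ z in 𝓝 z₀, ‖g₀ z‖ ≤ B := by
    intro z₀ hz₀
    refine ⟨max 1 (∑ s : Fin n, (‖c s (ofComplex z₀)‖ + 1)), ?_⟩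
    have hcont : ∀ s : Fin n, ∀ᶠ z in 𝓝 z₀,
        ‖c s (ofComplex z)‖ ≤ ‖c s (ofComplex z₀)‖ + 1 := by
      intro s
      have hca : ContinuousAt (fun z => ‖c s (ofComplex z)‖) z₀ :=
        ((hc s).continuousAt.comp (contMDiffAt_ofComplex (n := 0) hz₀).continuousAt).norm
      have h1 := hca.eventually_lt (continuousAt_const (y := ‖c s (ofComplex z₀)‖ + 1))
        (lt_add_one _)
      exact h1.mono fun z hz => hz.le
    filter_upwards [eventually_all.mpr hcont] with z hz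
    by_cases hq : Q (ofComplex z) = 0
    · simp [hg₀, hq]
    · refine (norm_le_of_monic_eq _ _ (hroot _ hq)).trans ?_
      exact max_le_max le_rfl (Finset.sum_le_sum fun s _ => hz s)
  -- the normal form is analytic on `U`
  have hFa : ∀ z₀ ∈ U, AnalyticAt ℂ Ft z₀ := by
    intro z₀ hz₀
    have hNF : MeromorphicNFAt Ft z₀ := meromorphicNFOn_toMeromorphicNFOn g₀ U hz₀
    rw [← hNF.meromorphicOrderAt_nonneg_iff_analyticAt, hFt,
      meromorphicOrderAt_toMeromorphicNFOn hg₀m hz₀]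
    by_contra hneg
    rw [not_le] at hneg
    have ht := tendsto_cobounded_of_meromorphicOrderAt_neg hneg
    rw [← tendsto_norm_atTop_iff_cobounded] at ht
    obtain ⟨B, hB⟩ := hbdd z₀ hz₀
    have h1 : ∀ᶠ z in 𝓝[≠] z₀, B + 1 ≤ ‖g₀ z‖ := ht.eventually_ge_atTop (B + 1)
    have h2 : ∀ᶠ z in 𝓝[≠] z₀, ‖g₀ z‖ ≤ B := hB.filter_mono nhdsWithin_le_nhds
    have h3 : ∀ᶠ z in 𝓝[≠] z₀, False := by
      filter_upwards [h1, h2] with z h1 h2
      linarith
    exact h3.exists.elim fun _ hf => hf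
  have hFg : ∀ z₀ ∈ U, Ft =ᶠ[𝓝[≠] z₀] g₀ := fun z₀ hz₀ =>
    hg₀m.toMeromorphicNFOn_eq_self_on_nhdsNE hz₀
  have hFQ : ∀ z₀ ∈ U, Ft z₀ * (Q ∘ ofComplex) z₀ = (P ∘ ofComplex) z₀ := by
    intro z₀ hz₀
    have hc1 : ContinuousAt (fun z => Ft z * (Q ∘ ofComplex) z) z₀ :=
      (hFa z₀ hz₀).continuousAt.mul (hQa z₀ hz₀).continuousAt
    have hc2 : ContinuousAt (P ∘ ofComplex) z₀ := (hPa z₀ hz₀).continuousAt
    have he : (fun z => Ft z * (Q ∘ ofComplex) z) =ᶠ[𝓝[≠] z₀] (P ∘ ofComplex) := by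
      filter_upwards [hFg z₀ hz₀] with z hz
      rw [hz, hg₀Q]
    exact ((hc1.eventuallyEq_nhds_iff_eventuallyEq_nhdsNE hc2).mp he).self_of_nhds
  set F : ℍ → ℂ := fun τ => Ft (τ : ℂ) with hF
  have hFQ' : ∀ τ : ℍ, F τ * Q τ = P τ := by
    intro τ
    have h1 := hFQ (τ : ℂ) τ.im_pos
    simpa [hF] using h1
  have hFholo : MDifferentiable 𝓘(ℂ) 𝓘(ℂ) F := by
    rw [UpperHalfPlane.mdifferentiable_iff]
    have hd : DifferentiableOn ℂ Ft U := fun z hz =>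
      (hFa z hz).differentiableAt.differentiableWithinAt
    refine hd.congr fun z hz => ?_
    simp [hF, ofComplex_apply_of_im_pos hz]
  have hFcont : Continuous F := hFholo.continuous
  have hdense : ∀ {A B : ℍ → ℂ}, Continuous A → Continuous B →
      (∀ τ, Q τ ≠ 0 → A τ = B τ) → ∀ τ, A τ = B τ :=
    fun hA hB hAB τ => eq_of_eq_on_ne_zero hQ hQ0 hA hB hAB τ
  refine ⟨F, hFholo, ?_, hFQ', ?_⟩
  · -- slash invariance
    intro γ hγ
    funext τ
    refine hdense (MDifferentiable.slash hFholo k γ).continuous hFcont (fun τ hq => ?_) τ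
    have e1 : P = Q * F := by
      funext σ
      simp [← hFQ' σ, mul_comm]
    have e4 := mul_slash w k γ Q F
    rw [← e1, hPΓ γ hγ, hQΓ γ hγ, Subgroup.HasDetPlusMinusOne.abs_det hγ, one_smul] at e4
    have e5 := congrFun e4 τ
    simp only [Pi.mul_apply] at e5
    have e6 := hFQ' τ
    apply mul_left_cancel₀ hq
    rw [← e5, ← e6, mul_comm]
  · -- the monic relation for `F` itself
    refine hdense (A := fun τ => F τ ^ n + ∑ s : Fin n, c s τ * F τ ^ (n - 1 - (s : ℕ)))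
      (B := fun _ => 0) ?_ continuous_const ?_
    · exact (hFcont.pow n).add (continuous_finsetSum _ fun s _ => (hc s).mul (hFcont.pow _))
    · intro τ hq
      have h1 : F τ = P τ / Q τ := by rw [← hFQ' τ, mul_div_cancel_right₀ _ hq]
      simp only [h1]
      exact hroot τ hq

/-- The monic relation is inherited by `SL(2, ℤ)`-translates. -/
lemma slash_monic_relation {k : ℤ} {n : ℕ} {F : ℍ → ℂ} {c : Fin n → ℍ → ℂ}
    (hrel : ∀ τ : ℍ, F τ ^ n + ∑ s : Fin n, c s τ * F τ ^ (n - 1 - (s : ℕ)) = 0)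
    (γ : SL(2, ℤ)) (τ : ℍ) :
    (F ∣[k] γ) τ ^ n +
      ∑ s : Fin n, (c s ∣[k * ((s : ℕ) + 1)] γ) τ * (F ∣[k] γ) τ ^ (n - 1 - (s : ℕ)) = 0 := by
  simpa only [SL_slash_apply] using
    translate_rel k _ _ (denom_ne_zero γ τ) _ (hrel (γ • τ))

/-- A root of a monic polynomial whose coefficients have translates vanishing at `i∞` has
translates vanishing at `i∞`. -/
theorem isZeroAtImInfty_slash_of_monic_relation {k : ℤ} {n : ℕ} {F : ℍ → ℂ}
    {c : Fin n → ℍ → ℂ}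
    (hrel : ∀ τ : ℍ, F τ ^ n + ∑ s : Fin n, c s τ * F τ ^ (n - 1 - (s : ℕ)) = 0)
    (γ : SL(2, ℤ)) (hc0 : ∀ s : Fin n, IsZeroAtImInfty (c s ∣[k * ((s : ℕ) + 1)] γ)) :
    IsZeroAtImInfty (F ∣[k] γ) := by
  have hn : n ≠ 0 := by
    rintro rfl
    have := hrel UpperHalfPlane.I
    simp at this
  have hrelγ := slash_monic_relation (k := k) hrel γ
  have hS : Tendsto (fun τ : ℍ => ∑ s : Fin n, ‖(c s ∣[k * ((s : ℕ) + 1)] γ) τ‖)
      atImInfty (𝓝 0) := by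
    have h1 : Tendsto (fun τ : ℍ => ∑ s : Fin n, ‖(c s ∣[k * ((s : ℕ) + 1)] γ) τ‖)
        atImInfty (𝓝 (∑ _s : Fin n, (0 : ℝ))) :=
      tendsto_finsetSum _ fun s _ => by
        have h2 : Tendsto (c s ∣[k * ((s : ℕ) + 1)] γ) atImInfty (𝓝 0) := hc0 s
        simpa using h2.norm
    simpa using h1
  have hle1 : ∀ᶠ τ in atImInfty, ∑ s : Fin n, ‖(c s ∣[k * ((s : ℕ) + 1)] γ) τ‖ ≤ 1 :=
    hS.eventually_le_const one_pos
  have hpow : Tendsto (fun τ : ℍ => ‖(F ∣[k] γ) τ‖ ^ n) atImInfty (𝓝 0) := by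
    refine tendsto_of_tendsto_of_tendsto_of_le_of_le' tendsto_const_nhds hS
      (Eventually.of_forall fun τ => by positivity) ?_
    filter_upwards [hle1] with τ hτ
    exact norm_pow_le_of_monic_eq _ _ (hrelγ τ) hτ
  have hninv : ((n : ℝ)⁻¹) ≠ 0 := inv_ne_zero (Nat.cast_ne_zero.mpr hn)
  have hroot' : Tendsto (fun τ : ℍ => (‖(F ∣[k] γ) τ‖ ^ n) ^ ((n : ℝ)⁻¹)) atImInfty
      (𝓝 ((0 : ℝ) ^ ((n : ℝ)⁻¹))) :=
    hpow.rpow_const (Or.inr (by positivity))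
  rw [Real.zero_rpow hninv] at hroot'
  have he : (fun τ : ℍ => (‖(F ∣[k] γ) τ‖ ^ n) ^ ((n : ℝ)⁻¹)) =
      fun τ => ‖(F ∣[k] γ) τ‖ := by
    funext τ
    exact Real.pow_rpow_inv_natCast (norm_nonneg _) hn
  rw [he] at hroot'
  exact tendsto_zero_iff_norm_tendsto_zero.mpr hroot'

/-- A root of a monic polynomial whose coefficients have translates bounded at `i∞` has
translates bounded at `i∞`. -/
theorem isBoundedAtImInfty_slash_of_monic_relation {k : ℤ} {n : ℕ} {F : ℍ → ℂ}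
    {c : Fin n → ℍ → ℂ}
    (hrel : ∀ τ : ℍ, F τ ^ n + ∑ s : Fin n, c s τ * F τ ^ (n - 1 - (s : ℕ)) = 0)
    (γ : SL(2, ℤ)) (hc0 : ∀ s : Fin n, IsBoundedAtImInfty (c s ∣[k * ((s : ℕ) + 1)] γ)) :
    IsBoundedAtImInfty (F ∣[k] γ) := by
  have hrelγ := slash_monic_relation (k := k) hrel γ
  choose M A hMA using fun s : Fin n => isBoundedAtImInfty_iff.mp (hc0 s)
  rw [isBoundedAtImInfty_iff]
  refine ⟨max 1 (∑ s : Fin n, M s), ∑ s : Fin n, |A s|, fun τ hτ => ?_⟩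
  refine (norm_le_of_monic_eq _ _ (hrelγ τ)).trans ?_
  refine max_le_max le_rfl (Finset.sum_le_sum fun s _ => hMA s τ ?_)
  refine le_trans ?_ hτ
  exact (le_abs_self _).trans
    (Finset.single_le_sum (f := fun s => |A s|) (fun i _ => abs_nonneg _) (Finset.mem_univ s))

/-- **Integrality criterion, general form.**  Let `Γ` be an arithmetic subgroup, `P`, `Q`
modular forms of weights `w + k`, `w` with `Q ≠ 0`, and suppose `P / Q` is a root of a monic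
polynomial whose coefficients `c s` (`s = 0, …, n - 1`, "of weight `k (s + 1)`") are continuous
functions on `ℍ` all of whose `SL(2, ℤ)`-translates vanish at `i∞`.  Then `P / Q` is a cusp form
of weight `k` for `Γ`. -/
theorem exists_cuspForm_of_monic_relation (Γ : Subgroup (GL (Fin 2) ℝ)) [Γ.IsArithmetic]
    {k w : ℤ} (P : ModularForm Γ (w + k)) (Q : ModularForm Γ w) (hQ : Q ≠ 0) (n : ℕ)
    (c : Fin n → ℍ → ℂ) (hc : ∀ s, Continuous (c s))
    (hc0 : ∀ (s : Fin n) (γ : SL(2, ℤ)), IsZeroAtImInfty (c s ∣[k * ((s : ℕ) + 1)] γ))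
    (h : ∀ τ : ℍ, P τ ^ n +
      ∑ s : Fin n, c s τ * P τ ^ (n - 1 - (s : ℕ)) * Q τ ^ ((s : ℕ) + 1) = 0) :
    ∃ F : CuspForm Γ k, (∀ τ : ℍ, F τ * Q τ = P τ) ∧
      ∀ τ : ℍ, F τ ^ n + ∑ s : Fin n, c s τ * F τ ^ (n - 1 - (s : ℕ)) = 0 := by
  have hQ0 : (Q : ℍ → ℂ) ≠ 0 := fun h0 => hQ (DFunLike.coe_injective (by rw [h0]; rfl))
  obtain ⟨F, hFholo, hslash, hFQ, hrel⟩ := exists_holomorphic_quotient Γ P.holo' Q.holo'
    (SlashInvariantFormClass.slash_action_eq P) (SlashInvariantFormClass.slash_action_eq Q)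
    hQ0 n c hc h
  refine ⟨{ toFun := F
            slash_action_eq' := hslash
            holo' := hFholo
            zero_at_cusps' := fun {c₀} hc₀ => ?_ }, hFQ, hrel⟩
  have hc' : IsCusp c₀ 𝒮ℒ := (Subgroup.IsArithmetic.isCusp_iff_isCusp_SL2Z Γ).mp hc₀
  exact (OnePoint.isZeroAt_iff_forall_SL2Z hc').mpr fun γ _ =>
    isZeroAtImInfty_slash_of_monic_relation hrel γ fun s => hc0 s γ

/-- Variant of `exists_cuspForm_of_monic_relation` with coefficients whose translates are only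
bounded at `i∞`: then `P / Q` is a modular form of weight `k` for `Γ`. -/
theorem exists_modularForm_of_monic_relation (Γ : Subgroup (GL (Fin 2) ℝ)) [Γ.IsArithmetic]
    {k w : ℤ} (P : ModularForm Γ (w + k)) (Q : ModularForm Γ w) (hQ : Q ≠ 0) (n : ℕ)
    (c : Fin n → ℍ → ℂ) (hc : ∀ s, Continuous (c s))
    (hc0 : ∀ (s : Fin n) (γ : SL(2, ℤ)), IsBoundedAtImInfty (c s ∣[k * ((s : ℕ) + 1)] γ))
    (h : ∀ τ : ℍ, P τ ^ n +
      ∑ s : Fin n, c s τ * P τ ^ (n - 1 - (s : ℕ)) * Q τ ^ ((s : ℕ) + 1) = 0) :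
    ∃ F : ModularForm Γ k, (∀ τ : ℍ, F τ * Q τ = P τ) ∧
      ∀ τ : ℍ, F τ ^ n + ∑ s : Fin n, c s τ * F τ ^ (n - 1 - (s : ℕ)) = 0 := by
  have hQ0 : (Q : ℍ → ℂ) ≠ 0 := fun h0 => hQ (DFunLike.coe_injective (by rw [h0]; rfl))
  obtain ⟨F, hFholo, hslash, hFQ, hrel⟩ := exists_holomorphic_quotient Γ P.holo' Q.holo'
    (SlashInvariantFormClass.slash_action_eq P) (SlashInvariantFormClass.slash_action_eq Q)
    hQ0 n c hc h
  refine ⟨{ toFun := F
            slash_action_eq' := hslash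
            holo' := hFholo
            bdd_at_cusps' := fun {c₀} hc₀ => ?_ }, hFQ, hrel⟩
  have hc' : IsCusp c₀ 𝒮ℒ := (Subgroup.IsArithmetic.isCusp_iff_isCusp_SL2Z Γ).mp hc₀
  exact (OnePoint.isBoundedAt_iff_forall_SL2Z hc').mpr fun γ _ =>
    isBoundedAtImInfty_slash_of_monic_relation hrel γ fun s => hc0 s γ

/-- **Integrality criterion** with level-one cusp-form coefficients, for an arbitrary arithmetic
subgroup `Γ`: if `Pⁿ + c₁ Pⁿ⁻¹ Q + ⋯ + cₙ Qⁿ = 0` with `c_s ∈ S_{ks}(SL(2, ℤ))` and `Q ≠ 0`,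
then `P / Q` is a cusp form of weight `k` for `Γ`. -/
theorem integrality_criterion_arithmetic (Γ : Subgroup (GL (Fin 2) ℝ)) [Γ.IsArithmetic]
    {k w : ℤ} (P : ModularForm Γ (w + k)) (Q : ModularForm Γ w) (hQ : Q ≠ 0) (n : ℕ)
    (c : (s : Fin n) → CuspForm 𝒮ℒ (k * ((s : ℕ) + 1)))
    (h : ∀ τ : ℍ, P τ ^ n +
      ∑ s : Fin n, c s τ * P τ ^ (n - 1 - (s : ℕ)) * Q τ ^ ((s : ℕ) + 1) = 0) :
    ∃ F : CuspForm Γ k, ∀ τ : ℍ, F τ * Q τ = P τ := by
  obtain ⟨F, hF, -⟩ := exists_cuspForm_of_monic_relation Γ P Q hQ n (fun s => ⇑(c s))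
    (fun s => (c s).holo'.continuous)
    (fun s γ => CuspFormClass.zero_at_infty_slash (c s) γ) h
  exact ⟨F, hF⟩

/-- Level-one modular-form coefficients: if `Pⁿ + c₁ Pⁿ⁻¹ Q + ⋯ + cₙ Qⁿ = 0` with
`c_s ∈ M_{ks}(SL(2, ℤ))` and `Q ≠ 0`, then `P / Q` is a modular form of weight `k` for `Γ`. -/
theorem integrality_criterion_modularForm (Γ : Subgroup (GL (Fin 2) ℝ)) [Γ.IsArithmetic]
    {k w : ℤ} (P : ModularForm Γ (w + k)) (Q : ModularForm Γ w) (hQ : Q ≠ 0) (n : ℕ)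
    (c : (s : Fin n) → ModularForm 𝒮ℒ (k * ((s : ℕ) + 1)))
    (h : ∀ τ : ℍ, P τ ^ n +
      ∑ s : Fin n, c s τ * P τ ^ (n - 1 - (s : ℕ)) * Q τ ^ ((s : ℕ) + 1) = 0) :
    ∃ F : ModularForm Γ k, ∀ τ : ℍ, F τ * Q τ = P τ := by
  obtain ⟨F, hF, -⟩ := exists_modularForm_of_monic_relation Γ P Q hQ n (fun s => ⇑(c s))
    (fun s => (c s).holo'.continuous)
    (fun s γ => ModularFormClass.bdd_at_infty_slash (c s) γ) h
  exact ⟨F, hF⟩

/-- **Integrality criterion (W5 of the S23 plan)**, for `Γ₀(N)`; the group is written exactly as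
the abbreviation `G0 N` of the plan unfolds. -/
theorem integrality_criterion (N : ℕ) [NeZero N] {k w : ℤ}
    (P : ModularForm
      (Subgroup.map (Matrix.SpecialLinearGroup.mapGL ℝ) (CongruenceSubgroup.Gamma0 N)) (w + k))
    (Q : ModularForm
      (Subgroup.map (Matrix.SpecialLinearGroup.mapGL ℝ) (CongruenceSubgroup.Gamma0 N)) w)
    (hQ : Q ≠ 0) (n : ℕ)
    (c : (s : Fin n) → CuspForm 𝒮ℒ (k * ((s : ℕ) + 1)))
    (h : ∀ τ : ℍ, P τ ^ n +
      ∑ s : Fin n, c s τ * P τ ^ (n - 1 - (s : ℕ)) * Q τ ^ ((s : ℕ) + 1) = 0) :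
    ∃ F : CuspForm
      (Subgroup.map (Matrix.SpecialLinearGroup.mapGL ℝ) (CongruenceSubgroup.Gamma0 N)) k,
      ∀ τ : ℍ, F τ * Q τ = P τ :=
  integrality_criterion_arithmetic _ P Q hQ n c h

end Fermat.Agent.S23.IntegralityGen
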