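import Mathlib
import Fermat.Prelude.Thm_UpperHalfPlane_qExpansion_coeff_nat_mul
import Fermat.Prelude.Thm_CongruenceSubgroup_one_mem_strictPeriods_Gamma0

set_option autoImplicit false

namespace Fermat.Agent.S23.LevelRaiseDg

open UpperHalfPlane ModularForm CongruenceSubgroup Matrix.SpecialLinearGroup
open scoped MatrixGroups Manifold ModularForm Pointwise

/-- The matrix `diag(N, 1)` in `GL(2, ℝ)`. -/
noncomputable def dg (N : ℕ) [NeZero N] : GL (Fin 2) ℝ :=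
  Matrix.GeneralLinearGroup.mkOfDetNeZero !![(N : ℝ), 0; 0, 1]
    (by simp [Matrix.det_fin_two, NeZero.ne N])

lemma dg_det (N : ℕ) [NeZero N] : (dg N).det.val = (N : ℝ) := by
  simp [dg, Matrix.GeneralLinearGroup.mkOfDetNeZero, Matrix.det_fin_two]

lemma dg_det_pos (N : ℕ) [NeZero N] : 0 < (dg N).det.val := by
  rw [dg_det]; exact_mod_cast Nat.pos_of_ne_zero (NeZero.ne N)

lemma coe_dg_smul (N : ℕ) [NeZero N] (τ : ℍ) : ((dg N • τ : ℍ) : ℂ) = (N : ℂ) * (τ : ℂ) := by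
  rw [UpperHalfPlane.glPos_smul_def (dg_det_pos N)]
  simp [UpperHalfPlane.num, UpperHalfPlane.denom, dg, Matrix.GeneralLinearGroup.mkOfDetNeZero]


/-- conjugate of an element of Gamma0 N by diag(N,1) -/
def conjSL (N : ℕ) (γ : SL(2, ℤ)) (c' : ℤ) (hc : γ 1 0 = N * c') : SL(2, ℤ) :=
  ⟨!![γ 0 0, N * γ 0 1; c', γ 1 1], by
    have h := γ.det_coe
    rw [Matrix.det_fin_two] at h
    rw [Matrix.det_fin_two_of]
    rw [hc] at h
    linarith⟩

lemma coe_conjSL (N : ℕ) (γ : SL(2, ℤ)) (c' : ℤ) (hc : γ 1 0 = N * c') :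
    (conjSL N γ c' hc : Matrix (Fin 2) (Fin 2) ℤ) = !![γ 0 0, N * γ 0 1; c', γ 1 1] := rfl

lemma dg_mul_mapGL (N : ℕ) [NeZero N] (γ : SL(2, ℤ)) (c' : ℤ) (hc : γ 1 0 = N * c') :
    dg N * mapGL ℝ γ = mapGL ℝ (conjSL N γ c' hc) * dg N := by
  apply Matrix.GeneralLinearGroup.ext
  intro i j
  have hc' : ((γ 1 0 : ℤ) : ℝ) = N * c' := by exact_mod_cast congrArg (Int.cast : ℤ → ℝ) hc
  rw [Matrix.GeneralLinearGroup.coe_mul, Matrix.GeneralLinearGroup.coe_mul, mapGL_coe_matrix,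
    mapGL_coe_matrix, Matrix.SpecialLinearGroup.map_apply_coe,
    Matrix.SpecialLinearGroup.map_apply_coe, coe_conjSL]
  fin_cases i <;> fin_cases j <;>
    simp [dg, Matrix.GeneralLinearGroup.mkOfDetNeZero, Matrix.mul_apply, Fin.sum_univ_two,
      hc', mul_comm]

lemma gamma0_le_conj (N : ℕ) [NeZero N] :
    (Gamma0 N).map (mapGL ℝ) ≤ ConjAct.toConjAct (dg N)⁻¹ • (𝒮ℒ : Subgroup (GL (Fin 2) ℝ)) := by
  rintro x ⟨γ, hγ, rfl⟩
  rw [Subgroup.mem_pointwise_smul_iff_inv_smul_mem, ← map_inv, inv_inv, ConjAct.toConjAct_smul]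
  rw [SetLike.mem_coe, Gamma0_mem] at hγ
  obtain ⟨c', hc⟩ : (N : ℤ) ∣ γ 1 0 := (ZMod.intCast_zmod_eq_zero_iff_dvd _ _).mp hγ
  exact ⟨conjSL N γ c' hc, by rw [dg_mul_mapGL N γ c' hc, mul_inv_cancel_right]⟩

/-- Restriction of a modular form to a smaller group. -/
def restrict {Γ Γ' : Subgroup (GL (Fin 2) ℝ)} (h : Γ' ≤ Γ) {k : ℤ} (f : ModularForm Γ k) :
    ModularForm Γ' k where
  toFun := f
  slash_action_eq' γ hγ := f.slash_action_eq' γ (h hγ)
  holo' := f.holo'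
  bdd_at_cusps' hc := f.bdd_at_cusps' (hc.mono h)

lemma coe_restrict {Γ Γ' : Subgroup (GL (Fin 2) ℝ)} (h : Γ' ≤ Γ) {k : ℤ} (f : ModularForm Γ k) :
    ⇑(restrict h f) = ⇑f := rfl

lemma slash_dg_apply (N : ℕ) [NeZero N] (k : ℤ) (f : ℍ → ℂ) (τ : ℍ) :
    (f ∣[k] dg N) τ = f (dg N • τ) * (N : ℂ) ^ (k - 1) := by
  rw [ModularForm.slash_apply]
  have h1 : UpperHalfPlane.σ (dg N) = ContinuousAlgEquiv.refl ℝ ℂ := by
    rw [UpperHalfPlane.σ, if_pos (dg_det_pos N)]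
  have h2 : UpperHalfPlane.denom (dg N) τ = 1 := by
    simp [UpperHalfPlane.denom, dg, Matrix.GeneralLinearGroup.mkOfDetNeZero]
  rw [h1, h2, dg_det]
  simp

/-- `τ ↦ F (N τ)` as a modular form of level `Γ₀(N)`, for `F` of level one. -/
noncomputable def levelRaise (N : ℕ) [NeZero N] {k : ℤ} (F : ModularForm 𝒮ℒ k) :
    ModularForm (Gamma0 N) k :=
  ((N : ℂ) ^ (1 - k)) • restrict (gamma0_le_conj N) (ModularForm.translate F (dg N))

lemma levelRaise_apply (N : ℕ) [NeZero N] {k : ℤ} (F : ModularForm 𝒮ℒ k) (τ : ℍ) :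
    levelRaise N F τ = F (dg N • τ) := by
  have hN : (N : ℂ) ≠ 0 := Nat.cast_ne_zero.mpr (NeZero.ne N)
  simp only [levelRaise, smul_apply, coe_restrict, ModularForm.coe_translate, slash_dg_apply,
    smul_eq_mul]
  rw [mul_comm, mul_assoc, ← zpow_add₀ hN]
  simp

lemma coe_levelRaise (N : ℕ) [NeZero N] {k : ℤ} (F : ModularForm 𝒮ℒ k) :
    ⇑(levelRaise N F) = fun τ : ℍ ↦ F (dg N • τ) :=
  funext (levelRaise_apply N F)

lemma levelRaise_add (N : ℕ) [NeZero N] {k : ℤ} (F G : ModularForm 𝒮ℒ k) :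
    levelRaise N (F + G) = levelRaise N F + levelRaise N G := by
  ext τ
  simp [levelRaise_apply]

lemma levelRaise_smul (N : ℕ) [NeZero N] {k : ℤ} (c : ℂ) (F : ModularForm 𝒮ℒ k) :
    levelRaise N (c • F) = c • levelRaise N F := by
  ext τ
  simp [levelRaise_apply]

lemma levelRaise_zero (N : ℕ) [NeZero N] {k : ℤ} :
    levelRaise N (0 : ModularForm 𝒮ℒ k) = 0 := by
  ext τ
  simp [levelRaise_apply]

/-- `levelRaise` as a `ℂ`-linear map. -/
noncomputable def levelRaiseLin (N : ℕ) [NeZero N] (k : ℤ) :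
    ModularForm 𝒮ℒ k →ₗ[ℂ] ModularForm (Gamma0 N) k where
  toFun := levelRaise N
  map_add' := levelRaise_add N
  map_smul' := levelRaise_smul N

lemma levelRaiseLin_apply (N : ℕ) [NeZero N] {k : ℤ} (F : ModularForm 𝒮ℒ k) :
    levelRaiseLin N k F = levelRaise N F := rfl

lemma levelRaise_mul (N : ℕ) [NeZero N] {k₁ k₂ : ℤ} (F : ModularForm 𝒮ℒ k₁)
    (G : ModularForm 𝒮ℒ k₂) :
    levelRaise N (F.mul G) = (levelRaise N F).mul (levelRaise N G) := by
  ext τ
  simp [levelRaise_apply, ModularForm.coe_mul]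

lemma dg_smul_surjective (N : ℕ) [NeZero N] : Function.Surjective fun τ : ℍ ↦ dg N • τ :=
  fun τ ↦ ⟨(dg N)⁻¹ • τ, by simp [← mul_smul]⟩

lemma levelRaise_injective (N : ℕ) [NeZero N] {k : ℤ} :
    Function.Injective (levelRaise N : ModularForm 𝒮ℒ k → ModularForm (Gamma0 N) k) := by
  intro F G h
  ext τ
  obtain ⟨τ', rfl⟩ := dg_smul_surjective N τ
  have := congrArg (fun f : ModularForm (Gamma0 N) k ↦ f τ') h
  simpa [levelRaise_apply] using this

lemma levelRaise_ne_zero (N : ℕ) [NeZero N] {k : ℤ} {F : ModularForm 𝒮ℒ k} (hF : F ≠ 0) :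
    levelRaise N F ≠ 0 := by
  intro h
  exact hF (levelRaise_injective N (h.trans (levelRaise_zero N).symm))

/-- Restriction of a cusp form to a smaller group. -/
def restrictCusp {Γ Γ' : Subgroup (GL (Fin 2) ℝ)} (h : Γ' ≤ Γ) {k : ℤ} (f : CuspForm Γ k) :
    CuspForm Γ' k where
  toFun := f
  slash_action_eq' γ hγ := f.slash_action_eq' γ (h hγ)
  holo' := f.holo'
  zero_at_cusps' hc := f.zero_at_cusps' (hc.mono h)

lemma coe_restrictCusp {Γ Γ' : Subgroup (GL (Fin 2) ℝ)} (h : Γ' ≤ Γ) {k : ℤ} (f : CuspForm Γ k) :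
    ⇑(restrictCusp h f) = ⇑f := rfl

/-- `τ ↦ F (N τ)` as a cusp form of level `Γ₀(N)`, for a cusp form `F` of level one. -/
noncomputable def levelRaiseCusp (N : ℕ) [NeZero N] {k : ℤ} (F : CuspForm 𝒮ℒ k) :
    CuspForm (Gamma0 N) k :=
  ((N : ℂ) ^ (1 - k)) • restrictCusp (gamma0_le_conj N) (CuspForm.translate F (dg N))

lemma levelRaiseCusp_apply (N : ℕ) [NeZero N] {k : ℤ} (F : CuspForm 𝒮ℒ k) (τ : ℍ) :
    levelRaiseCusp N F τ = F (dg N • τ) := by
  have hN : (N : ℂ) ≠ 0 := Nat.cast_ne_zero.mpr (NeZero.ne N)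
  have h1 : (restrictCusp (gamma0_le_conj N) (CuspForm.translate F (dg N))) τ
      = ((F : ℍ → ℂ) ∣[k] dg N) τ := rfl
  simp only [levelRaiseCusp, smul_apply, h1, slash_dg_apply, smul_eq_mul]
  rw [mul_comm, mul_assoc, ← zpow_add₀ hN]
  simp

lemma qParam_dg_smul (N : ℕ) [NeZero N] (τ : ℍ) :
    Function.Periodic.qParam (N : ℝ) ((dg N • τ : ℍ) : ℂ) = Function.Periodic.qParam 1 (τ : ℂ) := by
  have hN : (N : ℂ) ≠ 0 := Nat.cast_ne_zero.mpr (NeZero.ne N)
  rw [coe_dg_smul, Function.Periodic.qParam, Function.Periodic.qParam]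
  congr 1
  push_cast
  field_simp

/-- Function-level statement: if `G τ = F (N τ)` then the `q`-expansion of `G` is the
`q`-expansion of `F` in `q^N`. -/
theorem qExpansion_coeff_of_eq_comp_dg (N : ℕ) [NeZero N] {F : ℍ → ℂ}
    {Fn : Type*} [FunLike Fn ℍ ℂ] (G : Fn)
    (hper : Function.Periodic (F ∘ ofComplex) 1) (hhol : MDiff F) (hbdd : IsBoundedAtImInfty F)
    (hG : ∀ τ : ℍ, G τ = F (dg N • τ)) (hGan : AnalyticAt ℂ (cuspFunction 1 G) 0) (n : ℕ) :
    (qExpansion 1 G).coeff n = if N ∣ n then (qExpansion 1 F).coeff (n / N) else 0 := by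
  have hNpos : 0 < N := Nat.pos_of_ne_zero (NeZero.ne N)
  have hNR : (0 : ℝ) < N := by exact_mod_cast hNpos
  have hperN : Function.Periodic (F ∘ ofComplex) (N : ℝ) := by
    simpa using hper.nat_mul N
  have hsum : ∀ τ : ℍ, HasSum (fun m ↦ (qExpansion (N : ℝ) F).coeff m •
      Function.Periodic.qParam 1 (τ : ℂ) ^ m) (G τ) := by
    intro τ
    have := UpperHalfPlane.hasSum_qExpansion hNR hperN hhol hbdd (dg N • τ)
    rwa [qParam_dg_smul, ← hG] at this
  have h1 := qExpansion_coeff_unique G one_pos hGan hsum n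
  have h2 := UpperHalfPlane.qExpansion_coeff_nat_mul one_pos hper hhol hbdd hNpos n
  rw [mul_one] at h2
  rw [← h1, h2]

/-- The `q`-expansion of `F(Nτ)` is the `q`-expansion of `F` in `q^N`. -/
theorem qExpansion_levelRaise_coeff (N : ℕ) [NeZero N] {k : ℤ} (F : ModularForm 𝒮ℒ k) (n : ℕ) :
    (qExpansion 1 (levelRaise N F)).coeff n =
      if N ∣ n then (qExpansion 1 F).coeff (n / N) else 0 :=
  qExpansion_coeff_of_eq_comp_dg N (levelRaise N F)
    (SlashInvariantFormClass.periodic_comp_ofComplex F one_mem_strictPeriods_SL)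
    (ModularFormClass.holo F) (ModularFormClass.bdd_at_infty F) (levelRaise_apply N F)
    (ModularFormClass.analyticAt_cuspFunction_zero (levelRaise N F) one_pos
      (CongruenceSubgroup.one_mem_strictPeriods_Gamma0 N)) n

/-- The `q`-expansion of `F(Nτ)` is the `q`-expansion of `F` in `q^N` (cusp form version). -/
theorem qExpansion_levelRaiseCusp_coeff (N : ℕ) [NeZero N] {k : ℤ} (F : CuspForm 𝒮ℒ k) (n : ℕ) :
    (qExpansion 1 (levelRaiseCusp N F)).coeff n =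
      if N ∣ n then (qExpansion 1 F).coeff (n / N) else 0 :=
  qExpansion_coeff_of_eq_comp_dg N (levelRaiseCusp N F)
    (SlashInvariantFormClass.periodic_comp_ofComplex F one_mem_strictPeriods_SL)
    (ModularFormClass.holo F) (ModularFormClass.bdd_at_infty F) (levelRaiseCusp_apply N F)
    (ModularFormClass.analyticAt_cuspFunction_zero (levelRaiseCusp N F) one_pos
      (CongruenceSubgroup.one_mem_strictPeriods_Gamma0 N)) n

/-- Integrality of `q`-coefficients is preserved by `levelRaise`. -/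
theorem qExpansion_levelRaise_coeff_int (N : ℕ) [NeZero N] {k : ℤ} (F : ModularForm 𝒮ℒ k)
    (hF : ∀ n : ℕ, ∃ m : ℤ, (qExpansion 1 F).coeff n = (m : ℂ)) (n : ℕ) :
    ∃ m : ℤ, (qExpansion 1 (levelRaise N F)).coeff n = (m : ℂ) := by
  rw [qExpansion_levelRaise_coeff]
  split_ifs
  · exact hF _
  · exact ⟨0, by simp⟩

end Fermat.Agent.S23.LevelRaiseDg
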