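import Mathlib
import Fermat.Agent.S23.Basic
import Fermat.Agent.S23.RatSpan
import Fermat.Agent.S23.Backward
import Fermat.Agent.S23.Endgame

set_option autoImplicit false

namespace Fermat.Agent.S23.WiringB

open UpperHalfPlane ModularForm Filter Topology PowerSeries
open Fermat.Agent.S23.RatSpan Fermat.Agent.S23.Backward Fermat.Agent.S23.Series
  Fermat.Agent.S23.Cert Fermat.Agent.S23.Defs
open scoped MatrixGroups Manifold

theorem hΓ0 (N : ℕ) : (1 : ℝ) ∈ (G0 N).strictPeriods :=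
  CongruenceSubgroup.one_mem_strictPeriods_Gamma0 N

/-- pointwise product relation gives the product relation of `q`-expansions. -/
theorem qExp_mul_of_pointwise (N : ℕ) {k w : ℤ} (f : CuspForm (G0 N) k)
    (Q : ModularForm (G0 N) w) (P : ModularForm (G0 N) (w + k))
    (h : ∀ τ, f τ * Q τ = P τ) : qExpansion 1 f * qExpansion 1 Q = qExpansion 1 P := by
  have hFQ : (f : ℍ → ℂ) * (Q : ℍ → ℂ) = (P : ℍ → ℂ) := funext h
  rw [← hFQ, qExpansion_mul (Nice.analytic (nice_G0 N f)) (Nice.analytic (nice_G0 N Q))]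

/-- pointwise monic relation gives the monic relation of `q`-expansions. -/
theorem qExp_monic_of_pointwise (N : ℕ) {k : ℤ} (f : CuspForm (G0 N) k) (n : ℕ)
    (c : (s : Fin n) → CuspForm 𝒮ℒ (k * ((s : ℕ) + 1)))
    (h : ∀ τ, f τ ^ n + ∑ s : Fin n, c s τ * f τ ^ (n - 1 - (s : ℕ)) = 0) :
    qExpansion 1 f ^ n + ∑ s : Fin n, qExpansion 1 (c s) * qExpansion 1 f ^ (n - 1 - (s : ℕ)) = 0 := by
  let fn : niceSub := ⟨f, nice_G0 N f⟩
  let cn : Fin n → niceSub := fun s => ⟨c s, nice_SL (c s)⟩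
  let H : niceSub := fn ^ n + ∑ s : Fin n, cn s * fn ^ (n - 1 - (s : ℕ))
  have hH0 : H = 0 := by
    apply Subtype.ext
    funext τ
    simpa [H, fn, cn] using h τ
  have hH : qExpHom H = 0 := by rw [hH0, map_zero]
  simp only [H, map_add, map_pow, map_sum, map_mul] at hH
  exact hH

theorem qExp_ne_zero (N : ℕ) {w : ℤ} (Q : ModularForm (G0 N) w) (hQ : Q ≠ 0) :
    qExpansion 1 Q ≠ 0 := by
  intro h
  apply hQ
  have := (nice_G0 N Q).eq_zero_of_qExpansion h
  exact DFunLike.coe_injective this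

/-- conjugation of a level-one cusp form in the span of integral ones. -/
theorem cusp_conj {K : ℤ} (g : CuspForm 𝒮ℒ K)
    (hg : g ∈ Submodule.span ℂ {h : CuspForm 𝒮ℒ K | IsIntPS (qExpansion 1 h)}) (σ : ℂ →+* ℂ) :
    ∃ g' : CuspForm 𝒮ℒ K, qExpansion 1 g' = (qExpansion 1 g).map σ := by
  refine Submodule.span_induction
    (p := fun (x : CuspForm 𝒮ℒ K) _ => ∃ g' : CuspForm 𝒮ℒ K,
      qExpansion 1 g' = (qExpansion 1 x).map σ) ?_ ?_ ?_ ?_ hg
  · intro x hx
    exact ⟨x, (IsIntPS.map_eq hx σ).symm⟩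
  · refine ⟨0, ?_⟩
    rw [FunLike.coe_zero, qExpansion_zero, map_zero]
  · rintro x y _ _ ⟨x', hx⟩ ⟨y', hy⟩
    refine ⟨x' + y', ?_⟩
    rw [FunLike.coe_add, FunLike.coe_add,
      qExpansion_add (Nice.analytic (nice_SL x')) (Nice.analytic (nice_SL y')),
      qExpansion_add (Nice.analytic (nice_SL x)) (Nice.analytic (nice_SL y)), hx, hy, map_add]
  · rintro a x _ ⟨x', hx⟩
    refine ⟨σ a • x', ?_⟩
    rw [FunLike.coe_smul, FunLike.coe_smul, qExpansion_smul (Nice.analytic (nice_SL x')),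
      qExpansion_smul (Nice.analytic (nice_SL x)), hx]
    ext n
    simp

/-- `q`-expansions of elements of `ratSpan` lie in the complex span of integral series. -/
theorem qExp_mem_span_of_ratSpan (N : ℕ) {w : ℤ} (Q : ModularForm (G0 N) w)
    (hQ : Q ∈ ratSpan (G0 N) w) :
    qExpansion 1 Q ∈ Submodule.span ℂ {M : PowerSeries ℂ | IsInt M} := by
  refine Submodule.span_induction
    (p := fun (x : ModularForm (G0 N) w) _ =>
      qExpansion 1 x ∈ Submodule.span ℂ {M : PowerSeries ℂ | IsInt M}) ?_ ?_ ?_ ?_ hQ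
  · intro x hx
    exact Submodule.subset_span hx
  · rw [FunLike.coe_zero, qExpansion_zero]
    exact Submodule.zero_mem _
  · intro x y _ _ hx hy
    rw [FunLike.coe_add, qExpansion_add (Nice.analytic (nice_G0 N x)) (Nice.analytic (nice_G0 N y))]
    exact Submodule.add_mem _ hx hy
  · intro a x _ hx
    rw [FunLike.coe_smul, qExpansion_smul (Nice.analytic (nice_G0 N x))]
    exact Submodule.smul_mem _ _ hx

theorem qExp_mem_span_of_cusp {K : ℤ} (g : CuspForm 𝒮ℒ K)
    (hg : g ∈ Submodule.span ℂ {h : CuspForm 𝒮ℒ K | IsIntPS (qExpansion 1 h)}) :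
    qExpansion 1 g ∈ Submodule.span ℂ {M : PowerSeries ℂ | IsInt M} := by
  refine Submodule.span_induction
    (p := fun (x : CuspForm 𝒮ℒ K) _ =>
      qExpansion 1 x ∈ Submodule.span ℂ {M : PowerSeries ℂ | IsInt M}) ?_ ?_ ?_ ?_ hg
  · intro x hx
    exact Submodule.subset_span hx
  · rw [FunLike.coe_zero, qExpansion_zero]
    exact Submodule.zero_mem _
  · intro x y _ _ hx hy
    rw [FunLike.coe_add, qExpansion_add (Nice.analytic (nice_SL x)) (Nice.analytic (nice_SL y))]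
    exact Submodule.add_mem _ hx hy
  · intro a x _ hx
    rw [FunLike.coe_smul, qExpansion_smul (Nice.analytic (nice_SL x))]
    exact Submodule.smul_mem _ _ hx

/-- the monic relation in the `CritII` shape (sum over `Finset.range n` with increasing powers). -/
theorem critII_of_monic {n : ℕ} (γ : Fin n → PowerSeries ℂ) (φ : PowerSeries ℂ)
    (hγ : ∀ s, γ s ∈ Submodule.span ℂ {M : PowerSeries ℂ | IsInt M})
    (h : φ ^ n + ∑ s : Fin n, γ s * φ ^ (n - 1 - (s : ℕ)) = 0) :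
    CritII (fun _ _ => {M : PowerSeries ℂ | IsInt M}) φ := by
  refine ⟨n, fun i => if hi : i < n then γ (Fin.rev ⟨i, hi⟩) else 0, ?_, ?_⟩
  · intro i hi
    simp only [dif_pos hi]
    exact hγ _
  · have e : ∑ i ∈ Finset.range n,
        (fun i => if hi : i < n then γ (Fin.rev ⟨i, hi⟩) else 0) i * φ ^ i =
        ∑ s : Fin n, γ s * φ ^ (n - 1 - (s : ℕ)) := by
      rw [Finset.sum_range,
        ← Equiv.sum_comp Fin.revPerm (fun s : Fin n => γ s * φ ^ (n - 1 - (s : ℕ)))]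
      refine Finset.sum_congr rfl fun i _ => ?_
      have h1 : n - 1 - ((Fin.revPerm i : Fin n) : ℕ) = (i : ℕ) := by
        rw [Fin.revPerm_apply, Fin.val_rev]
        have := i.2
        omega
      simp only [dif_pos i.2, h1]
      rfl
    rw [e]
    exact h

/-- Backup wiring: the integral structure from the fraction lemma, the norm polynomial and the
level-one cusp span. -/
theorem hasIntegralStructure_of_parts (N : ℕ) [NeZero N] (k : ℤ)
    (hfrac : ∀ f : CuspForm (G0 N) k, ∃ (w : ℤ) (Q : ModularForm (G0 N) w)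
      (P : ModularForm (G0 N) (w + k)), Q ≠ 0 ∧ (∀ τ, f τ * Q τ = P τ) ∧
        Q ∈ ratSpan (G0 N) w ∧ P ∈ ratSpan (G0 N) (w + k))
    (hnorm : ∀ f : CuspForm (G0 N) k, ∃ (n : ℕ)
      (c : (s : Fin n) → CuspForm 𝒮ℒ (k * ((s : ℕ) + 1))),
        ∀ τ, f τ ^ n + ∑ s : Fin n, c s τ * f τ ^ (n - 1 - (s : ℕ)) = 0)
    (hcusp : ∀ (K : ℤ) (g : CuspForm 𝒮ℒ K),
      g ∈ Submodule.span ℂ {h : CuspForm 𝒮ℒ K | IsIntPS (qExpansion 1 h)}) :
    CuspForm.HasIntegralStructure N k := by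
  refine Endgame.hasIntegralStructure_of_crit N k
    (fun φ => ∃ f : CuspForm (G0 N) k, qExpansion 1 f = φ) (fun φ => Iff.rfl) ?_ ?_
  · rintro σ _ ⟨f, rfl⟩
    obtain ⟨w, Q, P, hQ0, hfQ, hQr, hPr⟩ := hfrac f
    obtain ⟨n, c, hc⟩ := hnorm f
    obtain ⟨Q', -, hQ'⟩ := exists_conj (hΓ0 N) hQr (σ : ℂ →+* ℂ)
    obtain ⟨P', -, hP'⟩ := exists_conj (hΓ0 N) hPr (σ : ℂ →+* ℂ)
    choose c' hc' using fun s => cusp_conj (c s) (hcusp _ (c s)) (σ : ℂ →+* ℂ)
    refine exists_cuspForm_of_qExp_relations N P' Q' n c' _ ?_ ?_ ?_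
    · rw [hQ']
      exact Cert.map_ne_zero _ (qExp_ne_zero N Q hQ0)
    · rw [hQ', hP', ← map_mul, qExp_mul_of_pointwise N f Q P hfQ]
    · have := congrArg (PowerSeries.map (σ : ℂ →+* ℂ)) (qExp_monic_of_pointwise N f n c hc)
      simp only [map_add, map_sum, map_mul, map_pow, map_zero] at this
      simpa only [hc'] using this
  · rintro _ hφ ⟨f, rfl⟩
    obtain ⟨w, Q, P, hQ0, hfQ, hQr, hPr⟩ := hfrac f
    obtain ⟨n, c, hc⟩ := hnorm f
    refine exists_isInt_of_cert (Qs := {M : PowerSeries ℂ | IsInt M})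
      (Ps := {M : PowerSeries ℂ | IsInt M}) (Es := fun _ _ => {M : PowerSeries ℂ | IsInt M})
      (fun M hM => IsInt.isBddDen hM) (fun M hM => IsInt.isBddDen hM)
      (fun _ _ M hM => IsInt.isBddDen hM) hφ ?_ ?_
    · exact ⟨_, qExp_mem_span_of_ratSpan N Q hQr, _, qExp_mem_span_of_ratSpan N P hPr,
        qExp_ne_zero N Q hQ0, qExp_mul_of_pointwise N f Q P hfQ⟩
    · exact critII_of_monic (fun s => qExpansion 1 (c s)) _
        (fun s => qExp_mem_span_of_cusp (c s) (hcusp _ (c s)))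
        (qExp_monic_of_pointwise N f n c hc)

end Fermat.Agent.S23.WiringB
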